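import Mathlib

/-!
# S28 (Igusa): two generic algebra lemmas

* `isIntegral_inf` : inside a field `L`, with a subfield `K` and two subrings `R₁ R₂ ≤ K` which are
  integrally closed in `K`, an element of `L` integral over both is integral over `R₁ ⊓ R₂`.
* `mem_adjoin_of_isIntegral` : for `t` transcendental over `k₀`, the ring `k₀[t]` is integrally
  closed in `k₀(t)`.
-/

set_option autoImplicit false
set_option linter.style.haveILetI false

noncomputable section

namespace Fermat.Agent.IgusaLib

open Polynomial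

section ALG

variable {L : Type*} [Field L]

/-- Coefficients of the minimal polynomial over `K` of an element integral over `R ≤ K`
(with `R` integrally closed in `K`) lie in `R`. -/
theorem coeff_minpoly_mem (K : Subfield L) (R : Subring L) (hR : R ≤ K.toSubring)
    (h : ∀ x ∈ K, IsIntegral R x → x ∈ R) (y : L) (hy : IsIntegral R y) (n : ℕ) :
    (((minpoly K y).coeff n : K) : L) ∈ R := by
  letI : Algebra R K := (Subring.inclusion hR).toAlgebra
  have hcomp : (algebraMap K L).comp (algebraMap R K) = algebraMap R L := by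
    ext x; rfl
  obtain ⟨f, hf, hfy⟩ := hy
  have hyK : IsIntegral K y := by
    refine ⟨f.map (algebraMap R K), hf.map _, ?_⟩
    rw [eval₂_map, hcomp]; exact hfy
  have hd : minpoly K y ∣ f.map (algebraMap R K) := by
    refine minpoly.dvd K y ?_
    rw [aeval_def, eval₂_map, hcomp]; exact hfy
  have hl := integralClosure.mem_lifts_of_monic_of_dvd_map K hf (minpoly.monic hyK) hd
  obtain ⟨c, hc⟩ := (lifts_iff_coeff_lifts _).mp hl n
  have hcint : IsIntegral R ((minpoly K y).coeff n) := by
    rw [← hc]; exact c.2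
  refine h _ ((minpoly K y).coeff n).2 ?_
  exact IsIntegral.map_of_comp_eq (RingHom.id R) K.subtype (by ext x; rfl) hcint

/-- **[ALG]** An element integral over two subrings `R₁, R₂` of a subfield `K`, each integrally
closed in `K`, is integral over their intersection. -/
theorem isIntegral_inf (K : Subfield L) (R₁ R₂ : Subring L)
    (hR₁ : R₁ ≤ K.toSubring) (hR₂ : R₂ ≤ K.toSubring)
    (h₁ : ∀ x ∈ K, IsIntegral R₁ x → x ∈ R₁) (h₂ : ∀ x ∈ K, IsIntegral R₂ x → x ∈ R₂)
    (y : L) (hy₁ : IsIntegral R₁ y) (hy₂ : IsIntegral R₂ y) : IsIntegral ↥(R₁ ⊓ R₂) y := by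
  have hyK : IsIntegral K y := by
    obtain ⟨f, hf, hfy⟩ := hy₁
    refine ⟨f.map (Subring.inclusion hR₁), hf.map _, ?_⟩
    rw [eval₂_map]; exact hfy
  have hl : (minpoly K y).map K.subtype ∈ lifts (algebraMap ↥(R₁ ⊓ R₂) L) := by
    rw [lifts_iff_coeff_lifts]
    intro n
    rw [coeff_map]
    exact ⟨⟨_, coeff_minpoly_mem K R₁ hR₁ h₁ y hy₁ n, coeff_minpoly_mem K R₂ hR₂ h₂ y hy₂ n⟩, rfl⟩
  obtain ⟨q, hq, -, hqm⟩ := lifts_and_natDegree_eq_and_monic hl ((minpoly.monic hyK).map _)
  refine ⟨q, hqm, ?_⟩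
  rw [← eval_map, hq, eval_map]
  exact minpoly.aeval K y

end ALG

section ICL

open IntermediateField IntermediateField.algebraAdjoinAdjoin

variable {k₀ L : Type*} [Field k₀] [Field L] [Algebra k₀ L]

/-- For `t` transcendental over `k₀`, the ring `k₀[t]` is integrally closed. -/
theorem isIntegrallyClosed_adjoin_singleton (t : L) (ht : Transcendental k₀ t) :
    IsIntegrallyClosed ↥(Algebra.adjoin k₀ {t}) := by
  have hinj : Function.Injective (aeval t : k₀[X] →ₐ[k₀] L) :=
    transcendental_iff_injective.mp ht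
  let e : k₀[X] ≃ₐ[k₀] ↥(Algebra.adjoin k₀ {t}) :=
    (AlgEquiv.ofInjective (aeval t : k₀[X] →ₐ[k₀] L) hinj).trans
      (Subalgebra.equivOfEq _ _ (Algebra.adjoin_singleton_eq_range_aeval k₀ t).symm)
  exact IsIntegrallyClosed.of_equiv e.toRingEquiv

/-- **[ICL]** For `t` transcendental over `k₀`, an element of `k₀(t)` which is integral over
`k₀[t]` lies in `k₀[t]`. -/
theorem mem_adjoin_of_isIntegral (t : L) (ht : Transcendental k₀ t) (x : L)
    (hx : x ∈ IntermediateField.adjoin k₀ {t})
    (hint : IsIntegral ↥(Algebra.adjoin k₀ {t}) x) : x ∈ Algebra.adjoin k₀ {t} := by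
  haveI := isIntegrallyClosed_adjoin_singleton t ht
  have hint' : IsIntegral ↥(Algebra.adjoin k₀ {t})
      (⟨x, hx⟩ : IntermediateField.adjoin k₀ {t}) :=
    (isIntegral_algebraMap_iff (A := IntermediateField.adjoin k₀ {t}) (B := L)
      (algebraMap (IntermediateField.adjoin k₀ {t}) L).injective).mp hint
  obtain ⟨r, hr⟩ := (IsIntegrallyClosed.isIntegral_iff
    (R := ↥(Algebra.adjoin k₀ {t})) (K := IntermediateField.adjoin k₀ {t})).mp hint'
  have : (r : L) = x := congrArg Subtype.val hr
  rw [← this]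
  exact r.2

/-- `k₀(t⁻¹) = k₀(t)`. -/
theorem adjoin_inv_eq_adjoin (t : L) :
    IntermediateField.adjoin k₀ {t⁻¹} = IntermediateField.adjoin k₀ {t} := by
  apply le_antisymm
  · rw [IntermediateField.adjoin_simple_le_iff]
    exact inv_mem (IntermediateField.mem_adjoin_simple_self k₀ t)
  · rw [IntermediateField.adjoin_simple_le_iff]
    have h := inv_mem (IntermediateField.mem_adjoin_simple_self k₀ t⁻¹)
    rwa [inv_inv] at h

/-- `t⁻¹` is transcendental if `t` is. -/
theorem transcendental_inv_of_transcendental (t : L) (ht : Transcendental k₀ t) :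
    Transcendental k₀ t⁻¹ := by
  intro h
  apply ht
  have := h.inv
  rwa [inv_inv] at this

/-- **[ICL]** at infinity: an element of `k₀(t)` which is integral over `k₀[t⁻¹]` lies in
`k₀[t⁻¹]`. -/
theorem mem_adjoin_inv_of_isIntegral (t : L) (ht : Transcendental k₀ t) (x : L)
    (hx : x ∈ IntermediateField.adjoin k₀ {t})
    (hint : IsIntegral ↥(Algebra.adjoin k₀ {t⁻¹}) x) : x ∈ Algebra.adjoin k₀ {t⁻¹} :=
  mem_adjoin_of_isIntegral t⁻¹ (transcendental_inv_of_transcendental t ht) x
    (by rw [adjoin_inv_eq_adjoin]; exact hx) hint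

/-- Subring form of `mem_adjoin_of_isIntegral`. -/
theorem mem_adjoin_toSubring_of_isIntegral (t : L) (ht : Transcendental k₀ t) (x : L)
    (hx : x ∈ IntermediateField.adjoin k₀ {t})
    (hint : IsIntegral ↥(Algebra.adjoin k₀ {t}).toSubring x) :
    x ∈ (Algebra.adjoin k₀ {t}).toSubring := by
  refine mem_adjoin_of_isIntegral t ht x hx ?_
  obtain ⟨f, hf, hfx⟩ := hint
  exact ⟨f, hf, hfx⟩

/-- Subring form of `mem_adjoin_inv_of_isIntegral`. -/
theorem mem_adjoin_inv_toSubring_of_isIntegral (t : L) (ht : Transcendental k₀ t) (x : L)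
    (hx : x ∈ IntermediateField.adjoin k₀ {t})
    (hint : IsIntegral ↥(Algebra.adjoin k₀ {t⁻¹}).toSubring x) :
    x ∈ (Algebra.adjoin k₀ {t⁻¹}).toSubring := by
  refine mem_adjoin_inv_of_isIntegral t ht x hx ?_
  obtain ⟨f, hf, hfx⟩ := hint
  exact ⟨f, hf, hfx⟩

end ICL

section transfer

variable {L : Type*} [Field L]

/-- Integrality is monotone in the subring. -/
theorem isIntegral_of_subring_le {R R' : Subring L} (h : R ≤ R') {y : L} (hy : IsIntegral R y) :
    IsIntegral R' y :=
  IsIntegral.map_of_comp_eq (Subring.inclusion h) (RingHom.id L) (by ext x; rfl) hy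

end transfer

end Fermat.Agent.IgusaLib
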