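import Mathlib
import Fermat.Prelude.Def_ModularCurve_IgusaScheme
import Fermat.Prelude.Def_ModularCurve_JqCoeff
import Fermat.Prelude.Def_ModularCurve_LaurentCoeff

/-!
# Common vocabulary for the Igusa integrality statement (S28)

Definitions only (plus the few lemmas needed to make them usable):
`Zl`, `redZl`, `Vd`, `tw`, `deltaS`, `deltaInvS`, `dStd`, `dFr`, `dInf`, `dTw`, `ev`, `PrimeData`.
-/

set_option autoImplicit false

noncomputable section

namespace Fermat.Agent.IgusaLib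

open Polynomial ModularCurve

/-- The ring `ℤ_(ℓ)` (rationals with denominator prime to `ℓ`). -/
abbrev Zl (ℓ : ℕ) : Type := ↥(GaloisRep.ratLocalizedAt ℓ)

theorem Zl_den_ne_zero (ℓ : ℕ) [Fact ℓ.Prime] (a : Zl ℓ) : (((a : ℚ).den : ℕ) : ZMod ℓ) ≠ 0 := by
  have h : (a : ℚ).den.Coprime ℓ := a.2
  rw [Ne, ZMod.natCast_eq_zero_iff]
  intro hdvd
  have h1 : ℓ ∣ Nat.gcd (a : ℚ).den ℓ := Nat.dvd_gcd hdvd dvd_rfl
  rw [Nat.Coprime] at h
  rw [h] at h1
  exact (Fact.out : ℓ.Prime).one_lt.ne' (Nat.dvd_one.mp h1)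

/-- Reduction mod `ℓ`, `ℤ_(ℓ) → 𝔽_ℓ`. -/
def redZl (ℓ : ℕ) [Fact ℓ.Prime] : Zl ℓ →+* ZMod ℓ where
  toFun a := ((a : ℚ) : ZMod ℓ)
  map_one' := by simp
  map_mul' a b := Rat.cast_mul_of_ne_zero (Zl_den_ne_zero ℓ a) (Zl_den_ne_zero ℓ b)
  map_zero' := by simp
  map_add' a b := Rat.cast_add_of_ne_zero (Zl_den_ne_zero ℓ a) (Zl_den_ne_zero ℓ b)

theorem redZl_apply (ℓ : ℕ) [Fact ℓ.Prime] (a : Zl ℓ) : redZl ℓ a = ((a : ℚ) : ZMod ℓ) := rfl

section Series

variable {R : Type*} [CommRing R]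

/-- Total version of `ModularCurve.qExpand` (`q ↦ q^d`); the identity for `d = 0`. -/
def Vd (R : Type*) [CommRing R] (d : ℕ) : LaurentSeries R →+* LaurentSeries R :=
  if h : d = 0 then RingHom.id _ else @qExpand R _ d ⟨h⟩

theorem Vd_eq (R : Type*) [CommRing R] (d : ℕ) [NeZero d] : Vd R d = qExpand R d :=
  dif_neg (NeZero.ne d)

/-- Underlying function of the twist `q ↦ u q`. -/
def twFun (u : Rˣ) (f : LaurentSeries R) : LaurentSeries R :=
  ⟨fun n => ((u ^ n : Rˣ) : R) * f.coeff n,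
    f.isPWO_support.mono (fun n hn => by
      simp only [Function.mem_support, ne_eq] at hn
      exact fun h => hn (by rw [h, mul_zero]))⟩

theorem twFun_coeff (u : Rˣ) (f : LaurentSeries R) (n : ℤ) :
    (twFun u f).coeff n = ((u ^ n : Rˣ) : R) * f.coeff n := rfl

theorem twFun_support (u : Rˣ) (f : LaurentSeries R) : (twFun u f).support = f.support := by
  ext n
  simp only [HahnSeries.mem_support, twFun_coeff, ne_eq, Units.mul_right_eq_zero]

/-- The twist automorphism `q ↦ u q` of `R((q))`: the `n`-th coefficient is multiplied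
by `u ^ n`. -/
def tw (u : Rˣ) : LaurentSeries R →+* LaurentSeries R where
  toFun := twFun u
  map_zero' := by ext n; simp [twFun_coeff]
  map_one' := by
    ext n
    rw [twFun_coeff, HahnSeries.coeff_one]
    split_ifs with h
    · subst h; simp
    · simp
  map_add' f g := by ext n; simp [twFun_coeff, mul_add]
  map_mul' f g := by
    ext n
    rw [twFun_coeff, HahnSeries.coeff_mul, HahnSeries.coeff_mul, Finset.mul_sum]
    refine Finset.sum_congr ?_ fun ij hij => ?_
    · ext ij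
      simp [twFun_support]
    · have h : ij.1 + ij.2 = n := by
        have h' := hij
        simp only [Finset.mem_addAntidiagonal] at h'
        exact h'.2.2
      rw [twFun_coeff, twFun_coeff, ← h, zpow_add, Units.val_mul]
      ring

@[simp] theorem tw_coeff (u : Rˣ) (f : LaurentSeries R) (n : ℤ) :
    (tw u f).coeff n = ((u ^ n : Rˣ) : R) * f.coeff n := rfl

/-- The `Δ`-series `q ∏ (1 - q^n)^24` over any commutative ring. -/
def deltaS (R : Type*) [CommRing R] : LaurentSeries R :=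
  HahnSeries.single (1 : ℤ) 1 *
    HahnSeries.ofPowerSeries ℤ R (dedekindEtaUnit.map (Int.castRingHom R))

/-- The inverse of the `Δ`-series. -/
def deltaInvS (R : Type*) [CommRing R] : LaurentSeries R :=
  HahnSeries.single (-1 : ℤ) 1 *
    HahnSeries.ofPowerSeries ℤ R (dedekindEtaUnitInv.map (Int.castRingHom R))

/-- `p^12 Δ(q^p) / Δ(q)`: the expansion of `D'(z) = p^12 Δ(pz)/Δ(z)`. -/
def dStd (R : Type*) [CommRing R] (p : ℕ) : LaurentSeries R :=
  (p : LaurentSeries R) ^ 12 * Vd R p (deltaS R) * deltaInvS R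

/-- `Δ(q) / Δ(q^p)`: the expansion of the Fricke transform of `D'`. -/
def dFr (R : Type*) [CommRing R] (p : ℕ) : LaurentSeries R :=
  deltaS R * Vd R p (deltaInvS R)

/-- `p^12 Δ(q^(p^2)) / Δ(q^p) = V_p (dStd)`. -/
def dInf (R : Type*) [CommRing R] (p : ℕ) : LaurentSeries R :=
  (p : LaurentSeries R) ^ 12 * Vd R (p * p) (deltaS R) * Vd R p (deltaInvS R)

/-- `Δ(u q) / Δ(q^p) = tw u (dFr)` (for `u ^ p = 1`). -/
def dTw (R : Type*) [CommRing R] (p : ℕ) (u : Rˣ) : LaurentSeries R :=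
  tw u (deltaS R) * Vd R p (deltaInvS R)

/-- Evaluation `R[X] → R((q))`, `G ↦ G(x)`. -/
abbrev ev (x : LaurentSeries R) : Polynomial R →+* LaurentSeries R :=
  (Polynomial.aeval x).toRingHom

theorem ev_apply (x : LaurentSeries R) (G : Polynomial R) : ev x G = Polynomial.aeval x G := rfl

end Series

/-- The level-`p` data in characteristic prime to `p` used for S28: a primitive `p`-th root of
unity `ζ` and three polynomials `Φ, Ψ, P ∈ k[X][Y]` whose specialisations at `X = j(q^p)` split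
with the indicated roots (`Φ` = modular polynomial, `Ψ` = polynomial of `p^12 Δ(pz)/Δ(z)`,
`P` = polynomial of `j(pz)^2 · p^12 Δ(pz)/Δ(z)`). -/
structure PrimeData (k : Type*) [Field k] (p : ℕ) where
  ζ : kˣ
  hζ : IsPrimitiveRoot ζ p
  Φ : Polynomial (Polynomial k)
  Ψ : Polynomial (Polynomial k)
  P : Polynomial (Polynomial k)
  hΦ : Φ.map (ev (Vd k p (jqModC k))) =
    (X - C (Vd k (p * p) (jqModC k))) *
      ∏ b ∈ Finset.range p, (X - C (tw (ζ ^ b) (jqModC k)))
  hΨ : Ψ.map (ev (Vd k p (jqModC k))) =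
    (X - C (dInf k p)) * ∏ b ∈ Finset.range p, (X - C (dTw k p (ζ ^ b)))
  hP : P.map (ev (Vd k p (jqModC k))) =
    (X - C ((Vd k (p * p) (jqModC k)) ^ 2 * dInf k p)) *
      ∏ b ∈ Finset.range p, (X - C ((tw (ζ ^ b) (jqModC k)) ^ 2 * dTw k p (ζ ^ b)))

end Fermat.Agent.IgusaLib
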