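import Mathlib
import Fermat.Agent.GenusLib.Conj24
import Fermat.Agent.GenusLib.Bridge

/-!
# Analytic input for the modular equations of level `N` (Igusa project)

For `a ∈ WH N 0` the polynomials `cpoly N a 1 k ∈ ℂ[X]` (`k ≤ μ = [SL₂(ℤ) : Γ₀(N)]`) are the
coefficients of a polynomial `P_a(X, Y) = ∑_k cpoly_k(X) Y^k`, monic of degree `μ` in `Y`, with
`P_a(j(w), a(γ w)) = 0` for all `γ ∈ SL₂(ℤ)` and all `w`.  Taking `w = N z`, `γ = S` gives the
relation for the Fricke transform `frk N a (z) = a(-1/(N z))`:  `P_a(j(N z), frk N a (z)) = 0`.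
Both relations are transported to Laurent `q`-expansions.  The instances are `a = j(N z)`
(`frk = j`) and the Weber function `a = N^12 Δ(N z)/Δ(z)` (`frk = Δ(z)/Δ(N z)`), and sums.
-/

set_option autoImplicit false
set_option linter.unusedSectionVars false

noncomputable section

namespace Fermat.Agent.IgusaLib.Weber

open UpperHalfPlane hiding I
open Filter Topology
open scoped MatrixGroups ModularForm Manifold
open CongruenceSubgroup Polynomial
open Fermat.Agent.S23Lib Fermat.Agent.S23Lib.Conj Fermat.Agent.S23Lib.Distinct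
open Fermat.Agent.GenusLib.Defs
open Fermat.Agent.GenusLib Fermat.Agent.GenusLib.LS Fermat.Agent.GenusLib.LevelOne
open Fermat.Agent.GenusLib.Conj24 Fermat.Agent.GenusLib.QExp Fermat.Agent.GenusLib.Bridge
open Fermat.Agent.GenusLib.BStruct

local notation "Δ" => ModularForm.discriminant

variable {N : ℕ} [NeZero N] {a : ℍ → ℂ}

/-! ### The relation, pointwise -/

theorem one_mem_WH : (1 : ℍ → ℂ) ∈ WH N 0 := (BAlg N).one_mem

/-- `P_a` is monic of degree `μ` in `Y`. -/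
theorem cpoly_card_eq_one (ha : a ∈ WH N 0) : cpoly N a 1 (Nat.card (LS.X N)) = 1 := by
  apply polyJ_injective
  rw [polyJ_cpoly_card ha one_mem_WH, polyJ_one]
  refine Finset.prod_eq_one fun q _ => ?_
  funext z
  rw [LS.trn_apply]
  rfl

/-- `P_a(j(w), a(w)) = 0`. -/
theorem cpoly_rel_apply (ha : a ∈ WH N 0) (w : ℍ) :
    ∑ k ∈ Finset.range (Nat.card (LS.X N) + 1), (cpoly N a 1 k).eval (jFun w) * a w ^ k = 0 := by
  have h := congrFun (cpoly_rel ha (one_mem_WH (N := N))) w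
  rw [Finset.sum_apply] at h
  simpa [polyJ_apply] using h

/-- `P_a(j(w), a(γ w)) = 0` for every `γ ∈ SL₂(ℤ)`. -/
theorem cpoly_rel_smul (ha : a ∈ WH N 0) (γ : SL(2, ℤ)) (w : ℍ) :
    ∑ k ∈ Finset.range (Nat.card (LS.X N) + 1),
      (cpoly N a 1 k).eval (jFun w) * a (γ • w) ^ k = 0 := by
  have h := cpoly_rel_apply ha (γ • w)
  rwa [WHBasic.jFun_smul] at h

/-! ### The Fricke transform -/

/-- The Fricke transform `z ↦ a(-1/(N z))`. -/
def frk (N : ℕ) [NeZero N] (a : ℍ → ℂ) : ℍ → ℂ := fun z => a (ModularGroup.S • dilPt N z)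

theorem frk_apply (a : ℍ → ℂ) (z : ℍ) : frk N a z = a (ModularGroup.S • dilPt N z) := rfl

theorem frk_add (a b : ℍ → ℂ) : frk N (a + b) = frk N a + frk N b := rfl

theorem frk_mul (a b : ℍ → ℂ) : frk N (a * b) = frk N a * frk N b := rfl

theorem frk_smul (c : ℂ) (a : ℍ → ℂ) : frk N (c • a) = c • frk N a := rfl

theorem frk_pow (a : ℍ → ℂ) (n : ℕ) : frk N (a ^ n) = frk N a ^ n := rfl

/-- `P_a(j(N z), (frk a)(z)) = 0`, as an identity of functions. -/
theorem cpoly_rel_frk (ha : a ∈ WH N 0) :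
    ∑ k ∈ Finset.range (Nat.card (LS.X N) + 1),
      dil N (polyJ (cpoly N a 1 k)) * frk N a ^ k = 0 := by
  funext z
  rw [Finset.sum_apply]
  simpa [dil_apply, polyJ_apply, frk_apply] using cpoly_rel_smul ha ModularGroup.S (dilPt N z)

/-- `P_a(j(z), a(z)) = 0`, as an identity of functions. -/
theorem cpoly_rel_fun (ha : a ∈ WH N 0) :
    ∑ k ∈ Finset.range (Nat.card (LS.X N) + 1), polyJ (cpoly N a 1 k) * a ^ k = 0 := by
  funext z
  rw [Finset.sum_apply]
  simpa [polyJ_apply] using cpoly_rel_apply ha z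

theorem coe_S_smul (w : ℍ) : ((ModularGroup.S • w : ℍ) : ℂ) = -(w : ℂ)⁻¹ := by
  rw [UpperHalfPlane.modular_S_smul, neg_inv]

theorem dilPt_S_smul_dilPt (z : ℍ) : dilPt N (ModularGroup.S • dilPt N z) = ModularGroup.S • z := by
  apply UpperHalfPlane.ext
  rw [coe_dilPt, coe_S_smul, coe_S_smul, coe_dilPt]
  have hN : (N : ℂ) ≠ 0 := Nat.cast_ne_zero.mpr (NeZero.ne N)
  have hz : (z : ℂ) ≠ 0 := ne_zero z
  field_simp

/-- The Fricke transform of `j(N z)` is `j(z)`. -/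
theorem frk_dil_jFun : frk N (dil N jFun) = jFun := by
  funext z
  rw [frk_apply, dil_apply, dilPt_S_smul_dilPt, WHBasic.jFun_smul]

/-! ### The Weber function -/

/-- The Weber function `N^12 Δ(N z)/Δ(z)`. -/
def wb (N : ℕ) [NeZero N] : ℍ → ℂ := ((N : ℂ) ^ 12) • hfun N

/-- Its Fricke transform `Δ(z)/Δ(N z)`. -/
def wbF (N : ℕ) [NeZero N] : ℍ → ℂ := fun z => Δ z / Δ (dilPt N z)

theorem wb_mem_WH : wb N ∈ WH N 0 := (WH N 0).smul_mem _ ⟨1, hfun_mem_WHle N⟩

theorem hfun_apply (z : ℍ) : hfun N z = Δ (dilPt N z) / Δ z := by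
  simp [hfun, deltaN_apply, dpow_apply, div_eq_mul_inv]

theorem frk_wb : frk N (wb N) = wbF N := by
  funext z
  have hN : (N : ℂ) ≠ 0 := Nat.cast_ne_zero.mpr (NeZero.ne N)
  have hz : (z : ℂ) ≠ 0 := ne_zero z
  have h1 : Δ z ≠ 0 := ModularForm.discriminant_ne_zero z
  have h2 : Δ (dilPt N z) ≠ 0 := ModularForm.discriminant_ne_zero _
  rw [frk_apply, wb, Pi.smul_apply, hfun_apply, dilPt_S_smul_dilPt, Defs.discriminant_smul,
    Defs.discriminant_smul, ModularGroup.denom_S, ModularGroup.denom_S, coe_dilPt, wbF,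
    smul_eq_mul]
  have e : ((12 : ℤ)) = ((12 : ℕ) : ℤ) := rfl
  rw [e, zpow_natCast, zpow_natCast]
  field_simp

/-! ### `q`-expansions -/

theorem qm_hfun : QM (hfun N) := qm_of_mem_WH ⟨1, hfun_mem_WHle N⟩

theorem qm_wb : QM (wb N) := qm_of_mem_WH wb_mem_WH

theorem hfun_mul_discriminant : hfun N * (Δ : ℍ → ℂ) = dil N (Δ : ℍ → ℂ) := by
  funext z
  rw [Pi.mul_apply, hfun_apply, dil_apply, div_mul_cancel₀ _ (ModularForm.discriminant_ne_zero z)]

theorem qExpand_qΔ_ne_zero : ModularCurve.qExpand ℂ N qΔ ≠ 0 :=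
  (map_ne_zero (ModularCurve.qExpand ℂ N)).mpr qΔ_ne_zero

/-- The `q`-expansion of `Δ(N z)/Δ(z)`. -/
theorem lexp_hfun : lexp (hfun N) = ModularCurve.qExpand ℂ N qΔ * qΔ⁻¹ := by
  have h := congrArg lexp (hfun_mul_discriminant (N := N))
  rw [lexp_mul qm_hfun (QM.of_qf qf_discriminant), lexp_dil N (QM.of_qf qf_discriminant),
    lexp_discriminant] at h
  rw [← h, mul_assoc, mul_inv_cancel₀ qΔ_ne_zero, mul_one]

/-- The `q`-expansion of the Weber function. -/
theorem lexp_wb :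
    lexp (wb N) = HahnSeries.C ((N : ℂ) ^ 12) * (ModularCurve.qExpand ℂ N qΔ * qΔ⁻¹) := by
  have h : wb N = (fun _ : ℍ => (N : ℂ) ^ 12) * hfun N := by
    funext z
    simp [wb]
  rw [h, lexp_mul (QM.const _) qm_hfun, lexp_const, lexp_hfun, FormalLD.C_eq_algebraMap]

theorem wbF_mul_pow : wbF N * (Δ : ℍ → ℂ) ^ N = (Δ : ℍ → ℂ) * dilUnit N := by
  funext z
  simp only [Pi.mul_apply, Pi.pow_apply, wbF, dilUnit]
  ring

theorem qm_wbF : QM (wbF N) := ⟨N, by
  rw [wbF_mul_pow]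
  exact qf_discriminant.mul (qf_dilUnit N)⟩

theorem wbF_mul_hfun : wbF N * hfun N = 1 := by
  funext z
  rw [Pi.mul_apply, hfun_apply, wbF, Pi.one_apply]
  have h1 : Δ z ≠ 0 := ModularForm.discriminant_ne_zero z
  have h2 : Δ (dilPt N z) ≠ 0 := ModularForm.discriminant_ne_zero _
  field_simp

/-- The `q`-expansion of `Δ(z)/Δ(N z)`. -/
theorem lexp_wbF : lexp (wbF N) = qΔ * (ModularCurve.qExpand ℂ N qΔ)⁻¹ := by
  have h := congrArg lexp (wbF_mul_hfun (N := N))
  rw [lexp_mul qm_wbF qm_hfun, lexp_one, lexp_hfun] at h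
  have h3 : ModularCurve.qExpand ℂ N qΔ * qΔ⁻¹ ≠ 0 :=
    mul_ne_zero qExpand_qΔ_ne_zero (inv_ne_zero qΔ_ne_zero)
  rw [eq_comm, ← mul_right_inj' h3 (a := ModularCurve.qExpand ℂ N qΔ * qΔ⁻¹)]
  rw [mul_comm] at h
  rw [h]
  field_simp [qΔ_ne_zero, qExpand_qΔ_ne_zero (N := N)]

/-! ### The formal relations -/

theorem qm_polyJ (P : ℂ[X]) : QM (polyJ P) :=
  qm_of_mem_WH (Dual.polyJ_mem_WH (N := 1) P)

theorem lexp_polyJ (P : ℂ[X]) : lexp (polyJ P) = aeval (lexp jFun) P := by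
  induction P using Polynomial.induction_on' with
  | add p q hp hq =>
    rw [polyJ_add, lexp_add (qm_polyJ p) (qm_polyJ q), hp, hq, map_add]
  | monomial n c =>
    have h : polyJ (monomial n c) = (fun _ : ℍ => c) * jFun ^ n := by
      funext z
      simp [polyJ_apply]
    rw [h, lexp_mul (QM.const c) (qm_jFun.pow n), lexp_const, lexp_pow qm_jFun,
      ← C_mul_X_pow_eq_monomial, map_mul, aeval_C, map_pow, aeval_X]

theorem qm_sum {ι : Type*} (s : Finset ι) (f : ι → ℍ → ℂ) (hf : ∀ i ∈ s, QM (f i)) :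
    QM (∑ i ∈ s, f i) := by
  classical
  induction s using Finset.induction_on with
  | empty => simpa using QM.zero
  | insert i s hi ih =>
    rw [Finset.sum_insert hi]
    exact (hf i (Finset.mem_insert_self i s)).add
      (ih fun j hj => hf j (Finset.mem_insert_of_mem hj))

theorem lexp_sum {ι : Type*} (s : Finset ι) (f : ι → ℍ → ℂ) (hf : ∀ i ∈ s, QM (f i)) :
    lexp (∑ i ∈ s, f i) = ∑ i ∈ s, lexp (f i) := by
  classical
  induction s using Finset.induction_on with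
  | empty => simpa using lexp_zero
  | insert i s hi ih =>
    rw [Finset.sum_insert hi, Finset.sum_insert hi,
      lexp_add (hf i (Finset.mem_insert_self i s))
        (qm_sum s f fun j hj => hf j (Finset.mem_insert_of_mem hj)),
      ih fun j hj => hf j (Finset.mem_insert_of_mem hj)]

/-- **First formal relation**: `P_a(J, lexp a) = 0`. -/
theorem lexp_rel (ha : a ∈ WH N 0) :
    ∑ k ∈ Finset.range (Nat.card (LS.X N) + 1),
      aeval (lexp jFun) (cpoly N a 1 k) * lexp a ^ k = 0 := by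
  have hq : QM a := qm_of_mem_WH ha
  have h := congrArg lexp (cpoly_rel_fun ha)
  rw [lexp_zero, lexp_sum _ _ fun k _ => (qm_polyJ _).mul (hq.pow k)] at h
  rw [← h]
  refine Finset.sum_congr rfl fun k _ => ?_
  rw [lexp_mul (qm_polyJ _) (hq.pow k), lexp_polyJ, lexp_pow hq]

theorem qExpand_aeval (J : LaurentSeries ℂ) (P : ℂ[X]) :
    ModularCurve.qExpand ℂ N (aeval J P) = aeval (ModularCurve.qExpand ℂ N J) P := by
  rw [aeval_def, aeval_def, hom_eval₂]
  congr 1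
  refine RingHom.ext fun c => ?_
  rw [RingHom.comp_apply, ← FormalLD.C_eq_algebraMap, ModularCurve.qExpand_C]

/-- **Second formal relation**: `P_a(J(q^N), lexp (frk a)) = 0`. -/
theorem lexp_rel_frk (ha : a ∈ WH N 0) (hq : QM (frk N a)) :
    ∑ k ∈ Finset.range (Nat.card (LS.X N) + 1),
      aeval (ModularCurve.qExpand ℂ N (lexp jFun)) (cpoly N a 1 k) * lexp (frk N a) ^ k = 0 := by
  have h := congrArg lexp (cpoly_rel_frk ha)
  rw [lexp_zero, lexp_sum _ _ fun k _ => (qm_dil N (qm_polyJ _)).mul (hq.pow k)] at h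
  rw [← h]
  refine Finset.sum_congr rfl fun k _ => ?_
  rw [lexp_mul (qm_dil N (qm_polyJ _)) (hq.pow k), lexp_dil N (qm_polyJ _), lexp_polyJ,
    lexp_pow hq, qExpand_aeval]

/-! ### Packaging as bivariate polynomials -/

/-- The bivariate polynomial `P_a(X, Y) = ∑_k cpoly_k(X) Y^k`. -/
def bpoly (N : ℕ) [NeZero N] (a : ℍ → ℂ) : ℂ[X][X] :=
  ∑ k ∈ Finset.range (Nat.card (LS.X N) + 1), monomial k (cpoly N a 1 k)

theorem coeff_bpoly (a : ℍ → ℂ) (n : ℕ) :
    (bpoly N a).coeff n = if n ≤ Nat.card (LS.X N) then cpoly N a 1 n else 0 := by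
  rw [bpoly, Polynomial.finsetSum_coeff]
  simp only [coeff_monomial]
  rw [Finset.sum_ite_eq' (Finset.range (Nat.card (LS.X N) + 1)) n]
  simp only [Finset.mem_range, Nat.lt_succ_iff]

theorem natDegree_bpoly (ha : a ∈ WH N 0) : (bpoly N a).natDegree = Nat.card (LS.X N) := by
  apply le_antisymm
  · rw [natDegree_le_iff_coeff_eq_zero]
    intro n hn
    rw [coeff_bpoly, if_neg (not_le.mpr hn)]
  · apply le_natDegree_of_ne_zero
    rw [coeff_bpoly, if_pos le_rfl, cpoly_card_eq_one ha]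
    exact one_ne_zero

theorem monic_bpoly (ha : a ∈ WH N 0) : (bpoly N a).Monic := by
  rw [Monic, leadingCoeff, natDegree_bpoly ha, coeff_bpoly, if_pos le_rfl, cpoly_card_eq_one ha]

theorem eval_map_bpoly (a : ℍ → ℂ) (x y : LaurentSeries ℂ) :
    ((bpoly N a).map (aeval x : ℂ[X] →ₐ[ℂ] LaurentSeries ℂ).toRingHom).eval y =
      ∑ k ∈ Finset.range (Nat.card (LS.X N) + 1), aeval x (cpoly N a 1 k) * y ^ k := by
  rw [eval_map, bpoly, eval₂_finsetSum]
  refine Finset.sum_congr rfl fun k _ => ?_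
  rw [eval₂_monomial]
  rfl

/-- **The modular equation of `a`**, on `q`-expansions. -/
theorem eval_bpoly (ha : a ∈ WH N 0) :
    ((bpoly N a).map (aeval (lexp jFun) : ℂ[X] →ₐ[ℂ] LaurentSeries ℂ).toRingHom).eval (lexp a)
      = 0 := by
  rw [eval_map_bpoly, lexp_rel ha]

/-- **The Fricke transform of the modular equation of `a`**, on `q`-expansions. -/
theorem eval_bpoly_frk (ha : a ∈ WH N 0) (hq : QM (frk N a)) :
    ((bpoly N a).map
      (aeval (ModularCurve.qExpand ℂ N (lexp jFun)) : ℂ[X] →ₐ[ℂ] LaurentSeries ℂ).toRingHom).eval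
        (lexp (frk N a)) = 0 := by
  rw [eval_map_bpoly, lexp_rel_frk ha hq]

/-! ### The three instances -/

theorem dil_jFun_mem_WH : dil N jFun ∈ WH N 0 := ⟨N, dil_jFun_mem_WHle dvd_rfl⟩

theorem sq_mul_wb_mem_WH : dil N jFun ^ 2 * wb N ∈ WH N 0 :=
  (BAlg N).mul_mem ((BAlg N).pow_mem dil_jFun_mem_WH 2) wb_mem_WH

theorem frk_sq_mul_wb : frk N (dil N jFun ^ 2 * wb N) = jFun ^ 2 * wbF N := by
  rw [frk_mul, frk_wb, frk_pow, frk_dil_jFun]

theorem lexp_sq_mul_wb :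
    lexp (dil N jFun ^ 2 * wb N) = ModularCurve.qExpand ℂ N (lexp jFun) ^ 2 * lexp (wb N) := by
  rw [lexp_mul ((qm_dil N qm_jFun).pow 2) qm_wb, lexp_pow (qm_dil N qm_jFun),
    lexp_dil N qm_jFun]

theorem lexp_sq_mul_wbF : lexp (jFun ^ 2 * wbF N) = lexp jFun ^ 2 * lexp (wbF N) := by
  rw [lexp_mul (qm_jFun.pow 2) qm_wbF, lexp_pow qm_jFun]

/-- The formal `Δ = q ∏ (1 - q^n)^24` over `ℂ`. -/
theorem qΔ_eq : qΔ = HahnSeries.single (1 : ℤ) (1 : ℂ) *
    HahnSeries.ofPowerSeries ℤ ℂ (ModularCurve.dedekindEtaUnit.map (Int.castRingHom ℂ)) := by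
  rw [qΔ, qExpansion_discriminant, map_mul, PowerSeries.map_X, map_mul,
    HahnSeries.ofPowerSeries_X]

theorem lexp_jFun_eq : lexp jFun = ModularCurve.jqModC ℂ := by
  have h : ModularCurve.coeffMap (algebraMap ℚ ℂ) (ModularCurve.jqModC ℚ) =
      (ModularCurve.jqModC ℚ).map (algebraMap ℚ ℂ) := rfl
  rw [lexp_jFun, ← ModularCurve.jqModC_rat, h, ModularCurve.map_jqModC]

end Fermat.Agent.IgusaLib.Weber
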