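import Mathlib
import Fermat.Agent.IgusaLib.Defs
import Fermat.Agent.IgusaLib.Weber
import Fermat.Agent.GenusLib.CosetCount

/-!
# [ANA]: the analytic input of the Igusa project (S28)

For a prime `p` there are three polynomials `Φ, Ψ, P ∈ ℂ[X][Y]`, monic of degree `p + 1` in `Y`,
with `Φ(J, J_p) = 0 = Φ(J_p, J)`, `Ψ(J, dStd) = 0 = Ψ(J_p, dFr)` and
`P(J, J_p² dStd) = 0 = P(J_p, J² dFr)` in `ℂ((q))`, where `J` is the formal `j`-series,
`J_p = J(q^p)`, `dStd = p^12 Δ(q^p)/Δ(q)` and `dFr = Δ(q)/Δ(q^p)`.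
-/

set_option autoImplicit false

noncomputable section

namespace Fermat.Agent.IgusaLib

open UpperHalfPlane hiding I
open scoped MatrixGroups
open CongruenceSubgroup Polynomial ModularCurve
open Fermat.Agent.GenusLib Fermat.Agent.GenusLib.Defs Fermat.Agent.GenusLib.QExp
open Fermat.Agent.IgusaLib.Weber

namespace AnaAux

theorem qΔ_eq_deltaS : qΔ = deltaS ℂ := qΔ_eq

theorem deltaS_mul_deltaInvS (R : Type*) [CommRing R] : deltaS R * deltaInvS R = 1 := by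
  have h1 : (HahnSeries.single (1 : ℤ) (1 : R)) * HahnSeries.single (-1 : ℤ) (1 : R) = 1 := by
    rw [HahnSeries.single_mul_single]
    simp
  have h2 : HahnSeries.ofPowerSeries ℤ R (dedekindEtaUnit.map (Int.castRingHom R)) *
      HahnSeries.ofPowerSeries ℤ R (dedekindEtaUnitInv.map (Int.castRingHom R)) = 1 := by
    rw [← map_mul, ← map_mul, dedekindEtaUnit_mul_inv, map_one, map_one]
  rw [deltaS, deltaInvS, mul_mul_mul_comm, h1, h2, one_mul]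

theorem qΔ_inv : qΔ⁻¹ = deltaInvS ℂ := by
  rw [inv_eq_iff_eq_inv, eq_comm, inv_eq_of_mul_eq_one_left]
  rw [qΔ_eq_deltaS]
  exact deltaS_mul_deltaInvS ℂ

variable (p : ℕ) [NeZero p]

theorem lexp_wb_eq : lexp (wb p) = dStd ℂ p := by
  rw [lexp_wb, dStd, Vd_eq, qΔ_inv, qΔ_eq_deltaS, map_pow, map_natCast, mul_assoc]

theorem lexp_wbF_eq : lexp (wbF p) = dFr ℂ p := by
  rw [lexp_wbF, dFr, Vd_eq, ← qΔ_inv, map_inv₀, qΔ_eq_deltaS]

theorem card_X_prime {p : ℕ} (hp : p.Prime) :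
    haveI : NeZero p := ⟨hp.ne_zero⟩
    Nat.card (LS.X p) = p + 1 := by
  have : NeZero p := ⟨hp.ne_zero⟩
  have h := Cosets.dedekindPsi_prime_pow hp (k := 1) one_pos
  rw [pow_one, Nat.sub_self, pow_zero] at h
  rw [← h]
  exact Cosets.card_quot p

end AnaAux

open AnaAux

/-- **[ANA]**: the three modular equations of prime level `p` and their Fricke transforms, as
identities of Laurent series over `ℂ`. -/
theorem ana (p : ℕ) (hp : p.Prime) :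
    ∃ Φ Ψ P : Polynomial (Polynomial ℂ),
      Φ.Monic ∧ Φ.natDegree = p + 1 ∧ Ψ.Monic ∧ Ψ.natDegree = p + 1 ∧
      P.Monic ∧ P.natDegree = p + 1 ∧
      (Φ.map (ev (jqModC ℂ))).eval (Vd ℂ p (jqModC ℂ)) = 0 ∧
      (Φ.map (ev (Vd ℂ p (jqModC ℂ)))).eval (jqModC ℂ) = 0 ∧
      (Ψ.map (ev (jqModC ℂ))).eval (dStd ℂ p) = 0 ∧
      (Ψ.map (ev (Vd ℂ p (jqModC ℂ)))).eval (dFr ℂ p) = 0 ∧
      (P.map (ev (jqModC ℂ))).eval (Vd ℂ p (jqModC ℂ) ^ 2 * dStd ℂ p) = 0 ∧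
      (P.map (ev (Vd ℂ p (jqModC ℂ)))).eval (jqModC ℂ ^ 2 * dFr ℂ p) = 0 := by
  have : NeZero p := ⟨hp.ne_zero⟩
  have hμ : Nat.card (LS.X p) = p + 1 := card_X_prime hp
  have ha1 : dil p jFun ∈ WH p 0 := dil_jFun_mem_WH
  have ha2 : wb p ∈ WH p 0 := wb_mem_WH
  have ha3 : dil p jFun ^ 2 * wb p ∈ WH p 0 := sq_mul_wb_mem_WH
  have hJ : lexp jFun = jqModC ℂ := lexp_jFun_eq
  have hJp : lexp (dil p jFun) = Vd ℂ p (jqModC ℂ) := by
    rw [lexp_dil p qm_jFun, hJ, Vd_eq]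
  refine ⟨bpoly p (dil p jFun), bpoly p (wb p), bpoly p (dil p jFun ^ 2 * wb p),
    monic_bpoly ha1, (natDegree_bpoly ha1).trans hμ, monic_bpoly ha2,
    (natDegree_bpoly ha2).trans hμ, monic_bpoly ha3, (natDegree_bpoly ha3).trans hμ,
    ?_, ?_, ?_, ?_, ?_, ?_⟩
  · have h := eval_bpoly ha1
    rwa [hJ, hJp] at h
  · have h := eval_bpoly_frk ha1 (by rw [frk_dil_jFun]; exact qm_jFun)
    rwa [frk_dil_jFun, hJ, ← Vd_eq] at h
  · have h := eval_bpoly ha2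
    rwa [hJ, lexp_wb_eq] at h
  · have h := eval_bpoly_frk ha2 (by rw [frk_wb]; exact qm_wbF)
    rwa [frk_wb, hJ, ← Vd_eq, lexp_wbF_eq] at h
  · have h := eval_bpoly ha3
    rwa [lexp_sq_mul_wb, hJ, ← Vd_eq, lexp_wb_eq] at h
  · have h := eval_bpoly_frk ha3 (by rw [frk_sq_mul_wb]; exact (qm_jFun.pow 2).mul qm_wbF)
    rwa [frk_sq_mul_wb, lexp_sq_mul_wbF, hJ, ← Vd_eq, lexp_wbF_eq] at h

end Fermat.Agent.IgusaLib
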