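import Mathlib

/-!
# S28 (Igusa), step (1a): a scheme covered by two integral opens that meet is integral

Generic statements, no modular curves here.

* `irreducibleSpace_of_isOpen_union` : a topological space which is the union of two irreducible
  open subsets with nonempty intersection is irreducible;
* `isReduced_of_openImmersions` : a scheme covered by two reduced open subschemes is reduced;
* `isIntegral_of_openImmersions` : a scheme covered by two integral open subschemes whose images
  meet is integral.
-/

set_option autoImplicit false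

namespace Fermat.Agent.IgusaLib

open AlgebraicGeometry CategoryTheory TopologicalSpace

/-- A space covered by two irreducible open subsets with nonempty intersection is irreducible. -/
theorem irreducibleSpace_of_isOpen_union {X : Type*} [TopologicalSpace X] {U V : Set X}
    (hU : IsOpen U) (hV : IsOpen V) (hUi : IsIrreducible U) (hVi : IsIrreducible V)
    (hcov : ∀ x : X, x ∈ U ∨ x ∈ V) (hmeet : (U ∩ V).Nonempty) : IrreducibleSpace X := by
  -- every nonempty open subset meets `U ∩ V`
  have key : ∀ O : Set X, IsOpen O → O.Nonempty → (U ∩ (O ∩ V)).Nonempty := by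
    rintro O hO ⟨x, hx⟩
    rcases hcov x with hxU | hxV
    · exact hUi.2 O V hO hV ⟨x, hxU, hx⟩ hmeet
    · have h := hVi.2 O U hO hU ⟨x, hxV, hx⟩ (by rwa [Set.inter_comm])
      obtain ⟨y, hyV, hyO, hyU⟩ := h
      exact ⟨y, hyU, hyO, hyV⟩
  have hne : Nonempty X := ⟨hmeet.some⟩
  refine @IrreducibleSpace.mk X _ ⟨?_⟩ hne
  rintro O₁ O₂ hO₁ hO₂ ⟨x₁, -, hx₁⟩ ⟨x₂, -, hx₂⟩
  have h₁ := key O₁ hO₁ ⟨x₁, hx₁⟩
  have h₂ := key O₂ hO₂ ⟨x₂, hx₂⟩
  obtain ⟨y, -, ⟨hy₁, -⟩, ⟨hy₂, -⟩⟩ := hUi.2 (O₁ ∩ V) (O₂ ∩ V) (hO₁.inter hV) (hO₂.inter hV) h₁ h₂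
  exact ⟨y, Set.mem_univ y, hy₁, hy₂⟩

/-- A scheme covered by two reduced open subschemes is reduced. -/
theorem isReduced_of_openImmersions {X U V : Scheme.{0}} (a : U ⟶ X) (b : V ⟶ X)
    [IsOpenImmersion a] [IsOpenImmersion b] [IsReduced U] [IsReduced V]
    (hcov : ∀ x : X, x ∈ Set.range a.base ∨ x ∈ Set.range b.base) : IsReduced X := by
  have (x : X) : _root_.IsReduced (X.presheaf.stalk x) := by
    rcases hcov x with ⟨u, rfl⟩ | ⟨v, rfl⟩
    · exact isReduced_of_injective _
        (asIso <| a.stalkMap u).commRingCatIsoToRingEquiv.injective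
    · exact isReduced_of_injective _
        (asIso <| b.stalkMap v).commRingCatIsoToRingEquiv.injective
  exact isReduced_of_isReduced_stalk _

/-- A scheme covered by two integral open subschemes whose images meet is integral. -/
theorem isIntegral_of_openImmersions {X U V : Scheme.{0}} (a : U ⟶ X) (b : V ⟶ X)
    [IsOpenImmersion a] [IsOpenImmersion b] [IsIntegral U] [IsIntegral V]
    (hcov : ∀ x : X, x ∈ Set.range a.base ∨ x ∈ Set.range b.base)
    (hmeet : (Set.range a.base ∩ Set.range b.base).Nonempty) : IsIntegral X := by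
  have hred : IsReduced X := isReduced_of_openImmersions a b hcov
  have hirr : IrreducibleSpace X := by
    refine irreducibleSpace_of_isOpen_union (U := Set.range a.base) (V := Set.range b.base)
      a.isOpenEmbedding.isOpen_range b.isOpenEmbedding.isOpen_range ?_ ?_ hcov hmeet
    · rw [← Set.image_univ]
      exact (IrreducibleSpace.isIrreducible_univ U).image a.base a.continuous.continuousOn
    · rw [← Set.image_univ]
      exact (IrreducibleSpace.isIrreducible_univ V).image b.base b.continuous.continuousOn
  exact isIntegral_of_irreducibleSpace_of_isReduced X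

end Fermat.Agent.IgusaLib
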