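import Mathlib
import Fermat.Agent.GenusLib.FFDeg
import Fermat.Agent.GenusLib.Bridge
import Fermat.Prelude.Def_ModularCurve_IgusaScheme

/-!
# S28 (Igusa), step (3a): the degree of the function field over `ℚ(j)` in characteristic `0`

`F = modularFunctionFieldFull N = ℚ(j(q^d) : d ∣ N) ⊆ ℚ((q))`, `j = jFull N`.

* `exists_relation_full` : every `z ∈ F` satisfies a nonzero polynomial relation over `ℚ[j]` of
  degree at most `ψ(N) = Nat.card (X N)` (from the complex analytic bound of the S24 library and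
  descent of relations `ℂ → Qb → ℚ`);
* `finrank_full_le` : `[F : ℚ(j)] ≤ ψ(N)`.
-/

set_option autoImplicit false

noncomputable section

namespace Fermat.Agent.IgusaLib

open Polynomial IntermediateField ModularCurve ModularCurve.IgusaScheme
open Fermat.Agent.GenusLib Fermat.Agent.GenusLib.FF

variable (N : ℕ) [NeZero N]

/-- An embedding of `Qb` into `ℂ`. -/
def embQ : Qb →+* ℂ :=
  haveI : Algebra.IsAlgebraic ℚ (AlgebraicClosure ℚ) := AlgebraicClosure.isAlgebraic ℚ
  ((IsAlgClosed.lift : AlgebraicClosure ℚ →ₐ[ℚ] ℂ) : AlgebraicClosure ℚ →+* ℂ)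

/-- The bridge of `Bridge.lean` as a `BridgeData` (a copy of the one of the S24 assembly, to keep
the import closure small). -/
def bridgeQ : BridgeData N where
  ι := embQ
  e := Bridge.e N embQ
  lexp := Bridge.lexpM N
  lexp_const := fun z => by
    rw [Bridge.lexpM_algebraMap_complex]
    exact (FormalLD.C_eq_algebraMap z).symm
  lexp_e := Bridge.lexpM_e N embQ
  e_const := Bridge.e_algebraMap N embQ
  e_j := Bridge.e_jF N embQ
  dil_mem := (Bridge.jdB N N dvd_rfl).2
  e_jN := Bridge.e_jdF N embQ N dvd_rfl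

omit [NeZero N] in
/-- transfer of a bivariate relation from the ambient Laurent series field to the subfield -/
theorem eval₂_coe_full (J z : ↥(modularFunctionFieldFull N)) (q : ℚ[X][X]) :
    ((q.eval₂ (aeval J : ℚ[X] →ₐ[ℚ] ↥(modularFunctionFieldFull N)).toRingHom z :
        ↥(modularFunctionFieldFull N)) : LaurentSeries ℚ)
      = q.eval₂ (aeval (J : LaurentSeries ℚ) : ℚ[X] →ₐ[ℚ] LaurentSeries ℚ).toRingHom
          (z : LaurentSeries ℚ) := by
  have h := hom_eval₂ q (aeval J : ℚ[X] →ₐ[ℚ] ↥(modularFunctionFieldFull N)).toRingHom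
    (algebraMap ↥(modularFunctionFieldFull N) (LaurentSeries ℚ)) z
  refine h.trans ?_
  congr 1
  refine Polynomial.ringHom_ext (fun a => ?_) ?_
  · simp only [RingHom.coe_comp, Function.comp_apply, AlgHom.toRingHom_eq_coe, RingHom.coe_coe,
      aeval_C]
    rw [eq_ratCast (algebraMap ℚ ↥(modularFunctionFieldFull N)) a, map_ratCast,
      eq_ratCast (algebraMap ℚ (LaurentSeries ℚ)) a]
  · simp only [RingHom.coe_comp, Function.comp_apply, AlgHom.toRingHom_eq_coe, RingHom.coe_coe,
      aeval_X]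
    rfl

/-- Every element of `F` satisfies a nonzero relation over `ℚ[j]` of degree `≤ ψ(N)`. -/
theorem exists_relation_full (z : ↥(modularFunctionFieldFull N)) :
    ∃ q : ℚ[X][X], q ≠ 0 ∧ q.natDegree ≤ Nat.card (LS.X N) ∧
      q.eval₂ (aeval (jFull N) : ℚ[X] →ₐ[ℚ] ↥(modularFunctionFieldFull N)).toRingHom z = 0 := by
  -- `z` with coefficients in `Qb`, as an element of the function field over `Qb`
  let g : FN N := ⟨coeffEmb Qb (z : LaurentSeries ℚ), coeffEmb_mem_laurentBaseChange _ z.2⟩
  obtain ⟨H, hH0, hHd, hH⟩ := exists_complex_relation (bridgeQ N) g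
  obtain ⟨G, hG0, hGd, hG⟩ := exists_relation_of_complex (bridgeQ N) g H hH0 hH
  have h1 := congrArg (fun x : FN N => (x : LaurentSeries Qb)) hG
  simp only [coe_aevalAeval, coe_jF, ZeroMemClass.coe_zero] at h1
  obtain ⟨q, hq0, hqd, hq⟩ := FormalLD.exists_poly_of_poly (algebraMap ℚ Qb) jq
    (z : LaurentSeries ℚ) (Nat.card (LS.X N)) G hG0 (hGd.trans hHd) h1
  refine ⟨q, hq0, hqd, Subtype.ext ?_⟩
  rw [eval₂_coe_full, coe_jFull]
  exact hq

/-- `jq` is transcendental over `ℚ`. -/
theorem transcendental_jq : Transcendental ℚ jq := by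
  have h := Deg24.transcendental_coeffEmb_jq ℚ
  have h2 : coeffEmb ℚ jq = jq := by
    show coeffMap (algebraMap ℚ ℚ) jq = jq
    rw [Algebra.algebraMap_self, coeffMap_id]
  rwa [h2] at h

theorem transcendental_jFull : Transcendental ℚ (jFull N) := by
  rintro ⟨p, hp0, hp⟩
  apply transcendental_jq
  refine ⟨p, hp0, ?_⟩
  have h := congrArg (algebraMap ↥(modularFunctionFieldFull N) (LaurentSeries ℚ)) hp
  rw [map_zero, aeval_def, hom_eval₂] at h
  rw [aeval_def, ← h]
  congr 1
  exact Subsingleton.elim _ _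

/-- **Step (3a).** `[F : ℚ(j)] ≤ ψ(N)`. -/
theorem finrank_full_le :
    FiniteDimensional ℚ⟮jFull N⟯ ↥(modularFunctionFieldFull N) ∧
      Module.finrank ℚ⟮jFull N⟯ ↥(modularFunctionFieldFull N) ≤ Nat.card (LS.X N) :=
  Deg24.finrank_le_of_relations (jFull N) (transcendental_jFull N) _
    (exists_relation_full N)

end Fermat.Agent.IgusaLib
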