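import Mathlib
import Fermat.Prelude.Def_ModularCurve_X0ModL

/-!
# S28 (Igusa), leaf [DESCENT], core part

From a degree inequality `ψ ≤ [k(J)(j(q^d) : d ∣ N) : k(J)]` over a field `k` of
characteristic `ℓ` we produce `ψ` monomials in the `j(q^d)` with *integer* coefficients whose
reductions mod `ℓ` are independent over `𝔽_ℓ[J]`.

* `exists_linearIndependent_of_le_finrank_span` : a spanning set of a space of dimension `≥ n`
  contains `n` independent vectors;
* `exists_monomials_linearIndependent` : if `n ≤ [K(S) : K]` then `n` monomials in the elements of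
  `S` are `K`-independent;
* `aeval_jqModC_eq_zero` : the formal `j` is transcendental over any field;
* `ind_modl_of_finrank` : the descent statement, from the degree inequality.
-/

set_option autoImplicit false

noncomputable section

namespace Fermat.Agent.IgusaLib.Descent

open Polynomial IntermediateField ModularCurve

/-! ### Linear algebra -/

/-- A set spanning a space of dimension at least `n` contains `n` linearly independent
vectors. -/
theorem exists_linearIndependent_of_le_finrank_span {K V : Type*} [DivisionRing K]
    [AddCommGroup V] [Module K V] (S : Set V) (n : ℕ)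
    (h : n ≤ Module.finrank K (Submodule.span K S)) :
    ∃ f : Fin n → V, (∀ i, f i ∈ S) ∧ LinearIndependent K f := by
  classical
  obtain ⟨b, hbS, hspan, hli⟩ := exists_linearIndependent K S
  have key : Nonempty (Fin n ↪ b) := by
    by_cases hfin : b.Finite
    · have := hfin.fintype
      apply Function.Embedding.nonempty_of_card_le
      rw [Fintype.card_fin]
      have h1 := finrank_span_set_eq_card hli
      rw [hspan] at h1
      rw [h1] at h
      rwa [Set.toFinset_card] at h
    · have : Infinite b := Set.infinite_coe_iff.mpr hfin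
      exact ⟨(Fin.valEmbedding).trans (Infinite.natEmbedding b)⟩
  obtain ⟨e⟩ := key
  exact ⟨fun i => (e i : V), fun i => hbS (e i).2, hli.comp e e.injective⟩

/-- If `n ≤ [K(S) : K]`, there are `n` monomials in the elements of `S` that are linearly
independent over `K`. -/
theorem exists_monomials_linearIndependent {K E : Type*} [Field K] [Field E] [Algebra K E]
    (S : Set E) (n : ℕ) (h : n ≤ Module.finrank K (IntermediateField.adjoin K S)) :
    ∃ f : Fin n → E, (∀ i, f i ∈ Submonoid.closure S) ∧ LinearIndependent K f := by
  rcases Nat.eq_zero_or_pos n with rfl | hn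
  · exact ⟨Fin.elim0, fun i => i.elim0, linearIndependent_empty_type⟩
  have hpos : 0 < Module.finrank K (IntermediateField.adjoin K S) := lt_of_lt_of_le hn h
  have : FiniteDimensional K (IntermediateField.adjoin K S) := Module.finite_of_finrank_pos hpos
  have halg : ∀ x ∈ S, IsAlgebraic K x := by
    intro x hx
    have h1 : IsAlgebraic K
        (⟨x, IntermediateField.subset_adjoin K S hx⟩ : IntermediateField.adjoin K S) :=
      Algebra.IsAlgebraic.isAlgebraic _
    exact (IntermediateField.isAlgebraic_iff (S := IntermediateField.adjoin K S)).mp h1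
  have h2 := IntermediateField.adjoin_toSubalgebra_of_isAlgebraic halg
  have h3 : Subalgebra.toSubmodule (IntermediateField.adjoin K S).toSubalgebra
      = Submodule.span K ((Submonoid.closure S : Submonoid E) : Set E) := by
    rw [h2, Algebra.adjoin_eq_span]
  have h4 : n ≤ Module.finrank K
      (Submodule.span K ((Submonoid.closure S : Submonoid E) : Set E)) := by
    rw [← h3]
    exact h
  exact exists_linearIndependent_of_le_finrank_span _ n h4

/-! ### Transcendence of the formal `j` -/

/-- The formal `j`-invariant over a field `K` satisfies no polynomial relation over `K`. -/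
theorem aeval_jqModC_eq_zero (K : Type*) [Field K] {p : K[X]}
    (hp : aeval (jqModC K) p = 0) : p = 0 := by
  by_contra hp0
  set n := p.natDegree with hn
  have hcoeff : (aeval (jqModC K) p).coeff (-(n : ℤ)) = p.coeff n := by
    rw [aeval_def, eval₂_eq_sum_range, HahnSeries.coeff_sum, Finset.sum_eq_single n]
    · rw [algebraMap_laurentSeries_eq_single, HahnSeries.coeff_single_zero_mul,
        coeff_jqModC_pow_self, mul_one]
    · intro i hi hin
      have hilt : i < n := lt_of_le_of_ne (Nat.lt_succ_iff.mp (Finset.mem_range.mp hi)) hin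
      rw [algebraMap_laurentSeries_eq_single, HahnSeries.coeff_single_zero_mul,
        coeff_jqModC_pow_of_lt, mul_zero]
      omega
    · intro hn'
      exact absurd (Finset.self_mem_range_succ n) hn'
  rw [hp] at hcoeff
  simp only [HahnSeries.coeff_zero] at hcoeff
  exact hp0 (leadingCoeff_eq_zero.mp hcoeff.symm)

theorem transcendental_jqModC (K : Type*) [Field K] : Transcendental K (jqModC K) :=
  transcendental_iff.mpr fun _ hp => aeval_jqModC_eq_zero K hp

/-- `coeffMap` commutes with polynomial evaluation. -/
theorem coeffMap_aeval {K L : Type*} [Field K] [Field L] (φ : K →+* L) (x : LaurentSeries K)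
    (P : K[X]) : coeffMap φ (aeval x P) = aeval (coeffMap φ x) (P.map φ) := by
  rw [aeval_def, hom_eval₂, aeval_def, eval₂_map]
  congr 1
  refine RingHom.ext fun c => ?_
  rw [RingHom.comp_apply, RingHom.comp_apply, algebraMap_laurentSeries_eq_single,
    coeffMap_single, algebraMap_laurentSeries_eq_single]

/-! ### Integral lifts of the monomials -/

/-- The integral divisor expansions `j(q^d)`, `d ∣ N`, in `ℤ((q))`. -/
def divExpZ (N : ℕ) : Set (LaurentSeries ℤ) :=
  {x | ∃ (d : ℕ) (_ : NeZero d), d ∣ N ∧ x = qExpand ℤ d (jqModC ℤ)}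

theorem coeffMap_image_divExpZ (K : Type*) [Field K] (N : ℕ) :
    (coeffMap (Int.castRingHom K)) '' divExpZ N = divisorExpansionsC K N := by
  ext x
  constructor
  · rintro ⟨y, ⟨d, hd, hdN, rfl⟩, rfl⟩
    have := hd
    exact ⟨d, hd, hdN, by rw [coeffMap_qExpand, coeffMap_jqModC]⟩
  · rintro ⟨d, hd, hdN, rfl⟩
    have := hd
    exact ⟨qExpand ℤ d (jqModC ℤ), ⟨d, hd, hdN, rfl⟩, by rw [coeffMap_qExpand, coeffMap_jqModC]⟩

/-- Every monomial in the `j(q^d)` over a field is the image of an integral monomial. -/
theorem exists_lift_of_mem_closure (K : Type*) [Field K] (N : ℕ) {x : LaurentSeries K}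
    (hx : x ∈ Submonoid.closure (divisorExpansionsC K N)) :
    ∃ y ∈ Submonoid.closure (divExpZ N), coeffMap (Int.castRingHom K) y = x := by
  induction hx using Submonoid.closure_induction with
  | mem x hx =>
      rw [← coeffMap_image_divExpZ] at hx
      obtain ⟨y, hy, rfl⟩ := hx
      exact ⟨y, Submonoid.subset_closure hy, rfl⟩
  | one => exact ⟨1, one_mem _, map_one _⟩
  | mul x y _ _ hx hy =>
      obtain ⟨a, ha, rfl⟩ := hx
      obtain ⟨b, hb, rfl⟩ := hy
      exact ⟨a * b, mul_mem ha hb, map_mul _ _ _⟩

/-- The image of an integral monomial is a monomial. -/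
theorem coeffMap_mem_closure (K : Type*) [Field K] (N : ℕ) {y : LaurentSeries ℤ}
    (hy : y ∈ Submonoid.closure (divExpZ N)) :
    coeffMap (Int.castRingHom K) y ∈ Submonoid.closure (divisorExpansionsC K N) := by
  induction hy using Submonoid.closure_induction with
  | mem y hy =>
      exact Submonoid.subset_closure (by rw [← coeffMap_image_divExpZ]; exact ⟨y, hy, rfl⟩)
  | one => rw [map_one]; exact one_mem _
  | mul a b _ _ ha hb => rw [map_mul]; exact mul_mem ha hb

/-- Monomials in the `j(q^d)` lie in the function field. -/
theorem closure_le_fullC (K : Type*) [Field K] (N : ℕ) {x : LaurentSeries K}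
    (hx : x ∈ Submonoid.closure (divisorExpansionsC K N)) :
    x ∈ modularFunctionFieldFullC K N := by
  induction hx using Submonoid.closure_induction with
  | mem x hx => exact IntermediateField.subset_adjoin K _ hx
  | one => exact one_mem _
  | mul a b _ _ ha hb => exact mul_mem ha hb

/-! ### The descent statement -/

/-- **[DESCENT], core.** If over some field `k` of characteristic `ℓ` the field generated over
`k(J)` by the `j(q^d)`, `d ∣ N`, has degree at least `n`, then there are `n` integral monomials in
the `j(q^d)` whose reductions mod `ℓ` are independent over `𝔽_ℓ[J]`. -/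
theorem ind_modl_of_finrank (N : ℕ) (l : ℕ) [Fact l.Prime] (k : Type*) [Field k] [CharP k l]
    (n : ℕ)
    (hdeg : n ≤ Module.finrank ↥(k⟮jqModC k⟯)
      ↥(IntermediateField.adjoin ↥(k⟮jqModC k⟯) (divisorExpansionsC k N))) :
    ∃ m : Fin n → LaurentSeries ℤ,
      (∀ i, coeffMap (Int.castRingHom ℚ) (m i) ∈ modularFunctionFieldFull N) ∧
      ∀ P : Fin n → Polynomial (ZMod l),
        ∑ i, aeval (jqModC (ZMod l)) (P i) * coeffMap (Int.castRingHom (ZMod l)) (m i) = 0 →
          P = 0 := by
  obtain ⟨f, hf, hli⟩ := exists_monomials_linearIndependent (K := ↥(k⟮jqModC k⟯))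
    (divisorExpansionsC k N) n hdeg
  choose m hm hmf using fun i => exists_lift_of_mem_closure k N (hf i)
  refine ⟨m, fun i => ?_, fun P hP => ?_⟩
  · exact closure_le_fullC ℚ N (coeffMap_mem_closure ℚ N (hm i))
  · let φ : ZMod l →+* k := ZMod.castHom (dvd_refl l) k
    have h1 := congrArg (coeffMap φ) hP
    rw [map_sum, map_zero] at h1
    have hmem : ∀ i, aeval (jqModC k) ((P i).map φ) ∈ k⟮jqModC k⟯ := fun i =>
      IntermediateField.algebra_adjoin_le_adjoin k _ (aeval_mem_adjoin_singleton k (jqModC k))
    have h2 : ∑ i, (⟨aeval (jqModC k) ((P i).map φ), hmem i⟩ : k⟮jqModC k⟯) • f i = 0 := by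
      rw [← h1]
      refine Finset.sum_congr rfl fun i _ => ?_
      rw [map_mul, coeffMap_aeval, coeffMap_jqModC, coeffMap_coeffMap, ← hmf i,
        IntermediateField.smul_def, smul_eq_mul,
        show φ.comp (Int.castRingHom (ZMod l)) = Int.castRingHom k from RingHom.ext_int _ _]
    have h3 := Fintype.linearIndependent_iff.mp hli _ h2
    funext i
    have h4 : aeval (jqModC k) ((P i).map φ) = 0 := congrArg Subtype.val (h3 i)
    have h5 := aeval_jqModC_eq_zero k h4
    exact Polynomial.map_injective φ φ.injective (by rw [h5]; simp)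

/-- The relative degree of the full function field over `k(J)` is the degree of
`k(J)(j(q^d) : d ∣ N)` over `k(J)`. -/
theorem relfinrank_full_eq_finrank_adjoin (k : Type*) [Field k] (N : ℕ) :
    IntermediateField.relfinrank (k⟮jqModC k⟯) (modularFunctionFieldFullC k N)
      = Module.finrank ↥(k⟮jqModC k⟯)
          ↥(IntermediateField.adjoin ↥(k⟮jqModC k⟯) (divisorExpansionsC k N)) := by
  have hle : k⟮jqModC k⟯ ≤ IntermediateField.adjoin k (divisorExpansionsC k N) := by
    rw [IntermediateField.adjoin_simple_le_iff]
    exact jqModC_mem_full k N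
  rw [modularFunctionFieldFullC, IntermediateField.relfinrank_eq_finrank_of_le hle,
    IntermediateField.extendScalars_adjoin hle]

/-- **[DESCENT], core, `relfinrank` form.** -/
theorem ind_modl_of_relfinrank (N : ℕ) (l : ℕ) [Fact l.Prime] (k : Type*) [Field k] [CharP k l]
    (n : ℕ)
    (hdeg : n ≤ IntermediateField.relfinrank (k⟮jqModC k⟯) (modularFunctionFieldFullC k N)) :
    ∃ m : Fin n → LaurentSeries ℤ,
      (∀ i, coeffMap (Int.castRingHom ℚ) (m i) ∈ modularFunctionFieldFull N) ∧
      ∀ P : Fin n → Polynomial (ZMod l),
        ∑ i, aeval (jqModC (ZMod l)) (P i) * coeffMap (Int.castRingHom (ZMod l)) (m i) = 0 →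
          P = 0 := by
  rw [relfinrank_full_eq_finrank_adjoin] at hdeg
  exact ind_modl_of_finrank N l k n hdeg

end Fermat.Agent.IgusaLib.Descent
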