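import Mathlib
import Fermat.Prelude.Def_ModularCurve_X0ModL
import Fermat.Agent.IgusaLib.Defs

/-!
# Orders and leading coefficients of Laurent series (S28, formal part)

`IsLead f n c`: the Laurent series `f` has order `n` and leading coefficient `c`.
Behaviour under products, inverses, `Vd` (`q ↦ q^d`), the twist `tw u` (`q ↦ u q`) and polynomial
evaluation; the data of `J = jqModC`, `deltaS`, `deltaInvS`; transcendence of `J`;
compatibilities between `Vd`, `tw` and `aeval`.
-/

set_option autoImplicit false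

noncomputable section

namespace Fermat.Agent.IgusaLib

open HahnSeries ModularCurve Polynomial

section Lead

variable {k : Type*}

/-- `f` has order `n` and leading coefficient `c` (so `f ≠ 0`). -/
def IsLead [Zero k] (f : LaurentSeries k) (n : ℤ) (c : k) : Prop :=
  f.orderTop = (n : WithTop ℤ) ∧ f.leadingCoeff = c

theorem isLead_iff [Zero k] {f : LaurentSeries k} {n : ℤ} {c : k} :
    IsLead f n c ↔ c ≠ 0 ∧ f.coeff n = c ∧ ∀ m < n, f.coeff m = 0 := by
  constructor
  · rintro ⟨ho, hl⟩
    have hf : f ≠ 0 := by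
      rintro rfl
      simp at ho
    have hc : f.coeff n = c := by
      rw [← hl, leadingCoeff_of_ne_zero hf]
      congr 1
      exact ((WithTop.untop_eq_iff _).mpr ho).symm
    refine ⟨?_, hc, fun m hm => coeff_eq_zero_of_lt_orderTop (by rw [ho]; exact_mod_cast hm)⟩
    rw [← hc]
    exact coeff_orderTop_ne ho
  · rintro ⟨hc0, hc, hlt⟩
    have ho : f.orderTop = (n : WithTop ℤ) := by
      refine le_antisymm (orderTop_le_of_coeff_ne_zero (by rw [hc]; exact hc0)) ?_
      rw [le_orderTop_iff_forall]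
      intro j hj
      exact hlt j (by exact_mod_cast hj)
    have hf : f ≠ 0 := by
      rintro rfl
      simp at ho
    refine ⟨ho, ?_⟩
    rw [leadingCoeff_of_ne_zero hf, ← hc]
    congr 1
    exact (WithTop.untop_eq_iff _).mpr ho

theorem IsLead.ne_zero [Zero k] {f : LaurentSeries k} {n : ℤ} {c : k} (h : IsLead f n c) :
    f ≠ 0 := by
  rintro rfl
  have := h.1
  simp at this

theorem IsLead.coeff_ne_zero [Zero k] {f : LaurentSeries k} {n : ℤ} {c : k} (h : IsLead f n c) :
    c ≠ 0 := (isLead_iff.mp h).1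

theorem IsLead.coeff_eq [Zero k] {f : LaurentSeries k} {n : ℤ} {c : k} (h : IsLead f n c) :
    f.coeff n = c := (isLead_iff.mp h).2.1

theorem IsLead.coeff_lt [Zero k] {f : LaurentSeries k} {n : ℤ} {c : k} (h : IsLead f n c)
    {m : ℤ} (hm : m < n) : f.coeff m = 0 := (isLead_iff.mp h).2.2 m hm

theorem IsLead.unique [Zero k] {f : LaurentSeries k} {n m : ℤ} {c d : k} (h : IsLead f n c)
    (h' : IsLead f m d) : n = m ∧ c = d := by
  refine ⟨?_, h.2.symm.trans h'.2⟩
  have := h.1.symm.trans h'.1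
  exact_mod_cast this

/-- Two series with different orders are different. -/
theorem IsLead.ne_of_order_ne [Zero k] {f g : LaurentSeries k} {n m : ℤ} {c d : k}
    (h : IsLead f n c) (h' : IsLead g m d) (hnm : n ≠ m) : f ≠ g := by
  rintro rfl
  exact hnm (h.unique h').1

/-- Two series with different leading coefficients are different. -/
theorem IsLead.ne_of_coeff_ne [Zero k] {f g : LaurentSeries k} {n m : ℤ} {c d : k}
    (h : IsLead f n c) (h' : IsLead g m d) (hcd : c ≠ d) : f ≠ g := by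
  rintro rfl
  exact hcd (h.unique h').2

theorem IsLead.mul [Semiring k] [NoZeroDivisors k] {f g : LaurentSeries k} {n m : ℤ} {c d : k}
    (h : IsLead f n c) (h' : IsLead g m d) : IsLead (f * g) (n + m) (c * d) := by
  refine ⟨?_, ?_⟩
  · rw [orderTop_mul, h.1, h'.1]
    rfl
  · rw [HahnSeries.leadingCoeff_mul, h.2, h'.2]

theorem isLead_one [Semiring k] [Nontrivial k] : IsLead (1 : LaurentSeries k) 0 1 :=
  ⟨orderTop_one, leadingCoeff_one⟩

theorem IsLead.pow [Semiring k] [NoZeroDivisors k] [Nontrivial k] {f : LaurentSeries k} {n : ℤ}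
    {c : k} (h : IsLead f n c) (i : ℕ) : IsLead (f ^ i) (i * n) (c ^ i) := by
  induction i with
  | zero => simpa using isLead_one
  | succ i ih =>
    have := ih.mul h
    rw [pow_succ, pow_succ]
    convert this using 1
    push_cast
    ring

theorem isLead_single [Zero k] (n : ℤ) {c : k} (hc : c ≠ 0) :
    IsLead (HahnSeries.single n c : LaurentSeries k) n c :=
  ⟨orderTop_single hc, leadingCoeff_of_single⟩

theorem isLead_C [Semiring k] {c : k} (hc : c ≠ 0) :
    IsLead (HahnSeries.C c : LaurentSeries k) 0 c := by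
  rw [HahnSeries.C_apply]
  exact isLead_single 0 hc

theorem IsLead.inv [Field k] {f : LaurentSeries k} {n : ℤ} {c : k} (h : IsLead f n c) :
    IsLead f⁻¹ (-n) c⁻¹ := by
  have hf := h.ne_zero
  have hinv : f⁻¹ ≠ 0 := inv_ne_zero hf
  have h1 : f.orderTop + f⁻¹.orderTop = 0 := by
    rw [← orderTop_mul, mul_inv_cancel₀ hf, orderTop_one]
  have h2 : f.leadingCoeff * f⁻¹.leadingCoeff = 1 := by
    rw [← HahnSeries.leadingCoeff_mul, mul_inv_cancel₀ hf, HahnSeries.leadingCoeff_one]
  obtain ⟨m, hm⟩ := WithTop.ne_top_iff_exists.mp (orderTop_ne_top.mpr hinv)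
  refine ⟨?_, ?_⟩
  · rw [← hm]
    rw [h.1, ← hm] at h1
    have : n + m = 0 := by exact_mod_cast h1
    have hmn : m = -n := by omega
    rw [hmn]
  · rw [h.2] at h2
    exact (eq_inv_of_mul_eq_one_right h2)

theorem IsLead.div [Field k] {f g : LaurentSeries k} {n m : ℤ} {c d : k}
    (h : IsLead f n c) (h' : IsLead g m d) : IsLead (f / g) (n - m) (c / d) := by
  rw [div_eq_mul_inv, sub_eq_add_neg, div_eq_mul_inv]
  exact h.mul h'.inv

/-- Dilation `q ↦ q ^ d` multiplies the order by `d`. -/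
theorem IsLead.qExpand [CommRing k] {f : LaurentSeries k} {n : ℤ} {c : k} (h : IsLead f n c)
    (d : ℕ) [NeZero d] : IsLead (qExpand k d f) (d * n) c := by
  rw [isLead_iff] at h ⊢
  obtain ⟨hc, hn, hlt⟩ := h
  refine ⟨hc, by rw [qExpand_coeff_mul, hn], fun m hm => ?_⟩
  by_cases hd : (d : ℤ) ∣ m
  · obtain ⟨m', rfl⟩ := hd
    rw [qExpand_coeff_mul]
    refine hlt m' ?_
    have hd0 : (0 : ℤ) < d := by exact_mod_cast Nat.pos_of_ne_zero (NeZero.ne d)
    exact lt_of_mul_lt_mul_left hm hd0.le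
  · exact qExpand_coeff_of_not_dvd d f hd

/-- A coefficientwise rescaling by nonzero factors preserves the order. -/
theorem IsLead.of_coeff_mul [MulZeroClass k] [NoZeroDivisors k] {f g : LaurentSeries k} {n : ℤ}
    {c : k} (h : IsLead f n c) (a : ℤ → k) (ha : a n ≠ 0)
    (hg : ∀ m, g.coeff m = a m * f.coeff m) : IsLead g n (a n * c) := by
  rw [isLead_iff] at h ⊢
  obtain ⟨hc, hn, hlt⟩ := h
  refine ⟨mul_ne_zero ha hc, by rw [hg, hn], fun m hm => by rw [hg, hlt m hm, mul_zero]⟩

theorem isLead_jqModC [CommRing k] [Nontrivial k] : IsLead (jqModC k) (-1) 1 := by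
  rw [isLead_iff]
  refine ⟨one_ne_zero, coeff_jqModC_neg_one k, fun m hm => coeff_jqModC_of_lt k hm⟩

theorem IsLead.Vd [CommRing k] {f : LaurentSeries k} {n : ℤ} {c : k} (h : IsLead f n c)
    {d : ℕ} (hd : d ≠ 0) : IsLead (Vd k d f) (d * n) c := by
  have : NeZero d := ⟨hd⟩
  rw [Vd_eq]
  exact h.qExpand d

theorem IsLead.tw [CommRing k] [IsDomain k] {f : LaurentSeries k} {n : ℤ} {c : k}
    (h : IsLead f n c) (u : kˣ) : IsLead (tw u f) n (((u ^ n : kˣ) : k) * c) :=
  h.of_coeff_mul (fun m => ((u ^ m : kˣ) : k)) (Units.ne_zero _) (fun m => tw_coeff u f m)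

theorem isLead_ofPowerSeries [Semiring k] (u : PowerSeries k)
    (hu : PowerSeries.constantCoeff u ≠ 0) :
    IsLead (HahnSeries.ofPowerSeries ℤ k u) 0 (PowerSeries.constantCoeff u) := by
  rw [isLead_iff]
  refine ⟨hu, ?_, fun m hm => ofPowerSeries_coeff_of_neg u hm⟩
  have := HahnSeries.ofPowerSeries_apply_coeff (Γ := ℤ) u 0
  simpa using this

theorem isLead_deltaS [CommRing k] [IsDomain k] : IsLead (deltaS k) 1 1 := by
  have h1 : PowerSeries.constantCoeff (dedekindEtaUnit.map (Int.castRingHom k)) = 1 := by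
    rw [← PowerSeries.coeff_zero_eq_constantCoeff, PowerSeries.coeff_map,
      PowerSeries.coeff_zero_eq_constantCoeff, constantCoeff_dedekindEtaUnit, map_one]
  have h := (isLead_single (1 : ℤ) (one_ne_zero (α := k))).mul
    (isLead_ofPowerSeries (dedekindEtaUnit.map (Int.castRingHom k)) (by rw [h1]; exact one_ne_zero))
  rw [h1] at h
  simpa [deltaS] using h

theorem isLead_deltaInvS [CommRing k] [IsDomain k] : IsLead (deltaInvS k) (-1) 1 := by
  have h1 : PowerSeries.constantCoeff (dedekindEtaUnitInv.map (Int.castRingHom k)) = 1 := by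
    rw [← PowerSeries.coeff_zero_eq_constantCoeff, PowerSeries.coeff_map,
      PowerSeries.coeff_zero_eq_constantCoeff, constantCoeff_dedekindEtaUnitInv, map_one]
  have h := (isLead_single (-1 : ℤ) (one_ne_zero (α := k))).mul
    (isLead_ofPowerSeries (dedekindEtaUnitInv.map (Int.castRingHom k))
      (by rw [h1]; exact one_ne_zero))
  rw [h1] at h
  simpa [deltaInvS] using h

theorem isLead_natCast [Semiring k] (n : ℕ) (hn : (n : k) ≠ 0) :
    IsLead ((n : LaurentSeries k)) 0 (n : k) := by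
  have : (n : LaurentSeries k) = HahnSeries.C (n : k) := (map_natCast HahnSeries.C n).symm
  rw [this]
  exact isLead_C hn

end Lead

section Compat

variable {R : Type*} [CommRing R]

theorem deltaS_mul_deltaInvS (R : Type*) [CommRing R] : deltaS R * deltaInvS R = 1 := by
  have h : (dedekindEtaUnit.map (Int.castRingHom R)) *
      (dedekindEtaUnitInv.map (Int.castRingHom R)) = 1 := by
    rw [← map_mul, dedekindEtaUnit_mul_inv, map_one]
  rw [deltaS, deltaInvS, mul_mul_mul_comm, ← map_mul (HahnSeries.ofPowerSeries ℤ R), h,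
    map_one (HahnSeries.ofPowerSeries ℤ R), mul_one, HahnSeries.single_mul_single]
  simp

theorem Vd_zero (f : LaurentSeries R) : Vd R 0 f = f := by
  simp [Vd]

theorem Vd_Vd {a b : ℕ} (ha : a ≠ 0) (hb : b ≠ 0) (f : LaurentSeries R) :
    Vd R a (Vd R b f) = Vd R (a * b) f := by
  have : NeZero a := ⟨ha⟩
  have : NeZero b := ⟨hb⟩
  have : NeZero (a * b) := ⟨Nat.mul_ne_zero ha hb⟩
  rw [Vd_eq, Vd_eq, Vd_eq, qExpand_qExpand]

theorem Vd_C (d : ℕ) (r : R) : Vd R d (HahnSeries.C r) = HahnSeries.C r := by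
  rcases Nat.eq_zero_or_pos d with rfl | hd
  · exact Vd_zero _
  · have : NeZero d := ⟨hd.ne'⟩
    rw [Vd_eq, qExpand_C]

theorem tw_C (u : Rˣ) (r : R) : tw u (HahnSeries.C r) = HahnSeries.C r := by
  ext n
  rw [tw_coeff, HahnSeries.C_apply, HahnSeries.coeff_single]
  split_ifs with h
  · subst h; simp
  · simp

theorem tw_one_apply (f : LaurentSeries R) : tw (1 : Rˣ) f = f := by
  ext n
  simp

theorem tw_tw (u v : Rˣ) (f : LaurentSeries R) : tw u (tw v f) = tw (u * v) f := by
  ext n
  rw [tw_coeff, tw_coeff, tw_coeff, mul_zpow, Units.val_mul, mul_assoc]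

theorem tw_injective (u : Rˣ) : Function.Injective (tw u : LaurentSeries R → LaurentSeries R) := by
  intro f g h
  have := congrArg (tw u⁻¹) h
  rwa [tw_tw, tw_tw, inv_mul_cancel, tw_one_apply, tw_one_apply] at this

/-- `tw u ∘ V_d = V_d ∘ tw (u ^ d)`. -/
theorem tw_Vd (u : Rˣ) {d : ℕ} (hd : d ≠ 0) (f : LaurentSeries R) :
    tw u (Vd R d f) = Vd R d (tw (u ^ d) f) := by
  have : NeZero d := ⟨hd⟩
  rw [Vd_eq]
  ext n
  rw [tw_coeff]
  by_cases hn : (d : ℤ) ∣ n
  · obtain ⟨m, rfl⟩ := hn
    rw [qExpand_coeff_mul, qExpand_coeff_mul, tw_coeff, ← zpow_natCast, ← zpow_mul]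
  · rw [qExpand_coeff_of_not_dvd d _ hn, qExpand_coeff_of_not_dvd d _ hn, mul_zero]

/-- The twist by a `d`-th root of unity fixes the image of `V_d`. -/
theorem tw_Vd_of_pow_eq_one (u : Rˣ) {d : ℕ} (hd : d ≠ 0) (hu : u ^ d = 1)
    (f : LaurentSeries R) : tw u (Vd R d f) = Vd R d f := by
  rw [tw_Vd u hd, hu, tw_one_apply]

end Compat

section Aeval

variable {k : Type*} [Field k]

theorem coeff_algebraMap_mul (r : k) (x : LaurentSeries k) (m : ℤ) :
    (algebraMap k (LaurentSeries k) r * x).coeff m = r * x.coeff m := by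
  rw [algebraMap_laurentSeries_eq_single, HahnSeries.coeff_single_zero_mul]

/-- For `x` of negative order `-n`, the coefficient of `G(x)` at `-n * d` when `deg G ≤ d`. -/
theorem coeff_aeval_of_isLead {x : LaurentSeries k} {n : ℤ} {c : k} (hx : IsLead x (-n) c)
    (hn : 0 < n) (G : k[X]) (d : ℕ) (hd : G.natDegree ≤ d) :
    (aeval x G).coeff (-(n * d)) = G.coeff d * c ^ d ∧
      ∀ m < -(n * d), (aeval x G).coeff m = 0 := by
  have key : ∀ m ≤ -(n * (d : ℤ)), (aeval x G).coeff m =
      if m = -(n * d) then G.coeff d * c ^ d else 0 := by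
    intro m hm
    rw [aeval_eq_sum_range' (Nat.lt_succ_of_le hd), HahnSeries.coeff_sum]
    simp only [Algebra.smul_def, coeff_algebraMap_mul]
    rw [Finset.sum_range_succ]
    have hzero : ∀ i ∈ Finset.range d, G.coeff i * (x ^ i).coeff m = 0 := by
      intro i hi
      have hi' : (i : ℤ) < d := by exact_mod_cast Finset.mem_range.mp hi
      have hlead := hx.pow i
      rw [hlead.coeff_lt, mul_zero]
      nlinarith
    rw [Finset.sum_eq_zero hzero, zero_add]
    have hlead := hx.pow d
    split_ifs with h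
    · rw [h, show -(n * (d : ℤ)) = d * -n by ring, hlead.coeff_eq]
    · rw [hlead.coeff_lt, mul_zero]
      have : m < -(n * (d : ℤ)) := lt_of_le_of_ne hm h
      linarith
  refine ⟨by rw [key _ le_rfl, if_pos rfl], fun m hm => ?_⟩
  rw [key m hm.le, if_neg hm.ne]

theorem isLead_aeval {x : LaurentSeries k} {n : ℤ} {c : k} (hx : IsLead x (-n) c)
    (hn : 0 < n) {G : k[X]} (hG : G ≠ 0) :
    IsLead (aeval x G) (-(n * G.natDegree)) (G.leadingCoeff * c ^ G.natDegree) := by
  rw [isLead_iff]
  obtain ⟨h1, h2⟩ := coeff_aeval_of_isLead hx hn G G.natDegree le_rfl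
  exact ⟨mul_ne_zero (leadingCoeff_ne_zero.mpr hG) (pow_ne_zero _ hx.coeff_ne_zero), h1, h2⟩

theorem aeval_injective_of_isLead {x : LaurentSeries k} {n : ℤ} {c : k} (hx : IsLead x (-n) c)
    (hn : 0 < n) : Function.Injective (aeval x : k[X] →ₐ[k] LaurentSeries k) := by
  rw [injective_iff_map_eq_zero]
  intro G hG
  by_contra h
  exact (isLead_aeval hx hn h).ne_zero hG

theorem transcendental_of_isLead {x : LaurentSeries k} {n : ℤ} {c : k} (hx : IsLead x (-n) c)
    (hn : 0 < n) : Transcendental k x :=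
  transcendental_iff_injective.mpr (aeval_injective_of_isLead hx hn)

theorem transcendental_jqModC : Transcendental k (jqModC k) :=
  transcendental_of_isLead (n := 1) isLead_jqModC one_pos

/-- A ring endomorphism of `k((q))` fixing the constants commutes with `ev`. -/
theorem comp_ev_of_fix (φ : LaurentSeries k →+* LaurentSeries k)
    (hφ : ∀ c : k, φ (HahnSeries.C c) = HahnSeries.C c) (x : LaurentSeries k) :
    φ.comp (ev x) = ev (φ x) := by
  refine Polynomial.ringHom_ext (fun c => ?_) ?_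
  · simp only [RingHom.comp_apply, ev_apply, aeval_C, algebraMap_laurentSeries_eq_single]
    exact hφ c
  · simp only [RingHom.comp_apply, ev_apply, aeval_X]

theorem Vd_comp_ev (d : ℕ) (x : LaurentSeries k) : (Vd k d).comp (ev x) = ev (Vd k d x) :=
  comp_ev_of_fix _ (Vd_C d) x

theorem tw_comp_ev (u : kˣ) (x : LaurentSeries k) : (tw u).comp (ev x) = ev (tw u x) :=
  comp_ev_of_fix _ (tw_C u) x

theorem Vd_aeval (d : ℕ) (x : LaurentSeries k) (G : k[X]) :
    Vd k d (aeval x G) = aeval (Vd k d x) G :=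
  congrArg (fun f : k[X] →+* LaurentSeries k => f G) (Vd_comp_ev d x)

theorem tw_aeval (u : kˣ) (x : LaurentSeries k) (G : k[X]) :
    tw u (aeval x G) = aeval (tw u x) G :=
  congrArg (fun f : k[X] →+* LaurentSeries k => f G) (tw_comp_ev u x)

/-- Transport of a root of a specialised bivariate polynomial along an endomorphism of
`k((q))` fixing the constants. -/
theorem eval_map_ev_of_fix (φ : LaurentSeries k →+* LaurentSeries k)
    (hφ : ∀ c : k, φ (HahnSeries.C c) = HahnSeries.C c) (Q : k[X][X]) (x a : LaurentSeries k)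
    (h : (Q.map (ev x)).eval a = 0) : (Q.map (ev (φ x))).eval (φ a) = 0 := by
  rw [eval_map] at h ⊢
  rw [← comp_ev_of_fix φ hφ, ← hom_eval₂, h, map_zero]

end Aeval

end Fermat.Agent.IgusaLib
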