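import Mathlib
import Fermat.Agent.IgusaLib.FormalOrd

/-!
# Formal factorizations for S28 (`[FORMAL]`)

* `eq_prod_of_roots`, `map_ev_eq_prod`: a monic bivariate polynomial `Q` of `Y`-degree `p + 1` with
  `Q(J, A) = 0` and `Q(V_p J, B) = 0` specialises at `X = V_p J` to
  `(Y - V_p A) ∏_b (Y - tw ζ^b B)` as soon as these `p + 1` roots are pairwise distinct.
* the orders and leading coefficients of the three root families.
* `primeData_of_roots`: the six root identities give `PrimeData k p`.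
-/

set_option autoImplicit false

noncomputable section

namespace Fermat.Agent.IgusaLib

open ModularCurve Polynomial

section Factor

variable {L : Type*} [Field L]

/-- A monic polynomial of degree `p + 1` with the `p + 1` distinct roots `r∞, r 0, …, r (p-1)`
is the product of the corresponding linear factors. -/
theorem eq_prod_of_roots (R : L[X]) (hR : R.Monic) {p : ℕ} (hdeg : R.natDegree = p + 1)
    (rinf : L) (r : ℕ → L) (hinf : R.eval rinf = 0) (hr : ∀ b < p, R.eval (r b) = 0)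
    (hne : ∀ b < p, r b ≠ rinf) (hinj : ∀ b < p, ∀ b' < p, r b = r b' → b = b') :
    R = (X - C rinf) * ∏ b ∈ Finset.range p, (X - C (r b)) := by
  classical
  set s : Multiset L := rinf ::ₘ (Multiset.range p).map r with hs
  have hnodup : s.Nodup := by
    rw [hs, Multiset.nodup_cons]
    refine ⟨?_, ?_⟩
    · intro hmem
      obtain ⟨b, hb, hbr⟩ := Multiset.mem_map.mp hmem
      exact hne b (Multiset.mem_range.mp hb) hbr
    · refine Multiset.Nodup.map_on ?_ (Multiset.nodup_range p)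
      intro b hb b' hb' h
      exact hinj b (Multiset.mem_range.mp hb) b' (Multiset.mem_range.mp hb') h
  have hsub : s ⊆ R.roots := by
    intro x hx
    rw [mem_roots hR.ne_zero]
    rw [hs, Multiset.mem_cons] at hx
    rcases hx with rfl | hx
    · exact hinf
    · obtain ⟨b, hb, rfl⟩ := Multiset.mem_map.mp hx
      exact hr b (Multiset.mem_range.mp hb)
  have hle : s ≤ R.roots := (Multiset.le_iff_subset hnodup).mpr hsub
  have hcard : Multiset.card s = p + 1 := by
    rw [hs, Multiset.card_cons, Multiset.card_map, Multiset.card_range]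
  have heq : s = R.roots := by
    refine Multiset.eq_of_le_of_card_le hle ?_
    rw [hcard, ← hdeg]
    exact card_roots' R
  have hroots : Multiset.card R.roots = R.natDegree := by
    rw [← heq, hcard, hdeg]
  have hprod := prod_multiset_X_sub_C_of_monic_of_roots_card_eq hR hroots
  rw [← hprod, ← heq, hs, Multiset.map_cons, Multiset.prod_cons, Multiset.map_map]
  rfl

end Factor

section FactorEv

variable {k : Type*} [Field k]

/-- **(a)** The generic factorization: `Q(J, A) = 0`, `Q(V_p J, B) = 0` and distinctness of the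
`p + 1` roots `V_p A`, `tw ζ^b B` give the splitting of `Q(V_p J, Y)`. -/
theorem map_ev_eq_prod {p : ℕ} (hp : p ≠ 0) (ζ : kˣ) (hζ : ζ ^ p = 1)
    (Q : k[X][X]) (hQ : Q.Monic) (hdeg : Q.natDegree = p + 1) (A B : LaurentSeries k)
    (hA : (Q.map (ev (jqModC k))).eval A = 0)
    (hB : (Q.map (ev (Vd k p (jqModC k)))).eval B = 0)
    (hne : ∀ b < p, tw (ζ ^ b) B ≠ Vd k p A)
    (hinj : ∀ b < p, ∀ b' < p, tw (ζ ^ b) B = tw (ζ ^ b') B → b = b') :
    Q.map (ev (Vd k p (jqModC k))) =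
      (X - C (Vd k p A)) * ∏ b ∈ Finset.range p, (X - C (tw (ζ ^ b) B)) := by
  refine eq_prod_of_roots _ (hQ.map _) (by rw [hQ.natDegree_map, hdeg]) _ _
    (eval_map_ev_of_fix (Vd k p) (Vd_C p) Q _ A hA) (fun b _ => ?_) hne hinj
  have h := eval_map_ev_of_fix (tw (ζ ^ b)) (tw_C _) Q _ B hB
  rwa [tw_Vd_of_pow_eq_one (ζ ^ b) hp (by rw [← pow_mul, mul_comm, pow_mul, hζ, one_pow])] at h

end FactorEv

section Families

variable {k : Type*} [Field k] {p : ℕ}

theorem natCast_ne_zero_of_isPrimitiveRoot (hp : p ≠ 0) {ζ : kˣ} (hζ : IsPrimitiveRoot ζ p) :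
    (p : k) ≠ 0 := by
  have : NeZero p := ⟨hp⟩
  have h : IsPrimitiveRoot (ζ : k) p := IsPrimitiveRoot.coe_units_iff.mpr hζ
  exact (h.neZero').ne

theorem isLead_Vd_sq_jqModC (hp : p ≠ 0) :
    IsLead (Vd k (p * p) (jqModC k)) (-((p : ℤ) * p)) 1 := by
  have h := (isLead_jqModC (k := k)).Vd (Nat.mul_ne_zero hp hp)
  convert h using 1
  push_cast
  ring

theorem isLead_tw_jqModC (u : kˣ) : IsLead (tw u (jqModC k)) (-1) ((u⁻¹ : kˣ) : k) := by
  have h := (isLead_jqModC (k := k)).tw u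
  convert h using 1
  rw [zpow_neg_one, mul_one]

theorem isLead_dInf (hp : p ≠ 0) (hpk : (p : k) ≠ 0) :
    IsLead (dInf k p) ((p : ℤ) * p - p) ((p : k) ^ 12) := by
  have h := (((isLead_natCast p hpk).pow 12).mul
    ((isLead_deltaS (k := k)).Vd (Nat.mul_ne_zero hp hp))).mul
    ((isLead_deltaInvS (k := k)).Vd hp)
  rw [dInf]
  convert h using 1
  · push_cast
    ring
  · ring

theorem isLead_dTw (hp : p ≠ 0) (u : kˣ) : IsLead (dTw k p u) (1 - p) (u : k) := by
  have h := ((isLead_deltaS (k := k)).tw u).mul ((isLead_deltaInvS (k := k)).Vd hp)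
  rw [dTw]
  convert h using 1
  · ring
  · rw [zpow_one, mul_one, mul_one]

theorem isLead_sq_mul_dInf (hp : p ≠ 0) (hpk : (p : k) ≠ 0) :
    IsLead (Vd k (p * p) (jqModC k) ^ 2 * dInf k p) (-((p : ℤ) * p) - p) ((p : k) ^ 12) := by
  have h := ((isLead_Vd_sq_jqModC (k := k) hp).pow 2).mul (isLead_dInf hp hpk)
  convert h using 1
  · push_cast
    ring
  · ring

theorem isLead_sq_mul_dTw (hp : p ≠ 0) (u : kˣ) :
    IsLead (tw u (jqModC k) ^ 2 * dTw k p u) (-1 - p) ((u⁻¹ : kˣ) : k) := by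
  have h := ((isLead_tw_jqModC (k := k) u).pow 2).mul (isLead_dTw hp u)
  convert h using 1
  · push_cast
    ring
  · rw [← Units.val_pow_eq_pow_val, ← Units.val_mul]
    congr 1
    rw [inv_pow, pow_two, mul_inv, mul_assoc, inv_mul_cancel, mul_one]

/-- Powers `ζ^b`, `b < p`, of a primitive `p`-th root of unity are distinct. -/
theorem pow_inj_of_isPrimitiveRoot {ζ : kˣ} (hζ : IsPrimitiveRoot ζ p) {b b' : ℕ} (hb : b < p)
    (hb' : b' < p) (h : ((ζ ^ b : kˣ) : k) = ((ζ ^ b' : kˣ) : k)) : b = b' :=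
  hζ.pow_inj hb hb' (Units.ext h)

theorem inv_pow_inj_of_isPrimitiveRoot {ζ : kˣ} (hζ : IsPrimitiveRoot ζ p) {b b' : ℕ}
    (hb : b < p) (hb' : b' < p) (h : (((ζ ^ b)⁻¹ : kˣ) : k) = (((ζ ^ b')⁻¹ : kˣ) : k)) :
    b = b' :=
  hζ.pow_inj hb hb' (inv_injective (Units.ext h))

end Families

section PrimeDataOfRoots

variable {k : Type*} [Field k] {p : ℕ}

theorem Vd_dStd (hp : p ≠ 0) : Vd k p (dStd k p) = dInf k p := by
  rw [dStd, dInf, map_mul, map_mul, map_pow, map_natCast, Vd_Vd hp hp]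

theorem tw_dFr (hp : p ≠ 0) (u : kˣ) (hu : u ^ p = 1) : tw u (dFr k p) = dTw k p u := by
  rw [dFr, dTw, map_mul, tw_Vd_of_pow_eq_one u hp hu]

/-- **(c)** The six root identities of `[ANA]` over a field with a primitive `p`-th root of unity
give the level-`p` data. -/
def primeData_of_roots (hp : 2 ≤ p) (ζ : kˣ) (hζ : IsPrimitiveRoot ζ p)
    (Φ Ψ P : k[X][X]) (hΦ : Φ.Monic) (hΦd : Φ.natDegree = p + 1)
    (hΨ : Ψ.Monic) (hΨd : Ψ.natDegree = p + 1) (hP : P.Monic) (hPd : P.natDegree = p + 1)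
    (h1 : (Φ.map (ev (jqModC k))).eval (Vd k p (jqModC k)) = 0)
    (h2 : (Φ.map (ev (Vd k p (jqModC k)))).eval (jqModC k) = 0)
    (h3 : (Ψ.map (ev (jqModC k))).eval (dStd k p) = 0)
    (h4 : (Ψ.map (ev (Vd k p (jqModC k)))).eval (dFr k p) = 0)
    (h5 : (P.map (ev (jqModC k))).eval (Vd k p (jqModC k) ^ 2 * dStd k p) = 0)
    (h6 : (P.map (ev (Vd k p (jqModC k)))).eval (jqModC k ^ 2 * dFr k p) = 0) :
    PrimeData k p where
  ζ := ζ
  hζ := hζ
  Φ := Φ
  Ψ := Ψ
  P := P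
  hΦ := by
    have hp0 : p ≠ 0 := by omega
    have h := map_ev_eq_prod hp0 ζ hζ.pow_eq_one Φ hΦ hΦd _ _ h1 h2
      (fun b _ => (isLead_tw_jqModC (ζ ^ b)).ne_of_order_ne
        (by rw [Vd_Vd hp0 hp0]; exact isLead_Vd_sq_jqModC hp0) (by
          have : (2 : ℤ) ≤ p := by exact_mod_cast hp
          nlinarith))
      (fun b hb b' hb' h => inv_pow_inj_of_isPrimitiveRoot hζ hb hb'
        (((isLead_tw_jqModC (ζ ^ b)).unique (h ▸ isLead_tw_jqModC (ζ ^ b'))).2))
    rwa [Vd_Vd hp0 hp0] at h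
  hΨ := by
    have hp0 : p ≠ 0 := by omega
    have hpk : (p : k) ≠ 0 := natCast_ne_zero_of_isPrimitiveRoot hp0 hζ
    have hpow : ∀ b : ℕ, (ζ ^ b) ^ p = 1 := fun b => by
      rw [← pow_mul, mul_comm, pow_mul, hζ.pow_eq_one, one_pow]
    have h := map_ev_eq_prod hp0 ζ hζ.pow_eq_one Ψ hΨ hΨd _ _ h3 h4
      (fun b _ => by
        rw [tw_dFr hp0 _ (hpow b), Vd_dStd hp0]
        exact (isLead_dTw hp0 (ζ ^ b)).ne_of_order_ne (isLead_dInf hp0 hpk) (by
          have : (2 : ℤ) ≤ p := by exact_mod_cast hp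
          nlinarith))
      (fun b hb b' hb' h => by
        rw [tw_dFr hp0 _ (hpow b), tw_dFr hp0 _ (hpow b')] at h
        exact pow_inj_of_isPrimitiveRoot hζ hb hb'
          (((isLead_dTw hp0 (ζ ^ b)).unique (h ▸ isLead_dTw hp0 (ζ ^ b'))).2))
    rw [Vd_dStd hp0] at h
    rw [h]
    congr 1
    exact Finset.prod_congr rfl fun b _ => by rw [tw_dFr hp0 _ (hpow b)]
  hP := by
    have hp0 : p ≠ 0 := by omega
    have hpk : (p : k) ≠ 0 := natCast_ne_zero_of_isPrimitiveRoot hp0 hζ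
    have hpow : ∀ b : ℕ, (ζ ^ b) ^ p = 1 := fun b => by
      rw [← pow_mul, mul_comm, pow_mul, hζ.pow_eq_one, one_pow]
    have hA : Vd k p (Vd k p (jqModC k) ^ 2 * dStd k p) =
        Vd k (p * p) (jqModC k) ^ 2 * dInf k p := by
      rw [map_mul, map_pow, Vd_Vd hp0 hp0, Vd_dStd hp0]
    have hB : ∀ b : ℕ, tw (ζ ^ b) (jqModC k ^ 2 * dFr k p) =
        tw (ζ ^ b) (jqModC k) ^ 2 * dTw k p (ζ ^ b) := fun b => by
      rw [map_mul, map_pow, tw_dFr hp0 _ (hpow b)]
    have h := map_ev_eq_prod hp0 ζ hζ.pow_eq_one P hP hPd _ _ h5 h6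
      (fun b _ => by
        rw [hA, hB]
        exact (isLead_sq_mul_dTw hp0 (ζ ^ b)).ne_of_order_ne (isLead_sq_mul_dInf hp0 hpk) (by
          have : (2 : ℤ) ≤ p := by exact_mod_cast hp
          nlinarith))
      (fun b hb b' hb' h => by
        rw [hB, hB] at h
        exact inv_pow_inj_of_isPrimitiveRoot hζ hb hb'
          (((isLead_sq_mul_dTw hp0 (ζ ^ b)).unique (h ▸ isLead_sq_mul_dTw hp0 (ζ ^ b'))).2))
    rw [hA] at h
    rw [h]
    congr 1
    exact Finset.prod_congr rfl fun b _ => by rw [hB]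

end PrimeDataOfRoots

end Fermat.Agent.IgusaLib
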