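import Mathlib
import Fermat.Agent.IgusaLib.Formal
import Fermat.Agent.IgusaLib.Ana

/-!
# The level-`p` data over `ℂ` (S28, `[FORMAL]` (c) applied to `[ANA]`)
-/

set_option autoImplicit false

noncomputable section

namespace Fermat.Agent.IgusaLib

open ModularCurve Polynomial

/-- `PrimeData ℂ p` for every prime `p`, from the analytic input `ana` and the primitive root
`exp (2πi/p)`. -/
theorem primeData_complex (p : ℕ) (hp : p.Prime) : Nonempty (PrimeData ℂ p) := by
  obtain ⟨Φ, Ψ, P, hΦ, hΦd, hΨ, hΨd, hP, hPd, h1, h2, h3, h4, h5, h6⟩ := ana p hp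
  have hζ : IsPrimitiveRoot (Complex.exp (2 * Real.pi * Complex.I / p)) p :=
    Complex.isPrimitiveRoot_exp p hp.ne_zero
  have hu : IsUnit (Complex.exp (2 * Real.pi * Complex.I / p)) := hζ.isUnit hp.ne_zero
  have hζ' : IsPrimitiveRoot hu.unit p := by
    rw [← IsPrimitiveRoot.coe_units_iff]
    exact hζ
  exact ⟨primeData_of_roots hp.two_le hu.unit hζ' Φ Ψ P hΦ hΦd hΨ hΨd hP hPd h1 h2 h3 h4 h5 h6⟩

end Fermat.Agent.IgusaLib
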