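import Mathlib
import Fermat.Agent.IgusaLib.Defs
import Fermat.Prelude.Thm_ModularCurve_coeffMap_qExpand
import Fermat.Prelude.Thm_ModularCurve_coeff_jqModC_pow_of_lt
import Fermat.Prelude.Thm_ModularCurve_coeff_jqModC_pow_self

/-!
# Reduction of the level-`p` data to characteristic `ℓ` (S28, leaf [PRIME])

From `PrimeData ℂ p` for every prime `p` we produce a field `k` of characteristic `ℓ` carrying
`PrimeData k p` for all primes `p ≠ ℓ`:  `k = S ⧸ 𝔪` with `S` the ring of algebraic integers in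
`ℂ` and `𝔪` a maximal ideal containing `ℓ`.

* `tri`: the triangular lemma — `G ∈ R'[X]` with `G(j(q^p))` in the image of `R((q))`
  has coefficients in the image of `R`;
* `descend`, `reduce_identity`: descent of a two-variable identity from `ℂ` to `S` and its
  reduction to `k`;
* `isPrimitiveRoot_mk`: a primitive `p`-th root of unity stays primitive mod `𝔪` for `p ≠ ℓ`;
* `primeData_quot`, `exists_field_primeData_of`: the assembly.
-/

set_option autoImplicit false

noncomputable section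

namespace Fermat.Agent.IgusaLib.PrimeRed

open Polynomial ModularCurve Fermat.Agent.IgusaLib

/-! ### The ring of algebraic integers and its residue fields -/

/-- the ring of algebraic integers inside `ℂ` -/
abbrev Sint : Subring ℂ := (integralClosure ℤ ℂ).toSubring

theorem natCast_not_isUnit {l : ℕ} (hl : l.Prime) : ¬ IsUnit ((l : ℕ) : Sint) := by
  intro h
  obtain ⟨y, hy⟩ := h.exists_right_inv
  have hy' : (l : ℂ) * (y : ℂ) = 1 := by
    have := congrArg (Subtype.val) hy
    simpa using this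
  have hl0 : (l : ℂ) ≠ 0 := by exact_mod_cast hl.ne_zero
  have hyv : (y : ℂ) = (l : ℂ)⁻¹ := by
    field_simp
    linear_combination hy'
  have hint : IsIntegral ℤ ((l : ℂ)⁻¹) := hyv ▸ y.2
  have hint' : IsIntegral ℤ ((l : ℚ)⁻¹) := by
    have : algebraMap ℚ ℂ ((l : ℚ)⁻¹) = (l : ℂ)⁻¹ := by simp
    rw [← this] at hint
    exact (isIntegral_algebraMap_iff (algebraMap ℚ ℂ).injective).mp hint
  obtain ⟨n, hn⟩ := IsIntegrallyClosed.isIntegral_iff.mp hint'
  have hl0' : (l : ℚ) ≠ 0 := by exact_mod_cast hl.ne_zero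
  have h1 : (((l : ℤ) * n : ℤ) : ℚ) = 1 := by
    have : (n : ℚ) = (l : ℚ)⁻¹ := by simpa using hn
    push_cast
    rw [this]; field_simp
  have h2 : (l : ℤ) * n = 1 := by exact_mod_cast h1
  have h3 : IsUnit (l : ℤ) := IsUnit.of_mul_eq_one _ h2
  have h4 : (l : ℤ).natAbs = 1 := Int.isUnit_iff_natAbs_eq.mp h3
  simp at h4
  exact hl.one_lt.ne' h4

theorem exists_maximal (l : ℕ) (hl : l.Prime) :
    ∃ m : Ideal Sint, m.IsMaximal ∧ ((l : ℕ) : Sint) ∈ m := by
  have hne : Ideal.span {((l : ℕ) : Sint)} ≠ ⊤ := by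
    rw [Ne, Ideal.span_singleton_eq_top]
    exact natCast_not_isUnit hl
  obtain ⟨m, hm, hle⟩ := Ideal.exists_le_maximal _ hne
  exact ⟨m, hm, hle (Ideal.subset_span rfl)⟩

theorem charP_quot (l : ℕ) (hl : l.Prime) (m : Ideal Sint) [hm : m.IsMaximal]
    (hlm : ((l : ℕ) : Sint) ∈ m) : CharP (Sint ⧸ m) l := by
  let _ : Field (Sint ⧸ m) := Ideal.Quotient.field m
  have h0 : ((l : ℕ) : Sint ⧸ m) = 0 := by
    have : (Ideal.Quotient.mk m) ((l : ℕ) : Sint) = 0 := Ideal.Quotient.eq_zero_iff_mem.mpr hlm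
    simpa using this
  have hdvd : ringChar (Sint ⧸ m) ∣ l := (ringChar.spec (Sint ⧸ m) l).mp h0
  have hne1 : ringChar (Sint ⧸ m) ≠ 1 := CharP.ringChar_ne_one
  have : ringChar (Sint ⧸ m) = l := ((Nat.dvd_prime hl).mp hdvd).resolve_left hne1
  exact this ▸ ringChar.charP (Sint ⧸ m)

/-! ### Roots of unity -/

theorem exists_unit_Sint (ζ : ℂˣ) (p : ℕ) (hp : 0 < p) (hζ : ζ ^ p = 1) :
    ∃ u : Sintˣ, Units.map (Sint.subtype : Sint →* ℂ) u = ζ := by
  have h1 : IsIntegral ℤ (ζ : ℂ) := by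
    refine IsIntegral.of_pow hp ?_
    have : ((ζ : ℂ)) ^ p = 1 := by
      have := congrArg Units.val hζ
      simpa using this
    rw [this]; exact isIntegral_one
  have h2 : IsIntegral ℤ ((ζ⁻¹ : ℂˣ) : ℂ) := by
    refine IsIntegral.of_pow hp ?_
    have : (((ζ⁻¹ : ℂˣ) : ℂ)) ^ p = 1 := by
      have := congrArg Units.val (show (ζ⁻¹) ^ p = 1 by rw [inv_pow, hζ, inv_one])
      simpa using this
    rw [this]; exact isIntegral_one
  refine ⟨⟨⟨(ζ : ℂ), h1⟩, ⟨((ζ⁻¹ : ℂˣ) : ℂ), h2⟩, ?_, ?_⟩, ?_⟩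
  · apply Subtype.ext; simp
  · apply Subtype.ext; simp
  · apply Units.ext; rfl

theorem isPrimitiveRoot_mk (m : Ideal Sint) [hm : m.IsMaximal] (l p : ℕ) (hl : l.Prime)
    (hp : p.Prime) (hpl : p ≠ l) (hlm : ((l : ℕ) : Sint) ∈ m) (u : Sintˣ)
    (hu : IsPrimitiveRoot (Units.map (Sint.subtype : Sint →* ℂ) u) p) :
    IsPrimitiveRoot (Units.map (Ideal.Quotient.mk m : Sint →* Sint ⧸ m) u) p := by
  have hu' : IsPrimitiveRoot u p :=
    IsPrimitiveRoot.of_map_of_injective (f := Units.map (Sint.subtype : Sint →* ℂ)) hu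
      (Units.map_injective Subtype.val_injective)
  have hu'' : IsPrimitiveRoot (u : Sint) p := IsPrimitiveRoot.coe_units_iff.mpr hu'
  have hsum : ∑ i ∈ Finset.range p, (u : Sint) ^ i = 0 := hu''.geom_sum_eq_zero hp.one_lt
  set v : (Sint ⧸ m)ˣ := Units.map (Ideal.Quotient.mk m : Sint →* Sint ⧸ m) u with hv
  have hvp : v ^ p = 1 := by
    rw [hv, ← map_pow, hu'.pow_eq_one, map_one]
  have hv1 : v ≠ 1 := by
    intro h1
    have hval : (Ideal.Quotient.mk m) (u : Sint) = 1 := by
      have := congrArg Units.val h1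
      simpa [hv] using this
    have h0 : (Ideal.Quotient.mk m) (∑ i ∈ Finset.range p, (u : Sint) ^ i) = 0 := by
      rw [hsum, map_zero]
    rw [map_sum] at h0
    simp only [map_pow, hval, one_pow, Finset.sum_const, Finset.card_range, nsmul_eq_mul,
      mul_one] at h0
    have hpm : ((p : ℕ) : Sint) ∈ m := by
      apply Ideal.Quotient.eq_zero_iff_mem.mp
      simpa using h0
    have hcop : Nat.Coprime p l := (Nat.coprime_primes hp hl).mpr hpl
    have h1m : (1 : Sint) ∈ m := by
      obtain ⟨a, b, hab⟩ : ∃ a b : ℤ, a * p + b * l = 1 := by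
        have := Nat.Coprime.isCoprime hcop
        obtain ⟨a, b, hab⟩ := this
        exact ⟨a, b, by exact_mod_cast hab⟩
      have : (1 : Sint) = (a : Sint) * ((p : ℕ) : Sint) + (b : Sint) * ((l : ℕ) : Sint) := by
        have := congrArg (fun z : ℤ => (z : Sint)) hab
        simp only [Int.cast_add, Int.cast_mul, Int.cast_natCast, Int.cast_one] at this
        exact this.symm
      rw [this]
      exact m.add_mem (m.mul_mem_left _ hpm) (m.mul_mem_left _ hlm)
    exact hm.ne_top ((Ideal.eq_top_iff_one m).mpr h1m)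
  have : Fact p.Prime := ⟨hp⟩
  have hord : orderOf v = p := orderOf_eq_prime hvp hv1
  have := IsPrimitiveRoot.orderOf v
  rwa [hord] at this

/-! ### Naturality of the vocabulary in the coefficient ring -/

section Naturality

variable {R R' : Type*} [CommRing R] [CommRing R']

theorem algebraMap_LS (c : R) : algebraMap R (LaurentSeries R) c = HahnSeries.C c := by
  have h1 : algebraMap R (PowerSeries R) c = PowerSeries.C c := by simp
  rw [HahnSeries.algebraMap_apply', h1, HahnSeries.ofPowerSeries_C]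

theorem ev_C (x : LaurentSeries R) (c : R) : ev x (C c) = HahnSeries.C c := by
  rw [ev_apply, Polynomial.aeval_C, algebraMap_LS]

theorem ev_X (x : LaurentSeries R) : ev x X = x := by
  rw [ev_apply, Polynomial.aeval_X]

theorem coeffMap_C' (f : R →+* R') (c : R) :
    coeffMap f (HahnSeries.C c) = HahnSeries.C (f c) := by
  rw [HahnSeries.C_apply, HahnSeries.C_apply, coeffMap_single]

theorem coeffMap_injective (f : R →+* R') (hf : Function.Injective f) :
    Function.Injective (coeffMap f) := by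
  intro x y h
  ext k
  have := congrArg (fun z => z.coeff k) h
  exact hf (by simpa using this)

theorem coeffMap_Vd (f : R →+* R') (d : ℕ) (x : LaurentSeries R) :
    coeffMap f (Vd R d x) = Vd R' d (coeffMap f x) := by
  by_cases h : d = 0
  · subst h
    simp [Vd]
  · have : NeZero d := ⟨h⟩
    rw [Vd_eq, Vd_eq, coeffMap_qExpand]

theorem coeffMap_tw (f : R →+* R') (u : Rˣ) (x : LaurentSeries R) :
    coeffMap f (tw u x) = tw (Units.map (f : R →* R') u) (coeffMap f x) := by
  ext n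
  simp only [coeffMap_coeff, tw_coeff, map_mul]
  congr 1
  rw [← map_zpow]
  rfl

theorem coeffMap_jqModC (f : R →+* R') : coeffMap f (jqModC R) = jqModC R' :=
  map_jqModC f

theorem coeffMap_ofPowerSeries (f : R →+* R') (v : PowerSeries R) :
    coeffMap f (HahnSeries.ofPowerSeries ℤ R v) = HahnSeries.ofPowerSeries ℤ R' (v.map f) := by
  ext k
  rw [coeffMap_coeff]
  rcases le_or_gt 0 k with hk | hk
  · lift k to ℕ using hk
    rw [HahnSeries.ofPowerSeries_apply_coeff, HahnSeries.ofPowerSeries_apply_coeff,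
      PowerSeries.coeff_map]
  · rw [ofPowerSeries_coeff_of_neg _ hk, ofPowerSeries_coeff_of_neg _ hk, map_zero]

theorem map_map_intCast (f : R →+* R') (v : PowerSeries ℤ) :
    (v.map (Int.castRingHom R)).map f = v.map (Int.castRingHom R') := by
  ext n
  simp

theorem coeffMap_deltaS (f : R →+* R') : coeffMap f (deltaS R) = deltaS R' := by
  rw [deltaS, deltaS, map_mul, coeffMap_single, map_one, coeffMap_ofPowerSeries,
    map_map_intCast]

theorem coeffMap_deltaInvS (f : R →+* R') : coeffMap f (deltaInvS R) = deltaInvS R' := by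
  rw [deltaInvS, deltaInvS, map_mul, coeffMap_single, map_one, coeffMap_ofPowerSeries,
    map_map_intCast]

theorem coeffMap_dInf (f : R →+* R') (p : ℕ) : coeffMap f (dInf R p) = dInf R' p := by
  rw [dInf, dInf, map_mul, map_mul, map_pow, map_natCast, coeffMap_Vd, coeffMap_Vd,
    coeffMap_deltaS, coeffMap_deltaInvS]

theorem coeffMap_dTw (f : R →+* R') (p : ℕ) (u : Rˣ) :
    coeffMap f (dTw R p u) = dTw R' p (Units.map (f : R →* R') u) := by
  rw [dTw, dTw, map_mul, coeffMap_tw, coeffMap_Vd, coeffMap_deltaS, coeffMap_deltaInvS]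

/-- naturality of `ev` in the coefficient ring -/
theorem coeffMap_comp_ev (f : R →+* R') (x : LaurentSeries R) :
    (coeffMap f).comp (ev x) = (ev (coeffMap f x)).comp (Polynomial.mapRingHom f) := by
  refine Polynomial.ringHom_ext (fun c => ?_) ?_
  · rw [RingHom.comp_apply, RingHom.comp_apply, ev_C, coeffMap_C', Polynomial.coe_mapRingHom,
      Polynomial.map_C, ev_C]
  · rw [RingHom.comp_apply, RingHom.comp_apply, ev_X, Polynomial.coe_mapRingHom,
      Polynomial.map_X, ev_X]

/-! ### The three root polynomials -/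

/-- right-hand side of `PrimeData.hΦ` -/
def rhsΦ (R : Type*) [CommRing R] (p : ℕ) (u : Rˣ) : (LaurentSeries R)[X] :=
  (X - C (Vd R (p * p) (jqModC R))) *
    ∏ b ∈ Finset.range p, (X - C (tw (u ^ b) (jqModC R)))

/-- right-hand side of `PrimeData.hΨ` -/
def rhsΨ (R : Type*) [CommRing R] (p : ℕ) (u : Rˣ) : (LaurentSeries R)[X] :=
  (X - C (dInf R p)) * ∏ b ∈ Finset.range p, (X - C (dTw R p (u ^ b)))

/-- right-hand side of `PrimeData.hP` -/
def rhsP (R : Type*) [CommRing R] (p : ℕ) (u : Rˣ) : (LaurentSeries R)[X] :=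
  (X - C ((Vd R (p * p) (jqModC R)) ^ 2 * dInf R p)) *
    ∏ b ∈ Finset.range p, (X - C ((tw (u ^ b) (jqModC R)) ^ 2 * dTw R p (u ^ b)))

theorem map_rhsΦ (f : R →+* R') (p : ℕ) (u : Rˣ) :
    (rhsΦ R p u).map (coeffMap f) = rhsΦ R' p (Units.map (f : R →* R') u) := by
  simp only [rhsΦ, Polynomial.map_mul, Polynomial.map_sub, Polynomial.map_X, Polynomial.map_C,
    Polynomial.map_prod, coeffMap_Vd, coeffMap_jqModC, coeffMap_tw, map_pow]

theorem map_rhsΨ (f : R →+* R') (p : ℕ) (u : Rˣ) :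
    (rhsΨ R p u).map (coeffMap f) = rhsΨ R' p (Units.map (f : R →* R') u) := by
  simp only [rhsΨ, Polynomial.map_mul, Polynomial.map_sub, Polynomial.map_X, Polynomial.map_C,
    Polynomial.map_prod, coeffMap_dInf, coeffMap_dTw, map_pow]

theorem coeffMap_sq_mul (f : R →+* R') (x y : LaurentSeries R) :
    coeffMap f (x ^ 2 * y) = (coeffMap f x) ^ 2 * coeffMap f y := by
  rw [map_mul, map_pow]

theorem map_rhsP (f : R →+* R') (p : ℕ) (u : Rˣ) :
    (rhsP R p u).map (coeffMap f) = rhsP R' p (Units.map (f : R →* R') u) := by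
  simp only [rhsP, Polynomial.map_mul, Polynomial.map_sub, Polynomial.map_X, Polynomial.map_C,
    Polynomial.map_prod, coeffMap_sq_mul, coeffMap_Vd, coeffMap_jqModC, coeffMap_tw,
    coeffMap_dInf, coeffMap_dTw]
  simp only [map_pow]

/-! ### The triangular lemma -/

theorem C_mul_coeff (c : R) (y : LaurentSeries R) (k : ℤ) :
    (HahnSeries.C c * y).coeff k = c * y.coeff k := by
  rw [HahnSeries.C_mul_eq_smul, HahnSeries.coeff_smul, smul_eq_mul]

/-- the coefficient of `q^(-(p n))` in `G(j(q^p))` for `deg G ≤ n` is the `n`-th coefficient -/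
theorem coeff_ev_Vd_jqModC (p : ℕ) [NeZero p] (n : ℕ) (G : R[X]) (hG : G.natDegree ≤ n) :
    (ev (Vd R p (jqModC R)) G).coeff (-((p : ℤ) * n)) = G.coeff n := by
  have hev : ev (Vd R p (jqModC R)) G
      = ∑ i ∈ Finset.range (n + 1),
          HahnSeries.C (G.coeff i) * qExpand R p ((jqModC R) ^ i) := by
    rw [ev_apply, Polynomial.aeval_eq_sum_range' (Nat.lt_succ_of_le hG)]
    refine Finset.sum_congr rfl fun i _ => ?_
    rw [Algebra.smul_def, algebraMap_LS, Vd_eq, map_pow]
  rw [hev]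
  have hco : ∀ k : ℤ, (∑ i ∈ Finset.range (n + 1),
      HahnSeries.C (G.coeff i) * qExpand R p ((jqModC R) ^ i)).coeff k
      = ∑ i ∈ Finset.range (n + 1), G.coeff i * (qExpand R p ((jqModC R) ^ i)).coeff k := by
    intro k
    rw [← HahnSeries.coeff.addMonoidHom_apply, map_sum]
    exact Finset.sum_congr rfl fun i _ => by
      rw [HahnSeries.coeff.addMonoidHom_apply, C_mul_coeff]
  rw [hco, Finset.sum_eq_single n]
  · rw [show -((p : ℤ) * n) = (p : ℤ) * (-(n : ℤ)) by ring, qExpand_coeff_mul,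
      coeff_jqModC_pow_self, mul_one]
  · intro i hi hin
    have hlt : i < n := lt_of_le_of_ne (Nat.lt_succ_iff.mp (Finset.mem_range.mp hi)) hin
    rw [show -((p : ℤ) * n) = (p : ℤ) * (-(n : ℤ)) by ring, qExpand_coeff_mul,
      coeff_jqModC_pow_of_lt R (by omega), mul_zero]
  · intro h
    exact absurd (Finset.mem_range.mpr (Nat.lt_succ_self n)) h

theorem coeffMap_Vd_jqModC (f : R →+* R') (p : ℕ) :
    coeffMap f (Vd R p (jqModC R)) = Vd R' p (jqModC R') := by
  rw [coeffMap_Vd, coeffMap_jqModC]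

/-- TRIANGULAR LEMMA: if `G(j(q^p))` has coefficients in the image of `f`, so does `G`. -/
theorem tri (f : R →+* R') (p : ℕ) [NeZero p] :
    ∀ (n : ℕ) (G : R'[X]), G.natDegree ≤ n →
      ev (Vd R' p (jqModC R')) G ∈ Set.range (coeffMap f) →
      G ∈ Set.range (Polynomial.map f) := by
  intro n
  induction n with
  | zero =>
    intro G hG ⟨y, hy⟩
    have hc := coeff_ev_Vd_jqModC p 0 G hG
    rw [← hy] at hc
    refine ⟨C (y.coeff (-((p : ℤ) * (0 : ℕ)))), ?_⟩
    rw [Polynomial.map_C]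
    rw [Polynomial.eq_C_of_natDegree_le_zero hG]
    congr 1
  | succ n ih =>
    intro G hG ⟨y, hy⟩
    have hc := coeff_ev_Vd_jqModC p (n + 1) G hG
    rw [← hy] at hc
    set c0 : R := y.coeff (-((p : ℤ) * ((n + 1 : ℕ) : ℤ))) with hc0
    have hfc : f c0 = G.coeff (n + 1) := hc
    set G' : R'[X] := G - C (f c0) * X ^ (n + 1) with hG'
    have hdeg : G'.natDegree ≤ n := by
      rw [Polynomial.natDegree_le_iff_coeff_eq_zero]
      intro N hN
      rw [hG', Polynomial.coeff_sub, Polynomial.coeff_C_mul, Polynomial.coeff_X_pow]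
      rcases Nat.lt_or_ge (n + 1) N with h | h
      · rw [if_neg (by omega), mul_zero, sub_zero]
        exact Polynomial.coeff_eq_zero_of_natDegree_lt (lt_of_le_of_lt hG h)
      · have : N = n + 1 := by omega
        rw [if_pos this, mul_one, this, hfc, sub_self]
    have hmem : ev (Vd R' p (jqModC R')) G' ∈ Set.range (coeffMap f) := by
      refine ⟨y - HahnSeries.C c0 * (Vd R p (jqModC R)) ^ (n + 1), ?_⟩
      rw [map_sub, map_mul, map_pow, coeffMap_C', coeffMap_Vd_jqModC, hy, hG', map_sub,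
        map_mul, map_pow, ev_C, ev_X]
    obtain ⟨G0, hG0⟩ := ih G' hdeg hmem
    refine ⟨G0 + C c0 * X ^ (n + 1), ?_⟩
    rw [Polynomial.map_add, hG0, Polynomial.map_mul, Polynomial.map_pow, Polynomial.map_C,
      Polynomial.map_X, hG']
    ring

theorem tri' (f : R →+* R') (p : ℕ) [NeZero p] (G : R'[X])
    (h : ev (Vd R' p (jqModC R')) G ∈ Set.range (coeffMap f)) :
    G ∈ Set.range (Polynomial.map f) :=
  tri f p G.natDegree G le_rfl h

/-- descent of a two-variable polynomial: if `Φ(j(q^p), Y)` is the image of `Q ∈ R((q))[Y]`,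
then `Φ` comes from `R[X][Y]`, with the identity holding over `R` (for injective `f`). -/
theorem descend (f : R →+* R') (hf : Function.Injective f) (p : ℕ) [NeZero p]
    (Φ : R'[X][X]) (Q : (LaurentSeries R)[X])
    (h : Φ.map (ev (Vd R' p (jqModC R'))) = Q.map (coeffMap f)) :
    ∃ Φ0 : R[X][X], Φ0.map (Polynomial.mapRingHom f) = Φ ∧
      Φ0.map (ev (Vd R p (jqModC R))) = Q := by
  have hlift : Φ ∈ Polynomial.lifts (Polynomial.mapRingHom f) := by
    rw [Polynomial.lifts_iff_coeff_lifts]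
    intro i
    have hi := congrArg (fun P => P.coeff i) h
    simp only [Polynomial.coeff_map] at hi
    obtain ⟨G0, hG0⟩ := tri' f p (Φ.coeff i) ⟨Q.coeff i, hi.symm⟩
    exact ⟨G0, hG0⟩
  obtain ⟨Φ0, hΦ0⟩ := (Polynomial.mem_lifts _).mp hlift
  refine ⟨Φ0, hΦ0, ?_⟩
  apply Polynomial.map_injective (coeffMap f) (coeffMap_injective f hf)
  rw [Polynomial.map_map, coeffMap_comp_ev, coeffMap_Vd_jqModC, ← Polynomial.map_map,
    hΦ0, h]

/-- reduction of a two-variable identity along any ring hom -/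
theorem reduce_identity {R'' : Type*} [CommRing R''] (g : R →+* R'') (p : ℕ)
    (Φ0 : R[X][X]) (Q : (LaurentSeries R)[X])
    (h : Φ0.map (ev (Vd R p (jqModC R))) = Q) :
    (Φ0.map (Polynomial.mapRingHom g)).map (ev (Vd R'' p (jqModC R''))) =
      Q.map (coeffMap g) := by
  rw [Polynomial.map_map, ← coeffMap_Vd_jqModC g p, ← coeffMap_comp_ev,
    ← Polynomial.map_map, h]

/-- transfer of a two-variable identity from `R'` to `R''` through a common subring `R` -/
theorem transfer {R'' : Type*} [CommRing R''] (f : R →+* R') (hf : Function.Injective f)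
    (g : R →+* R'') (p : ℕ) [NeZero p] (Φ : R'[X][X]) (Q : (LaurentSeries R)[X])
    (h : Φ.map (ev (Vd R' p (jqModC R'))) = Q.map (coeffMap f)) :
    ∃ Φ'' : R''[X][X], Φ''.map (ev (Vd R'' p (jqModC R''))) = Q.map (coeffMap g) := by
  obtain ⟨Φ0, -, hΦ0⟩ := descend f hf p Φ Q h
  exact ⟨Φ0.map (Polynomial.mapRingHom g), reduce_identity g p Φ0 Q hΦ0⟩

end Naturality

/-! ### Assembly -/

section Assembly

variable {K : Type*} [Field K] {S : Type*} [CommRing S] (f : S →+* K)
  (hf : Function.Injective f) {k : Type*} [Field k] (g : S →+* k) (p : ℕ) [NeZero p]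
  (D : PrimeData K p) (u : Sˣ) (hu : Units.map (f : S →* K) u = D.ζ)

include hf hu

theorem exists_Φ : ∃ Φ : k[X][X], Φ.map (ev (Vd k p (jqModC k))) =
    rhsΦ k p (Units.map (g : S →* k) u) := by
  have h := transfer f hf g p D.Φ (rhsΦ S p u) (by rw [map_rhsΦ, hu]; exact D.hΦ)
  rw [map_rhsΦ] at h
  exact h

theorem exists_Ψ : ∃ Ψ : k[X][X], Ψ.map (ev (Vd k p (jqModC k))) =
    rhsΨ k p (Units.map (g : S →* k) u) := by
  have h := transfer f hf g p D.Ψ (rhsΨ S p u) (by rw [map_rhsΨ, hu]; exact D.hΨ)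
  rw [map_rhsΨ] at h
  exact h

theorem exists_P : ∃ P : k[X][X], P.map (ev (Vd k p (jqModC k))) =
    rhsP k p (Units.map (g : S →* k) u) := by
  have h := transfer f hf g p D.P (rhsP S p u) (by rw [map_rhsP, hu]; exact D.hP)
  rw [map_rhsP] at h
  exact h

/-- transfer of `PrimeData` from a field `K` to a field `k` through a common subring `S`
containing the root of unity, provided the root of unity stays primitive -/
theorem primeData_of_ringHom (hprim : IsPrimitiveRoot (Units.map (g : S →* k) u) p) :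
    Nonempty (PrimeData k p) := by
  obtain ⟨Φ, hΦ⟩ := exists_Φ f hf g p D u hu
  obtain ⟨Ψ, hΨ⟩ := exists_Ψ f hf g p D u hu
  obtain ⟨P, hP⟩ := exists_P f hf g p D u hu
  exact ⟨⟨Units.map (g : S →* k) u, hprim, Φ, Ψ, P, hΦ, hΨ, hP⟩⟩

end Assembly

theorem primeData_quot (m : Ideal Sint) [hm : m.IsMaximal] (l : ℕ) (hl : l.Prime)
    (hlm : ((l : ℕ) : Sint) ∈ m) (p : ℕ) (hp : p.Prime) (hpl : p ≠ l) (D : PrimeData ℂ p) :
    letI : Field (Sint ⧸ m) := Ideal.Quotient.field m
    Nonempty (PrimeData (Sint ⧸ m) p) := by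
  let _ : Field (Sint ⧸ m) := Ideal.Quotient.field m
  have : NeZero p := ⟨hp.ne_zero⟩
  obtain ⟨u, hu⟩ := exists_unit_Sint D.ζ p hp.pos D.hζ.pow_eq_one
  have hprim : IsPrimitiveRoot (Units.map (Ideal.Quotient.mk m : Sint →* Sint ⧸ m) u) p :=
    isPrimitiveRoot_mk m l p hl hp hpl hlm u (hu ▸ D.hζ)
  exact primeData_of_ringHom (Sint.subtype : Sint →+* ℂ) Subtype.val_injective
    (Ideal.Quotient.mk m) p D u hu hprim

/-- [PRIME], relative to the complex input: a field of characteristic `ℓ` carrying the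
level-`p` data for all primes `p ≠ ℓ`. -/
theorem exists_field_primeData_of (hC : ∀ p : ℕ, p.Prime → Nonempty (PrimeData ℂ p))
    (l : ℕ) [hl : Fact l.Prime] :
    ∃ (k : Type) (_ : Field k) (_ : CharP k l),
      ∀ p : ℕ, p.Prime → p ≠ l → Nonempty (PrimeData k p) := by
  obtain ⟨m, hm, hlm⟩ := exists_maximal l hl.out
  have := hm
  refine ⟨Sint ⧸ m, Ideal.Quotient.field m, charP_quot l hl.out m hlm, ?_⟩
  intro p hp hpl
  obtain ⟨D⟩ := hC p hp
  exact primeData_quot m l hl.out hlm p hp hpl D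

end Fermat.Agent.IgusaLib.PrimeRed
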