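import Mathlib
import Fermat.Agent.IgusaLib.Prime
import Fermat.Agent.IgusaLib.FormalC

/-!
# [PRIME] for S28: a field of characteristic `ℓ` with level-`p` data for all primes `p ≠ ℓ`

`k = S ⧸ 𝔪`, `S` the ring of algebraic integers in `ℂ`, `𝔪` a maximal ideal containing `ℓ`;
the data are the reductions of the complex data `primeData_complex` (see `Prime.lean`).
-/

set_option autoImplicit false

namespace Fermat.Agent.IgusaLib

theorem exists_field_primeData (l : ℕ) [Fact l.Prime] :
    ∃ (k : Type) (_ : Field k) (_ : CharP k l),
      ∀ p : ℕ, p.Prime → p ≠ l → Nonempty (PrimeData k p) :=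
  PrimeRed.exists_field_primeData_of primeData_complex l

end Fermat.Agent.IgusaLib
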