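import Mathlib
import Fermat.Agent.IgusaLib.Formal
import Fermat.Agent.IgusaLib.Alg

/-!
# `[F1]` for S28: `j(q^p) ∉ k(j(q))` in characteristic prime to `p`

Given the level-`p` data `PrimeData k p` (`p ≥ 2`), the series `V_p J` does not lie in `k(J)`.
-/

set_option autoImplicit false

noncomputable section

namespace Fermat.Agent.IgusaLib

open ModularCurve Polynomial

section Abstract

variable {F L : Type*} [Field F] [Field L] [Algebra F L]

/-- If `Ψ ∈ F[T]` splits over `L` as `(T - d∞) ∏_b (T - d_b)` with `d∞ ∉ F`, then `d∞` is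
`F`-conjugate to some `d_b`: every polynomial relation `P(y · d∞) = 0` over `F` also holds for
that `d_b`. -/
theorem exists_root_of_not_mem_range {p : ℕ} (ΨF PF : F[X]) (dinf : L) (d : ℕ → L) (y : F)
    (hΨ : ΨF.map (algebraMap F L) = (X - C dinf) * ∏ b ∈ Finset.range p, (X - C (d b)))
    (hP : (PF.map (algebraMap F L)).eval (algebraMap F L y * dinf) = 0)
    (hd : dinf ∉ (algebraMap F L).range) :
    ∃ b < p, (PF.map (algebraMap F L)).eval (algebraMap F L y * d b) = 0 := by
  have hrhs_ne : (X - C dinf) * ∏ b ∈ Finset.range p, (X - C (d b)) ≠ 0 :=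
    mul_ne_zero (X_sub_C_ne_zero dinf)
      (Finset.prod_ne_zero_iff.mpr fun b _ => X_sub_C_ne_zero (d b))
  have hΨ0 : ΨF ≠ 0 := by
    rintro rfl
    rw [Polynomial.map_zero] at hΨ
    exact hrhs_ne hΨ.symm
  have haeΨ : aeval dinf ΨF = 0 := by
    rw [aeval_def, eval₂_eq_eval_map, hΨ, eval_mul, eval_sub, eval_X, eval_C, sub_self, zero_mul]
  have halg : IsAlgebraic F dinf := ⟨ΨF, hΨ0, haeΨ⟩
  have hint : IsIntegral F dinf := halg.isIntegral
  set m := minpoly F dinf with hm
  have hm2 : 2 ≤ m.natDegree := (minpoly.two_le_natDegree_iff hint).mpr hd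
  have hmΨ : m ∣ ΨF := minpoly.dvd F dinf haeΨ
  have haeQ : aeval dinf (PF.comp (C y * X)) = 0 := by
    rw [aeval_comp, map_mul, aeval_C, aeval_X, aeval_def, eval₂_eq_eval_map]
    exact hP
  have hmQ : m ∣ PF.comp (C y * X) := minpoly.dvd F dinf haeQ
  have hmL_dvd : m.map (algebraMap F L) ∣ (X - C dinf) * ∏ b ∈ Finset.range p, (X - C (d b)) := by
    rw [← hΨ]
    exact Polynomial.map_dvd _ hmΨ
  have hroot : (m.map (algebraMap F L)).eval dinf = 0 := by
    rw [← eval₂_eq_eval_map, ← aeval_def, hm, minpoly.aeval]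
  obtain ⟨m₁, hm₁⟩ : (X - C dinf) ∣ m.map (algebraMap F L) := dvd_iff_isRoot.mpr hroot
  have hm₁_dvd : m₁ ∣ ∏ b ∈ Finset.range p, (X - C (d b)) := by
    rw [hm₁] at hmL_dvd
    exact (mul_dvd_mul_iff_left (X_sub_C_ne_zero dinf)).mp hmL_dvd
  have hmL0 : m.map (algebraMap F L) ≠ 0 :=
    (Polynomial.map_ne_zero_iff (algebraMap F L).injective).mpr (minpoly.ne_zero hint)
  have hm₁0 : m₁ ≠ 0 := by
    rintro rfl
    rw [mul_zero] at hm₁
    exact hmL0 hm₁
  have hdeg : 1 ≤ m₁.natDegree := by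
    have h1 : (m.map (algebraMap F L)).natDegree = m.natDegree := natDegree_map _
    rw [hm₁, natDegree_mul (X_sub_C_ne_zero dinf) hm₁0, natDegree_X_sub_C] at h1
    omega
  have hex : ∃ b < p, m₁.eval (d b) = 0 := by
    by_contra hno'
    have hno : ∀ b < p, m₁.eval (d b) ≠ 0 := fun b hb h => hno' ⟨b, hb, h⟩
    have hcop : IsCoprime m₁ (∏ b ∈ Finset.range p, (X - C (d b))) := by
      refine IsCoprime.prod_right fun b hb => ?_
      refine IsCoprime.symm ?_
      rw [(irreducible_X_sub_C (d b)).coprime_iff_not_dvd, dvd_iff_isRoot]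
      exact hno b (Finset.mem_range.mp hb)
    have hunit : IsUnit m₁ := hcop.isUnit_of_dvd' dvd_rfl hm₁_dvd
    have := natDegree_eq_zero_of_isUnit hunit
    omega
  obtain ⟨b, hb, hbroot⟩ := hex
  refine ⟨b, hb, ?_⟩
  have hmb : aeval (d b) m = 0 := by
    rw [aeval_def, eval₂_eq_eval_map, hm₁, eval_mul, hbroot, mul_zero]
  have hQb : aeval (d b) (PF.comp (C y * X)) = 0 := by
    obtain ⟨c, hc⟩ := hmQ
    rw [hc, map_mul, hmb, zero_mul]
  rw [aeval_comp, map_mul, aeval_C, aeval_X, aeval_def, eval₂_eq_eval_map] at hQb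
  exact hQb

theorem monic_X_sub_C_mul_prod {p : ℕ} (a : L) (r : ℕ → L) :
    ((X - C a) * ∏ b ∈ Finset.range p, (X - C (r b))).Monic :=
  (monic_X_sub_C a).mul (monic_prod_of_monic _ _ fun b _ => monic_X_sub_C (r b))

theorem eval_X_sub_C_mul_prod {p : ℕ} (a x : L) (r : ℕ → L) :
    ((X - C a) * ∏ b ∈ Finset.range p, (X - C (r b))).eval x =
      (x - a) * ∏ b ∈ Finset.range p, (x - r b) := by
  rw [eval_mul, eval_prod, eval_sub, eval_X, eval_C]
  congr 1
  exact Finset.prod_congr rfl fun b _ => by rw [eval_sub, eval_X, eval_C]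

end Abstract

section F1

variable {k : Type*} [Field k] {p : ℕ}

/-- `V_d` as a `k`-algebra endomorphism of `k((q))`. -/
def VdAlgHom (k : Type*) [Field k] (d : ℕ) : LaurentSeries k →ₐ[k] LaurentSeries k where
  __ := Vd k d
  commutes' c := by
    show Vd k d (algebraMap k (LaurentSeries k) c) = algebraMap k (LaurentSeries k) c
    rw [algebraMap_laurentSeries_eq_single, ← HahnSeries.C_apply, Vd_C]

@[simp] theorem VdAlgHom_apply (d : ℕ) (f : LaurentSeries k) : VdAlgHom k d f = Vd k d f := rfl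

/-- `V_d` maps `k(x)` into `k(V_d x)`. -/
theorem Vd_mem_adjoin (d : ℕ) {x y : LaurentSeries k} (hy : y ∈ IntermediateField.adjoin k {x}) :
    Vd k d y ∈ IntermediateField.adjoin k {Vd k d x} := by
  have h : VdAlgHom k d y ∈ (IntermediateField.adjoin k {x}).map (VdAlgHom k d) :=
    ⟨y, hy, rfl⟩
  rw [IntermediateField.adjoin_map, Set.image_singleton] at h
  exact h

/-- **[F1]** `j(q^p)` is not a rational function of `j(q)` over a field carrying the level-`p`
data (in particular of characteristic prime to `p`). -/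
theorem F1 (hp : 2 ≤ p) (P : PrimeData k p) :
    Vd k p (jqModC k) ∉ IntermediateField.adjoin k {jqModC k} := by
  intro hmem
  have hp0 : p ≠ 0 := by omega
  have hp2 : (2 : ℤ) ≤ p := by exact_mod_cast hp
  have hpk : (p : k) ≠ 0 := natCast_ne_zero_of_isPrimitiveRoot hp0 P.hζ
  set X₀ : LaurentSeries k := Vd k p (jqModC k) with hX₀
  have hX₀lead : IsLead X₀ (-(p : ℤ)) 1 := by
    have h := (isLead_jqModC (k := k)).Vd hp0
    rw [mul_neg_one] at h
    exact h
  have hppos : (0 : ℤ) < p := by omega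
  have hX₀tr : Transcendental k X₀ := transcendental_of_isLead hX₀lead hppos
  set K' : IntermediateField k (LaurentSeries k) := IntermediateField.adjoin k {X₀} with hK'
  have hX₀K : X₀ ∈ K' := IntermediateField.mem_adjoin_simple_self k X₀
  have hY : Vd k (p * p) (jqModC k) ∈ K' := by
    have h := Vd_mem_adjoin p hmem
    rwa [Vd_Vd hp0 hp0] at h
  -- the specialised polynomials have coefficients in `K'`
  set evK : k[X] →+* K' := (aeval (⟨X₀, hX₀K⟩ : K')).toRingHom with hevK
  have hcomp : (algebraMap K' (LaurentSeries k)).comp evK = ev X₀ := by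
    refine Polynomial.ringHom_ext (fun c => ?_) ?_
    · simp only [RingHom.comp_apply, hevK, AlgHom.toRingHom_eq_coe, RingHom.coe_coe, aeval_C]
      exact (IsScalarTower.algebraMap_apply k K' (LaurentSeries k) c).symm
    · simp only [RingHom.comp_apply, hevK, AlgHom.toRingHom_eq_coe, RingHom.coe_coe, aeval_X]
      rfl
  have hΨK : (P.Ψ.map evK).map (algebraMap K' (LaurentSeries k)) =
      (X - C (dInf k p)) * ∏ b ∈ Finset.range p, (X - C (dTw k p (P.ζ ^ b))) := by
    rw [Polynomial.map_map, hcomp]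
    exact P.hΨ
  have hPK : (P.P.map evK).map (algebraMap K' (LaurentSeries k)) =
      (X - C ((Vd k (p * p) (jqModC k)) ^ 2 * dInf k p)) *
        ∏ b ∈ Finset.range p, (X - C ((tw (P.ζ ^ b) (jqModC k)) ^ 2 * dTw k p (P.ζ ^ b))) := by
    rw [Polynomial.map_map, hcomp]
    exact P.hP
  -- Step 1: `D_∞ ∈ K'`
  have hD : dInf k p ∈ K' := by
    by_contra hD
    have hrange : dInf k p ∉ (algebraMap K' (LaurentSeries k)).range := by
      rintro ⟨z, hz⟩
      exact hD (hz ▸ z.2)
    have hy : algebraMap K' (LaurentSeries k) ((⟨Vd k (p * p) (jqModC k), hY⟩ : K') ^ 2) =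
        Vd k (p * p) (jqModC k) ^ 2 := by
      rw [map_pow]
      rfl
    obtain ⟨b, hb, hroot⟩ := exists_root_of_not_mem_range (P.Ψ.map evK) (P.P.map evK)
      (dInf k p) (fun b => dTw k p (P.ζ ^ b)) ((⟨Vd k (p * p) (jqModC k), hY⟩ : K') ^ 2) hΨK
      (by rw [hy, hPK, eval_X_sub_C_mul_prod, sub_self, zero_mul]) hrange
    rw [hy, hPK, eval_X_sub_C_mul_prod, mul_eq_zero, Finset.prod_eq_zero_iff] at hroot
    have hlhs : IsLead (Vd k (p * p) (jqModC k) ^ 2 * dTw k p (P.ζ ^ b))
        (((2 : ℕ) : ℤ) * (-((p : ℤ) * p)) + (1 - p)) ((1 : k) ^ 2 * ((P.ζ ^ b : kˣ) : k)) :=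
      ((isLead_Vd_sq_jqModC (k := k) hp0).pow 2).mul (isLead_dTw hp0 (P.ζ ^ b))
    rcases hroot with h | ⟨b', -, h⟩
    · refine hlhs.ne_of_order_ne (isLead_sq_mul_dInf hp0 hpk) ?_ (sub_eq_zero.mp h)
      push_cast
      nlinarith
    · refine hlhs.ne_of_order_ne (isLead_sq_mul_dTw hp0 (P.ζ ^ b')) ?_ (sub_eq_zero.mp h)
      push_cast
      nlinarith
  -- Step 2: `D_∞` is integral over `k[X₀]`, hence a polynomial in `X₀`: contradiction with orders
  set evA : k[X] →+* Algebra.adjoin k {X₀} :=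
    (aeval (⟨X₀, Algebra.self_mem_adjoin_singleton k X₀⟩ : Algebra.adjoin k {X₀})).toRingHom
    with hevA
  have hcompA : (algebraMap (Algebra.adjoin k {X₀}) (LaurentSeries k)).comp evA = ev X₀ := by
    refine Polynomial.ringHom_ext (fun c => ?_) ?_
    · simp only [RingHom.comp_apply, hevA, AlgHom.toRingHom_eq_coe, RingHom.coe_coe, aeval_C]
      exact (IsScalarTower.algebraMap_apply k (Algebra.adjoin k {X₀}) (LaurentSeries k) c).symm
    · simp only [RingHom.comp_apply, hevA, AlgHom.toRingHom_eq_coe, RingHom.coe_coe, aeval_X]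
      rfl
  have hΨA : (P.Ψ.map evA).map (algebraMap (Algebra.adjoin k {X₀}) (LaurentSeries k)) =
      (X - C (dInf k p)) * ∏ b ∈ Finset.range p, (X - C (dTw k p (P.ζ ^ b))) := by
    rw [Polynomial.map_map, hcompA]
    exact P.hΨ
  have hΨAmonic : (P.Ψ.map evA).Monic := by
    refine monic_of_injective (f := algebraMap (Algebra.adjoin k {X₀}) (LaurentSeries k))
      Subtype.val_injective ?_
    rw [hΨA]
    exact monic_X_sub_C_mul_prod _ _
  have hint : IsIntegral (Algebra.adjoin k {X₀}) (dInf k p) := by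
    refine ⟨P.Ψ.map evA, hΨAmonic, ?_⟩
    rw [eval₂_eq_eval_map, hΨA, eval_X_sub_C_mul_prod, sub_self, zero_mul]
  have hDA : dInf k p ∈ Algebra.adjoin k {X₀} :=
    mem_adjoin_of_isIntegral X₀ hX₀tr (dInf k p) hD hint
  rw [Algebra.adjoin_singleton_eq_range_aeval] at hDA
  obtain ⟨G, hG⟩ := hDA
  have hG' : aeval X₀ G = dInf k p := hG
  have hDlead := isLead_dInf hp0 hpk
  by_cases hG0 : G = 0
  · rw [hG0, map_zero] at hG'
    exact hDlead.ne_zero hG'.symm
  · have hlead := isLead_aeval hX₀lead hppos hG0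
    rw [hG'] at hlead
    have := (hlead.unique hDlead).1
    have hnn : (0 : ℤ) ≤ (p : ℤ) * G.natDegree := by positivity
    nlinarith

end F1

end Fermat.Agent.IgusaLib
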