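import Mathlib
import Fermat.Agent.IgusaLib.Defs
import Fermat.Prelude.Def_ModularCurve_X0ModL

/-!
# S28, tower step: basic calculus of `Vd` (`q ↦ q^d`) and `tw` (`q ↦ u q`)

Everything lives in the namespace `Fermat.Agent.IgusaLib.Tower`.
-/

set_option autoImplicit false

noncomputable section

namespace Fermat.Agent.IgusaLib.Tower

open Polynomial ModularCurve

section Ring

variable {R : Type*} [CommRing R]

theorem Vd_apply {d : ℕ} (hd : d ≠ 0) (f : LaurentSeries R) :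
    Vd R d f = @qExpand R _ d ⟨hd⟩ f := by
  unfold Vd
  rw [dif_neg hd]

theorem Vd_coeff_mul {d : ℕ} (hd : d ≠ 0) (f : LaurentSeries R) (n : ℤ) :
    (Vd R d f).coeff ((d : ℤ) * n) = f.coeff n := by
  rw [Vd_apply hd]
  exact @qExpand_coeff_mul R _ d ⟨hd⟩ f n

theorem Vd_coeff_of_not_dvd {d : ℕ} (hd : d ≠ 0) (f : LaurentSeries R) {n : ℤ}
    (h : ¬ (d : ℤ) ∣ n) : (Vd R d f).coeff n = 0 := by
  rw [Vd_apply hd]
  exact @qExpand_coeff_of_not_dvd R _ d ⟨hd⟩ f n h

theorem Vd_Vd {d e : ℕ} (hd : d ≠ 0) (he : e ≠ 0) (f : LaurentSeries R) :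
    Vd R d (Vd R e f) = Vd R (d * e) f := by
  rw [Vd_apply hd, Vd_apply he, Vd_apply (Nat.mul_ne_zero hd he)]
  exact @qExpand_qExpand R _ e ⟨he⟩ d ⟨hd⟩ f

theorem Vd_injective {d : ℕ} (hd : d ≠ 0) : Function.Injective (Vd R d) := by
  intro f g h
  rw [Vd_apply hd, Vd_apply hd] at h
  exact @qExpand_injective R _ d ⟨hd⟩ f g h

theorem Vd_one (f : LaurentSeries R) : Vd R 1 f = f := by
  rw [Vd_apply one_ne_zero]
  exact qExpand_one_apply f

theorem tw_Vd (u : Rˣ) {d : ℕ} (hd : d ≠ 0) (f : LaurentSeries R) :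
    tw u (Vd R d f) = Vd R d (tw (u ^ d) f) := by
  ext n
  rw [tw_coeff]
  by_cases hn : (d : ℤ) ∣ n
  · obtain ⟨m, rfl⟩ := hn
    rw [Vd_coeff_mul hd, Vd_coeff_mul hd, tw_coeff, zpow_mul, zpow_natCast]
  · rw [Vd_coeff_of_not_dvd hd _ hn, Vd_coeff_of_not_dvd hd _ hn, mul_zero]

theorem tw_one (f : LaurentSeries R) : tw (1 : Rˣ) f = f := by
  ext n
  simp

theorem tw_mul (u v : Rˣ) (f : LaurentSeries R) : tw (u * v) f = tw u (tw v f) := by
  ext n
  rw [tw_coeff, tw_coeff, tw_coeff, mul_zpow, Units.val_mul, mul_assoc]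

theorem tw_pow (u : Rˣ) (n : ℕ) (f : LaurentSeries R) : tw (u ^ n) f = (tw u)^[n] f := by
  induction n generalizing f with
  | zero => rw [pow_zero, tw_one, Function.iterate_zero, id]
  | succ n ih => rw [pow_succ', tw_mul, ih, Function.iterate_succ_apply']

/-- A twist by a `p`-th root of unity fixes the series in `q^p`. -/
theorem tw_Vd_of_pow_eq_one (u : Rˣ) {p : ℕ} (hp : p ≠ 0) (hu : u ^ p = 1) (f : LaurentSeries R) :
    tw u (Vd R p f) = Vd R p f := by
  rw [tw_Vd u hp, hu, tw_one]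

end Ring

section Field

variable {k : Type*} [Field k]

theorem Vd_algebraMap (d : ℕ) (c : k) :
    Vd k d (algebraMap k (LaurentSeries k) c) = algebraMap k (LaurentSeries k) c := by
  by_cases hd : d = 0
  · subst hd
    unfold Vd
    rw [dif_pos rfl]
    rfl
  · rw [Vd_apply hd, algebraMap_laurentSeries_eq_single]
    rw [@qExpand_single k _ d ⟨hd⟩, mul_zero]

theorem tw_algebraMap (u : kˣ) (c : k) :
    tw u (algebraMap k (LaurentSeries k) c) = algebraMap k (LaurentSeries k) c := by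
  rw [algebraMap_laurentSeries_eq_single]
  ext n
  rw [tw_coeff]
  by_cases hn : n = 0
  · subst hn
    simp
  · rw [HahnSeries.coeff_single_of_ne hn, mul_zero]

/-- `q ↦ q^d` as a `k`-algebra endomorphism of `k((q))`. -/
def VdA (k : Type*) [Field k] (d : ℕ) : LaurentSeries k →ₐ[k] LaurentSeries k :=
  { Vd k d with commutes' := Vd_algebraMap d }

@[simp] theorem VdA_apply (d : ℕ) (f : LaurentSeries k) : VdA k d f = Vd k d f := rfl

/-- `q ↦ u q` as a `k`-algebra endomorphism of `k((q))`. -/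
def twA (u : kˣ) : LaurentSeries k →ₐ[k] LaurentSeries k :=
  { tw u with commutes' := tw_algebraMap u }

@[simp] theorem twA_apply (u : kˣ) (f : LaurentSeries k) : twA u f = tw u f := rfl

/-- The coefficient of `q^(-d)` in `j(u q^d)`. -/
theorem coeff_Vd_tw_J (u : kˣ) {d : ℕ} (hd : d ≠ 0) :
    (Vd k d (tw u (jqModC k))).coeff (-(d : ℤ)) = ((u⁻¹ : kˣ) : k) := by
  have h : (-(d : ℤ)) = (d : ℤ) * (-1) := by ring
  rw [h, Vd_coeff_mul hd, tw_coeff, coeff_jqModC_neg_one, mul_one, zpow_neg, zpow_one]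

theorem coeff_tw_J (u : kˣ) : (tw u (jqModC k)).coeff (-1) = ((u⁻¹ : kˣ) : k) := by
  rw [tw_coeff, coeff_jqModC_neg_one, mul_one, zpow_neg, zpow_one]

theorem Vd_tw_J_injective {d : ℕ} (hd : d ≠ 0) {u v : kˣ}
    (h : Vd k d (tw u (jqModC k)) = Vd k d (tw v (jqModC k))) : u = v := by
  have h1 := congrArg (fun f => HahnSeries.coeff f (-(d : ℤ))) h
  simp only [coeff_Vd_tw_J _ hd] at h1
  exact inv_injective (Units.ext h1)

/-- `j(q^(e))` with `e` a proper multiple of `d` differs from every `j(u q^d)`. -/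
theorem Vd_J_ne_Vd_tw_J {d e : ℕ} (hd : d ≠ 0) (he : e ≠ 0) (hde : ¬ e ∣ d) (u : kˣ) :
    Vd k e (jqModC k) ≠ Vd k d (tw u (jqModC k)) := by
  intro h
  have h1 := congrArg (fun f => HahnSeries.coeff f (-(d : ℤ))) h
  simp only [coeff_Vd_tw_J _ hd] at h1
  rw [Vd_coeff_of_not_dvd he] at h1
  · exact (Units.ne_zero _) h1.symm
  · rw [Int.dvd_neg, Int.natCast_dvd_natCast]
    exact hde

end Field

end Fermat.Agent.IgusaLib.Tower
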