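import Mathlib
import Fermat.Agent.IgusaLib.TowerBasic
import Fermat.Agent.GenusLib.CosetCount

/-!
# S28, tower step: `ψ(N) ≤ [k(j(q^d) : d ∣ N) : k(j)]`

Field theory inside `k((q))` for a field `k` carrying `PrimeData k p` for the primes `p ∣ N`:
the modular equation `Φ_p` gives the orbit of `j(q^(pd))` under the twist `q ↦ ζ q`, and an
induction over the prime factors of `N` bounds the degree of the tower from below.
Main results: `psi_le_relfinrank`, `isIntegral_qExpand_J`, `relfinrank_ne_zero`,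
`exists_linearIndependent`.
-/

set_option autoImplicit false

noncomputable section

namespace Fermat.Agent.IgusaLib.Tower

open Polynomial ModularCurve IntermediateField

section Generic

variable {F L : Type*} [Field F] [Field L] [Algebra F L]

/-- `[A(x) : A] = deg (minpoly A x)` in terms of `relfinrank`. -/
theorem relfinrank_sup_adjoin_simple (A : IntermediateField F L) {x : L} (hx : IsIntegral A x) :
    relfinrank A (A ⊔ adjoin F {x}) = (minpoly A x).natDegree := by
  have h : A ≤ A ⊔ adjoin F {x} := le_sup_left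
  rw [relfinrank_eq_finrank_of_le h]
  have h2 : extendScalars h = adjoin A {x} := by
    apply restrictScalars_injective F
    rw [extendScalars_restrictScalars, restrictScalars_adjoin_eq_sup]
  rw [h2, IntermediateField.adjoin.finrank hx]

theorem natDegree_minpoly_le_relfinrank {A B : IntermediateField F L} (hAB : A ≤ B)
    (h0 : relfinrank A B ≠ 0) {x : L} (hx : x ∈ B) (hint : IsIntegral A x) :
    (minpoly A x).natDegree ≤ relfinrank A B := by
  have h1 : A ≤ A ⊔ adjoin F {x} := le_sup_left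
  have h2 : A ⊔ adjoin F {x} ≤ B := sup_le hAB (by
    rw [adjoin_le_iff]
    intro y hy
    rw [Set.mem_singleton_iff] at hy
    subst hy
    exact hx)
  have h3 := relfinrank_mul_relfinrank h1 h2
  rw [relfinrank_sup_adjoin_simple A hint] at h3
  exact Nat.le_of_dvd (Nat.pos_of_ne_zero h0) (Dvd.intro _ h3)

theorem isIntegral_of_isIntegral_extend {A E : IntermediateField F L} (h : A ≤ E)
    (halg : ∀ e ∈ E, IsIntegral A e) {x : L} (hx : IsIntegral E x) : IsIntegral A x := by
  have : Algebra.IsIntegral A (extendScalars h) := by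
    refine ⟨fun e => ?_⟩
    have h1 := halg (e : L) e.2
    exact (isIntegral_algebraMap_iff (algebraMap (extendScalars h) L).injective).mp h1
  have hx' : IsIntegral (extendScalars h) x := hx
  exact isIntegral_trans (R := A) (A := extendScalars h) x hx'

theorem isIntegral_of_mem_sup_adjoin {A : IntermediateField F L} {y : L} (hy : IsIntegral A y) :
    ∀ e ∈ A ⊔ adjoin F {y}, IsIntegral A e := by
  intro e he
  rw [← restrictScalars_adjoin_eq_sup] at he
  have he' : e ∈ adjoin A {y} := he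
  have : Algebra.IsAlgebraic A (adjoin A {y}) := isAlgebraic_adjoin_simple hy
  have h1 : IsIntegral A (⟨e, he'⟩ : adjoin A {y}) :=
    (Algebra.IsAlgebraic.isAlgebraic _).isIntegral
  exact (isIntegral_algebraMap_iff (algebraMap (adjoin A {y}) L).injective
    (x := (⟨e, he'⟩ : adjoin A {y}))).mpr h1

end Generic

section Poly

variable {k : Type*} [Field k]

theorem Vd_comp_ev (d : ℕ) (x : LaurentSeries k) : (Vd k d).comp (ev x) = ev (Vd k d x) := by
  apply Polynomial.ringHom_ext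
  · intro a
    simp only [RingHom.comp_apply, ev, AlgHom.toRingHom_eq_coe, RingHom.coe_coe, aeval_C]
    exact Vd_algebraMap d a
  · simp only [RingHom.comp_apply, ev, AlgHom.toRingHom_eq_coe, RingHom.coe_coe, aeval_X]

/-- `Φ_p(X, j(q^d))`. -/
def G {p : ℕ} (P : PrimeData k p) (d : ℕ) : Polynomial (LaurentSeries k) :=
  P.Φ.map (ev (Vd k d (jqModC k)))

theorem G_map_Vd {p : ℕ} (P : PrimeData k p) {d e : ℕ} (hd : d ≠ 0) (he : e ≠ 0) :
    (G P e).map (Vd k d) = G P (d * e) := by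
  rw [G, G, Polynomial.map_map, Vd_comp_ev, Vd_Vd hd he]

theorem G_fact {p : ℕ} (P : PrimeData k p) (hp : p ≠ 0) {d : ℕ} (hd : d ≠ 0) :
    G P (d * p) = (X - C (Vd k (d * (p * p)) (jqModC k))) *
      ∏ b ∈ Finset.range p, (X - C (Vd k d (tw (P.ζ ^ b) (jqModC k)))) := by
  rw [← G_map_Vd P hd hp, G, P.hΦ, Polynomial.map_mul, Polynomial.map_sub, Polynomial.map_X,
    Polynomial.map_C, Polynomial.map_prod, Vd_Vd hd (Nat.mul_ne_zero hp hp)]
  congr 1
  refine Finset.prod_congr rfl fun b _ => ?_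
  rw [Polynomial.map_sub, Polynomial.map_X, Polynomial.map_C]

theorem G_mul_monic {p : ℕ} (P : PrimeData k p) (hp : p ≠ 0) {d : ℕ} (hd : d ≠ 0) :
    (G P (d * p)).Monic := by
  rw [G_fact P hp hd]
  exact (monic_X_sub_C _).mul (monic_prod_of_monic _ _ fun b _ => monic_X_sub_C _)

theorem G_mul_natDegree {p : ℕ} (P : PrimeData k p) (hp : p ≠ 0) {d : ℕ} (hd : d ≠ 0) :
    (G P (d * p)).natDegree = p + 1 := by
  rw [G_fact P hp hd, (monic_X_sub_C _).natDegree_mul
    (monic_prod_of_monic _ _ fun b _ => monic_X_sub_C _), natDegree_X_sub_C,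
    natDegree_prod_of_monic _ _ (fun b _ => monic_X_sub_C _)]
  simp [add_comm]

theorem G_monic {p : ℕ} (P : PrimeData k p) (hp : p ≠ 0) {d : ℕ} (hd : d ≠ 0) :
    (G P d).Monic := by
  apply Polynomial.monic_of_injective (Vd_injective hp)
  rw [G_map_Vd P hp hd, mul_comm]
  exact G_mul_monic P hp hd

theorem G_natDegree {p : ℕ} (P : PrimeData k p) (hp : p ≠ 0) {d : ℕ} (hd : d ≠ 0) :
    (G P d).natDegree = p + 1 := by
  rw [← natDegree_map_eq_of_injective (Vd_injective hp), G_map_Vd P hp hd, mul_comm,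
    G_mul_natDegree P hp hd]

theorem G_ne_zero {p : ℕ} (P : PrimeData k p) (hp : p ≠ 0) {d : ℕ} (hd : d ≠ 0) :
    G P d ≠ 0 := (G_monic P hp hd).ne_zero

/-- `Φ_p(j(q^(dp)), j(q^d)) = 0`. -/
theorem G_eval_Vd {p : ℕ} (P : PrimeData k p) (hp : p ≠ 0) {d : ℕ} (hd : d ≠ 0) :
    (G P d).eval (Vd k (d * p) (jqModC k)) = 0 := by
  apply Vd_injective hp
  rw [map_zero, ← Polynomial.eval_map_apply, G_map_Vd P hp hd,
    Vd_Vd hp (Nat.mul_ne_zero hd hp), mul_comm p d, G_fact P hp hd]
  have h : p * (d * p) = d * (p * p) := by ring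
  rw [h, eval_mul, eval_sub, eval_X, eval_C, sub_self, zero_mul]

/-- `Φ_p(j(u q^d), j(q^(dp))) = 0` for `u = ζ^b`. -/
theorem G_mul_eval_tw {p : ℕ} (P : PrimeData k p) (hp : p ≠ 0) {d : ℕ} (hd : d ≠ 0) (b : ℕ)
    (hb : b < p) : (G P (d * p)).eval (Vd k d (tw (P.ζ ^ b) (jqModC k))) = 0 := by
  rw [G_fact P hp hd, eval_mul, eval_prod]
  have : ∏ j ∈ Finset.range p, eval (Vd k d (tw (P.ζ ^ b) (jqModC k)))
      (X - C (Vd k d (tw (P.ζ ^ j) (jqModC k)))) = 0 :=
    Finset.prod_eq_zero (Finset.mem_range.mpr hb) (by simp)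
  rw [this, mul_zero]

/-- A polynomial fixed by a twist has its roots permuted by the twist. -/
theorem isRoot_tw_pow {f : Polynomial (LaurentSeries k)} (u : kˣ) (hf : f.map (tw u) = f)
    {r : LaurentSeries k} (hr : f.IsRoot r) (n : ℕ) : f.IsRoot (tw (u ^ n) r) := by
  induction n with
  | zero => rwa [pow_zero, tw_one]
  | succ n ih =>
    rw [pow_succ', tw_mul]
    have h := Polynomial.eval_map_apply (p := f) (tw u) (tw (u ^ n) r)
    rw [hf] at h
    rw [IsRoot.def, h, ih.eq_zero, map_zero]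

/-- Counting the roots `j(ζ^n u₀ q^d)` of a `ζ`-invariant polynomial. -/
theorem le_natDegree_of_isRoot {p : ℕ} (hp : p.Prime) {ζ : kˣ} (hζ : IsPrimitiveRoot ζ p)
    {f : Polynomial (LaurentSeries k)} (hf0 : f ≠ 0) (hf : f.map (tw ζ) = f) {d : ℕ}
    (hd : d ≠ 0) (hpd : ¬ p ∣ d) (u₀ : kˣ) (hr : f.IsRoot (Vd k d (tw u₀ (jqModC k)))) :
    p ≤ f.natDegree ∧ ∀ e : ℕ, e ≠ 0 → ¬ e ∣ d → f.IsRoot (Vd k e (jqModC k)) →
      p + 1 ≤ f.natDegree := by
  classical
  have hroot : ∀ n : ℕ, f.IsRoot (Vd k d (tw ((ζ ^ d) ^ n * u₀) (jqModC k))) := by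
    intro n
    have h := isRoot_tw_pow ζ hf hr n
    rw [tw_Vd _ hd, ← tw_mul, ← pow_mul, mul_comm n d, pow_mul] at h
    exact h
  have hζd : IsPrimitiveRoot (ζ ^ d) p :=
    hζ.pow_of_coprime d ((Nat.Prime.coprime_iff_not_dvd hp).mpr hpd).symm
  let r : ℕ → LaurentSeries k := fun n => Vd k d (tw ((ζ ^ d) ^ n * u₀) (jqModC k))
  have hinj : Set.InjOn r (Finset.range p : Set ℕ) := by
    intro n hn n' hn' h
    have h1 := Vd_tw_J_injective hd h
    exact hζd.pow_inj (Finset.mem_coe.mp hn |> Finset.mem_range.mp)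
      (Finset.mem_coe.mp hn' |> Finset.mem_range.mp) (mul_right_cancel h1)
  have hcard : ((Finset.range p).image r).card = p := by
    rw [Finset.card_image_of_injOn hinj, Finset.card_range]
  constructor
  · have hsub : ((Finset.range p).image r).val ⊆ f.roots := by
      intro x hx
      rw [Finset.mem_val, Finset.mem_image] at hx
      obtain ⟨n, _, rfl⟩ := hx
      exact (mem_roots hf0).mpr (hroot n)
    have := card_le_degree_of_subset_roots hsub
    rwa [hcard] at this
  · intro e he hed hre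
    have hnot : Vd k e (jqModC k) ∉ (Finset.range p).image r := by
      intro hmem
      rw [Finset.mem_image] at hmem
      obtain ⟨n, _, hn⟩ := hmem
      exact Vd_J_ne_Vd_tw_J hd he hed _ hn.symm
    have hsub : (insert (Vd k e (jqModC k)) ((Finset.range p).image r)).val ⊆ f.roots := by
      intro x hx
      rw [Finset.mem_val, Finset.mem_insert, Finset.mem_image] at hx
      rcases hx with rfl | ⟨n, _, rfl⟩
      · exact (mem_roots hf0).mpr hre
      · exact (mem_roots hf0).mpr (hroot n)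
    have := card_le_degree_of_subset_roots hsub
    rwa [Finset.card_insert_of_notMem hnot, hcard] at this

/-- A divisor of degree `≥ 2` of `(X - r₀) ∏ (X - r b)` has one of the `r b` as a root. -/
theorem exists_isRoot_of_dvd {K : Type*} [Field K] {f : Polynomial K} {r₀ : K} {ι : Type*}
    {s : Finset ι} {r : ι → K} (hdvd : f ∣ (X - C r₀) * ∏ b ∈ s, (X - C (r b)))
    (hdeg : 2 ≤ f.natDegree) : ∃ b ∈ s, f.IsRoot (r b) := by
  by_contra hcon
  push Not at hcon
  have hcop : IsCoprime f (∏ b ∈ s, (X - C (r b))) := by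
    refine IsCoprime.prod_right fun b hb => ?_
    have h1 : ¬ (X - C (r b)) ∣ f := fun h => hcon b hb (dvd_iff_isRoot.mp h)
    exact ((irreducible_X_sub_C (r b)).coprime_iff_not_dvd.mpr h1).symm
  have h2 : f ∣ X - C r₀ := hcop.dvd_of_dvd_mul_right hdvd
  have h3 := natDegree_le_of_dvd h2 (X_sub_C_ne_zero r₀)
  rw [natDegree_X_sub_C] at h3
  omega

end Poly

section Orbit

variable {k : Type*} [Field k]

theorem algebraMap_comp_aeval (E : IntermediateField k (LaurentSeries k)) {y : LaurentSeries k}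
    (hy : y ∈ E) :
    (algebraMap E (LaurentSeries k)).comp
      (aeval (⟨y, hy⟩ : E) : Polynomial k →ₐ[k] E).toRingHom = ev y := by
  apply Polynomial.ringHom_ext
  · intro a
    simp only [RingHom.comp_apply, ev, AlgHom.toRingHom_eq_coe, RingHom.coe_coe, aeval_C]
    rfl
  · simp only [RingHom.comp_apply, ev, AlgHom.toRingHom_eq_coe, RingHom.coe_coe, aeval_X]
    rfl

/-- A root of `Φ_p(X, j(q^d))` is algebraic over any field containing `j(q^d)`. -/
theorem isIntegral_of_root {p : ℕ} (P : PrimeData k p)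
    (E : IntermediateField k (LaurentSeries k)) {d : ℕ} (hy : Vd k d (jqModC k) ∈ E)
    (hne : G P d ≠ 0) {x : LaurentSeries k} (hx : (G P d).eval x = 0) :
    IsIntegral E x ∧ (minpoly E x).map (algebraMap E (LaurentSeries k)) ∣ G P d := by
  set g : Polynomial E :=
    P.Φ.map (aeval (⟨Vd k d (jqModC k), hy⟩ : E) : Polynomial k →ₐ[k] E).toRingHom with hg
  have hgmap : g.map (algebraMap E (LaurentSeries k)) = G P d := by
    rw [hg, Polynomial.map_map, algebraMap_comp_aeval, G]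
  have hg0 : g ≠ 0 := by
    intro h
    rw [h, Polynomial.map_zero] at hgmap
    exact hne hgmap.symm
  have hgx : aeval x g = 0 := by
    rw [← eval_map_algebraMap, hgmap, hx]
  refine ⟨IsAlgebraic.isIntegral ⟨g, hg0, hgx⟩, ?_⟩
  rw [← hgmap]
  exact Polynomial.map_dvd _ (minpoly.dvd E x hgx)

/-- (ORBIT) If `p ∤ d`, `j(q^d) ∈ E` and `j(q^(dp)) ∉ E`, then `j(q^(dp))` has degree `p + 1`
over `E`. -/
theorem orbit {p : ℕ} (hp : p.Prime) (P : PrimeData k p)
    (E : IntermediateField k (LaurentSeries k)) {d : ℕ} (hd : d ≠ 0) (hpd : ¬ p ∣ d)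
    (hy : Vd k d (jqModC k) ∈ E) (hx : Vd k (d * p) (jqModC k) ∉ E) :
    IsIntegral E (Vd k (d * p) (jqModC k)) ∧
      p + 1 ≤ (minpoly E (Vd k (d * p) (jqModC k))).natDegree := by
  have hp0 : p ≠ 0 := hp.ne_zero
  obtain ⟨hint, hdvd⟩ := isIntegral_of_root P E hy (G_ne_zero P hp0 hd) (G_eval_Vd P hp0 hd)
  refine ⟨hint, ?_⟩
  set x := Vd k (d * p) (jqModC k) with hxdef
  set m := minpoly E x with hm
  set m'' := (m.map (algebraMap E (LaurentSeries k))).map (Vd k p) with hm''
  have hdeg : m''.natDegree = m.natDegree := by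
    rw [hm'', natDegree_map_eq_of_injective (Vd_injective hp0),
      natDegree_map_eq_of_injective (algebraMap E (LaurentSeries k)).injective]
  have h2 : 2 ≤ m.natDegree := by
    rw [hm, minpoly.two_le_natDegree_iff hint]
    rintro ⟨e, he⟩
    exact hx (he ▸ e.2)
  have hm0 : m'' ≠ 0 := by
    intro h
    rw [h, natDegree_zero] at hdeg
    omega
  have hdvd'' : m'' ∣ G P (d * p) := by
    have := Polynomial.map_dvd (Vd k p) hdvd
    rw [G_map_Vd P hp0 hd, mul_comm] at this
    exact this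
  have hinv : m''.map (tw P.ζ) = m'' := by
    rw [hm'', Polynomial.map_map]
    congr 1
    exact RingHom.ext fun f => tw_Vd_of_pow_eq_one P.ζ hp0 P.hζ.pow_eq_one f
  have hroot0 : m''.IsRoot (Vd k (p * (d * p)) (jqModC k)) := by
    rw [IsRoot.def, ← Vd_Vd hp0 (Nat.mul_ne_zero hd hp0), hm'', Polynomial.eval_map_apply,
      eval_map_algebraMap, ← hxdef, hm, minpoly.aeval, map_zero]
  rw [G_fact P hp0 hd] at hdvd''
  obtain ⟨b, -, hrb⟩ := exists_isRoot_of_dvd hdvd'' (by omega)
  have hnd : ¬ p * (d * p) ∣ d := by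
    intro hdiv
    have h1 := Nat.le_of_dvd (Nat.pos_of_ne_zero hd) hdiv
    have h2 := hp.two_le
    have h3 : 0 < d := Nat.pos_of_ne_zero hd
    have h4 : 2 * (d * 2) ≤ p * (d * p) := Nat.mul_le_mul h2 (Nat.mul_le_mul_left d h2)
    omega
  have := (le_natDegree_of_isRoot hp P.hζ hm0 hinv hd hpd (P.ζ ^ b) hrb).2 (p * (d * p))
    (Nat.mul_ne_zero hp0 (Nat.mul_ne_zero hd hp0)) hnd hroot0
  omega

/-- (INV-ORBIT) Over a field `E ∋ j(q^p)` fixed by the twist, `j(q)` has degree `p` or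
`p + 1`. -/
theorem inv_orbit {p : ℕ} (hp : p.Prime) (P : PrimeData k p)
    (E : IntermediateField k (LaurentSeries k)) (hy : Vd k p (jqModC k) ∈ E) :
    IsIntegral E (jqModC k) ∧ (minpoly E (jqModC k)).natDegree ≤ p + 1 ∧
      ((∀ a ∈ E, tw P.ζ a = a) → p ≤ (minpoly E (jqModC k)).natDegree) := by
  have hp0 := hp.ne_zero
  have hroot : (G P p).eval (jqModC k) = 0 := by
    have := G_mul_eval_tw P hp0 one_ne_zero 0 hp.pos
    rwa [one_mul, pow_zero, tw_one, Vd_one] at this
  obtain ⟨hint, hdvd⟩ := isIntegral_of_root P E hy (G_ne_zero P hp0 hp0) hroot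
  refine ⟨hint, ?_, fun hfix => ?_⟩
  · have := natDegree_le_of_dvd hdvd (G_ne_zero P hp0 hp0)
    rwa [natDegree_map_eq_of_injective (algebraMap E (LaurentSeries k)).injective,
      G_natDegree P hp0 hp0] at this
  · set m' := (minpoly E (jqModC k)).map (algebraMap E (LaurentSeries k)) with hm'
    have hinv : m'.map (tw P.ζ) = m' := by
      rw [hm', Polynomial.map_map]
      congr 1
      exact RingHom.ext fun a => hfix a a.2
    have hm0 : m' ≠ 0 :=
      (Polynomial.map_ne_zero_iff (algebraMap E (LaurentSeries k)).injective).mpr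
        (minpoly.ne_zero hint)
    have hr : m'.IsRoot (Vd k 1 (tw 1 (jqModC k))) := by
      rw [tw_one, Vd_one, IsRoot.def, hm', eval_map_algebraMap, minpoly.aeval]
    have := (le_natDegree_of_isRoot hp P.hζ hm0 hinv one_ne_zero (Nat.Prime.not_dvd_one hp) 1
      hr).1
    rwa [hm', natDegree_map_eq_of_injective (algebraMap E (LaurentSeries k)).injective] at this

end Orbit

section TowerDefs

variable (k : Type*) [Field k]

/-- `k(j)`. -/
abbrev K0 : IntermediateField k (LaurentSeries k) := adjoin k {jqModC k}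

/-- `k(j(q^d) : d ∣ M)`. -/
def LL (M : ℕ) : IntermediateField k (LaurentSeries k) :=
  adjoin k ((fun d => Vd k d (jqModC k)) '' (M.divisors : Set ℕ))

variable {k}

theorem Vd_J_mem_LL {M d : ℕ} (hM : M ≠ 0) (hd : d ∣ M) : Vd k d (jqModC k) ∈ LL k M :=
  subset_adjoin k _ ⟨d, Finset.mem_coe.mpr (Nat.mem_divisors.mpr ⟨hd, hM⟩), rfl⟩

theorem LL_le {M : ℕ} {E : IntermediateField k (LaurentSeries k)}
    (h : ∀ d, d ∣ M → Vd k d (jqModC k) ∈ E) : LL k M ≤ E := by
  rw [LL, adjoin_le_iff]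
  rintro x ⟨d, hd, rfl⟩
  exact h d (Nat.mem_divisors.mp (Finset.mem_coe.mp hd)).1

theorem J_mem_LL {M : ℕ} (hM : M ≠ 0) : jqModC k ∈ LL k M := by
  have := Vd_J_mem_LL (k := k) hM (one_dvd M)
  rwa [Vd_one] at this

theorem J_mem_K0 : jqModC k ∈ K0 k := subset_adjoin k _ rfl

theorem K0_le {E : IntermediateField k (LaurentSeries k)} (h : jqModC k ∈ E) : K0 k ≤ E := by
  rw [adjoin_le_iff]
  intro x hx
  rw [Set.mem_singleton_iff] at hx
  subst hx
  exact h

theorem K0_le_LL {M : ℕ} (hM : M ≠ 0) : K0 k ≤ LL k M := K0_le (J_mem_LL hM)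

theorem LL_one : LL k 1 = K0 k := by
  apply le_antisymm
  · refine LL_le fun d hd => ?_
    rw [Nat.dvd_one.mp hd, Vd_one]
    exact J_mem_K0
  · exact K0_le_LL one_ne_zero

theorem LL_mono {M M' : ℕ} (hM : M ≠ 0) (h : M' ∣ M) : LL k M' ≤ LL k M :=
  LL_le fun _ hd => Vd_J_mem_LL hM (hd.trans h)

theorem LL_eq_full (N : ℕ) [NeZero N] : LL k N = modularFunctionFieldFullC k N := by
  unfold LL modularFunctionFieldFullC
  congr 1
  ext x
  constructor
  · rintro ⟨d, hd, rfl⟩
    have hd' := Nat.mem_divisors.mp (Finset.mem_coe.mp hd)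
    have hd0 : d ≠ 0 := ne_zero_of_dvd_ne_zero hd'.2 hd'.1
    exact ⟨d, ⟨hd0⟩, hd'.1, Vd_apply hd0 _⟩
  · rintro ⟨d, hne, hd, rfl⟩
    exact ⟨d, Finset.mem_coe.mpr (Nat.mem_divisors.mpr ⟨hd, NeZero.ne N⟩),
      Vd_apply (NeZero.ne d) _⟩

/-- (ALGEBRAIC) `j(q^d)` is algebraic over `k(j)`. -/
theorem isIntegral_Vd_J : ∀ d : ℕ, d ≠ 0 →
    (∀ p : ℕ, p.Prime → p ∣ d → Nonempty (PrimeData k p)) →
    IsIntegral (K0 k) (Vd k d (jqModC k)) := by
  intro d
  induction d using Nat.strong_induction_on with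
  | _ d ih =>
    intro hd h
    by_cases h1 : d = 1
    · subst h1
      rw [Vd_one]
      exact isIntegral_algebraMap (x := (⟨jqModC k, J_mem_K0⟩ : K0 k))
    · have hp : d.minFac.Prime := Nat.minFac_prime h1
      have hpd : d.minFac ∣ d := Nat.minFac_dvd d
      obtain ⟨P⟩ := h d.minFac hp hpd
      obtain ⟨d', hd'⟩ := hpd
      have hd'0 : d' ≠ 0 := by
        rintro rfl
        rw [mul_zero] at hd'
        exact hd hd'
      have hlt : d' < d := by
        conv_rhs => rw [hd']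
        exact lt_mul_of_one_lt_left (Nat.pos_of_ne_zero hd'0) hp.one_lt
      have hy := ih d' hlt hd'0 (fun q hq hqd => h q hq (hd' ▸ Dvd.dvd.mul_left hqd _))
      have hyE : Vd k d' (jqModC k) ∈ K0 k ⊔ adjoin k {Vd k d' (jqModC k)} :=
        (le_sup_right : adjoin k {Vd k d' (jqModC k)} ≤ _) (mem_adjoin_simple_self k _)
      have hx := (isIntegral_of_root P (K0 k ⊔ adjoin k {Vd k d' (jqModC k)}) hyE
        (G_ne_zero P hp.ne_zero hd'0) (G_eval_Vd P hp.ne_zero hd'0)).1
      have := isIntegral_of_isIntegral_extend le_sup_left (isIntegral_of_mem_sup_adjoin hy) hx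
      rwa [mul_comm, ← hd'] at this

theorem relfinrank_K0_LL_ne_zero {M : ℕ} (hM : M ≠ 0)
    (h : ∀ p : ℕ, p.Prime → p ∣ M → Nonempty (PrimeData k p)) :
    relfinrank (K0 k) (LL k M) ≠ 0 := by
  have hle : K0 k ≤ LL k M := K0_le_LL hM
  rw [relfinrank_eq_finrank_of_le hle]
  have h2 : extendScalars hle =
      adjoin (K0 k) ((fun d => Vd k d (jqModC k)) '' (M.divisors : Set ℕ)) :=
    extendScalars_adjoin hle
  rw [h2]
  have hfin : Finite ((fun d => Vd k d (jqModC k)) '' (M.divisors : Set ℕ)) :=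
    (Set.Finite.image _ (Finset.finite_toSet _)).to_subtype
  have : FiniteDimensional (K0 k)
      (adjoin (K0 k) ((fun d => Vd k d (jqModC k)) '' (M.divisors : Set ℕ))) := by
    refine finiteDimensional_adjoin ?_
    rintro x ⟨d, hd, rfl⟩
    have hd' := Nat.mem_divisors.mp (Finset.mem_coe.mp hd)
    exact isIntegral_Vd_J d (ne_zero_of_dvd_ne_zero hd'.2 hd'.1)
      (fun p hp hpd => h p hp (hpd.trans hd'.1))
  exact Module.finrank_pos.ne'

end TowerDefs

section Main

variable {k : Type*} [Field k]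

theorem dedekindPsi_prime_mul_of_dvd {p M : ℕ} (hp : p.Prime) (hM : M ≠ 0) (h : p ∣ M) :
    dedekindPsi (p * M) = p * dedekindPsi M := by
  obtain ⟨e, m, hm, rfl⟩ := Nat.exists_eq_pow_mul_and_not_dvd hM p hp.ne_one
  have he : e ≠ 0 := by
    rintro rfl
    rw [pow_zero, one_mul] at h
    exact hm h
  have hcop : ∀ a, Nat.Coprime (p ^ a) m := fun a =>
    Nat.Coprime.pow_left a ((Nat.Prime.coprime_iff_not_dvd hp).mpr hm)
  obtain ⟨e', rfl⟩ := Nat.exists_eq_succ_of_ne_zero he
  rw [← mul_assoc, ← pow_succ', Fermat.Agent.GenusLib.Cosets.dedekindPsi_mul (hcop _),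
    Fermat.Agent.GenusLib.Cosets.dedekindPsi_mul (hcop _),
    Fermat.Agent.GenusLib.Cosets.dedekindPsi_prime_pow hp (Nat.succ_pos _),
    Fermat.Agent.GenusLib.Cosets.dedekindPsi_prime_pow hp (Nat.succ_pos _), ← mul_assoc]
  congr 1
  simp only [Nat.succ_eq_add_one, Nat.add_sub_cancel]
  ring

theorem dedekindPsi_prime_mul_of_not_dvd {p M : ℕ} (hp : p.Prime) (h : ¬ p ∣ M) :
    dedekindPsi (p * M) = (p + 1) * dedekindPsi M := by
  rw [Fermat.Agent.GenusLib.Cosets.dedekindPsi_mul ((Nat.Prime.coprime_iff_not_dvd hp).mpr h)]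
  congr 1
  have := Fermat.Agent.GenusLib.Cosets.dedekindPsi_prime_pow hp one_pos
  simpa using this

/-- One prime step of the tower. -/
theorem step {p M' : ℕ} (hp : p.Prime) (hM' : M' ≠ 0) (P : PrimeData k p)
    (h : ∀ q : ℕ, q.Prime → q ∣ p * M' → Nonempty (PrimeData k q))
    (hF1 : Vd k p (jqModC k) ∉ K0 k) :
    relfinrank (K0 k) (LL k M') * p ≤ relfinrank (K0 k) (LL k (p * M')) ∧
    (¬ p ∣ M' →
      relfinrank (K0 k) (LL k M') * (p + 1) ≤ relfinrank (K0 k) (LL k (p * M'))) := by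
  have hp0 : p ≠ 0 := hp.ne_zero
  have hM : p * M' ≠ 0 := Nat.mul_ne_zero hp0 hM'
  have hfinM : relfinrank (K0 k) (LL k (p * M')) ≠ 0 := relfinrank_K0_LL_ne_zero hM h
  have hfinM' : relfinrank (K0 k) (LL k M') ≠ 0 :=
    relfinrank_K0_LL_ne_zero hM' (fun q hq hqd => h q hq (Dvd.dvd.mul_left hqd p))
  have hLL : LL k M' ≤ LL k (p * M') := LL_mono hM (dvd_mul_left M' p)
  -- the twisted base field `k(j(q^p))`
  have hK0p : (K0 k).map (VdA k p) = adjoin k {Vd k p (jqModC k)} := by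
    rw [adjoin_map, Set.image_singleton, VdA_apply]
  -- the image of the lower field
  have hA_le : (LL k M').map (VdA k p) ≤ LL k (p * M') := by
    rw [LL, adjoin_map, adjoin_le_iff]
    rintro x ⟨y, ⟨d, hd, rfl⟩, rfl⟩
    have hd' := Nat.mem_divisors.mp (Finset.mem_coe.mp hd)
    have hd0 : d ≠ 0 := ne_zero_of_dvd_ne_zero hd'.2 hd'.1
    show VdA k p (Vd k d (jqModC k)) ∈ LL k (p * M')
    rw [VdA_apply, Vd_Vd hp0 hd0]
    exact Vd_J_mem_LL hM (mul_dvd_mul_left p hd'.1)
  have hK0p_le_A : adjoin k {Vd k p (jqModC k)} ≤ (LL k M').map (VdA k p) := by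
    rw [← hK0p]
    exact IntermediateField.map_mono _ (K0_le_LL hM')
  have hVp_mem : Vd k p (jqModC k) ∈ LL k (p * M') := Vd_J_mem_LL hM (dvd_mul_right p M')
  have hC_le : K0 k ⊔ adjoin k {Vd k p (jqModC k)} ≤ LL k (p * M') :=
    sup_le (K0_le_LL hM) (adjoin_simple_le_iff.mpr hVp_mem)
  -- (F2)
  have hF2 : IsIntegral (K0 k) (Vd k p (jqModC k)) ∧
      p + 1 ≤ (minpoly (K0 k) (Vd k p (jqModC k))).natDegree := by
    have := orbit hp P (K0 k) one_ne_zero (Nat.Prime.not_dvd_one hp)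
      (by rw [Vd_one]; exact J_mem_K0) (by rw [one_mul]; exact hF1)
    rwa [one_mul] at this
  have r1 : relfinrank (K0 k) (K0 k ⊔ adjoin k {Vd k p (jqModC k)}) =
      (minpoly (K0 k) (Vd k p (jqModC k))).natDegree :=
    relfinrank_sup_adjoin_simple (K0 k) hF2.1
  -- (F3), upper bound only
  obtain ⟨hint3, hdeg3, -⟩ := inv_orbit hp P (adjoin k {Vd k p (jqModC k)})
    (mem_adjoin_simple_self k _)
  have r2 : relfinrank (adjoin k {Vd k p (jqModC k)})
      (K0 k ⊔ adjoin k {Vd k p (jqModC k)}) =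
      (minpoly (adjoin k {Vd k p (jqModC k)}) (jqModC k)).natDegree := by
    have := relfinrank_sup_adjoin_simple (adjoin k {Vd k p (jqModC k)}) hint3
    rwa [sup_comm] at this
  have m1 := relfinrank_mul_relfinrank
    (le_sup_left : K0 k ≤ K0 k ⊔ adjoin k {Vd k p (jqModC k)}) hC_le
  have m2 := relfinrank_mul_relfinrank
    (le_sup_right : adjoin k {Vd k p (jqModC k)} ≤ K0 k ⊔ adjoin k {Vd k p (jqModC k)}) hC_le
  have hCne : relfinrank (K0 k ⊔ adjoin k {Vd k p (jqModC k)}) (LL k (p * M')) ≠ 0 := by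
    intro h0
    rw [h0, mul_zero] at m1
    exact hfinM m1.symm
  -- (T1)
  have T1 : relfinrank (adjoin k {Vd k p (jqModC k)}) (LL k (p * M')) ≤
      relfinrank (K0 k) (LL k (p * M')) := by
    rw [← m1, ← m2]
    refine Nat.mul_le_mul_right _ ?_
    rw [r1, r2]
    omega
  have hne_p : relfinrank (adjoin k {Vd k p (jqModC k)}) (LL k (p * M')) ≠ 0 := by
    rw [← m2]
    refine mul_ne_zero ?_ hCne
    rw [r2]
    exact (minpoly.natDegree_pos hint3).ne'
  have m3 := relfinrank_mul_relfinrank hK0p_le_A hA_le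
  have r3 : relfinrank (adjoin k {Vd k p (jqModC k)}) ((LL k M').map (VdA k p)) =
      relfinrank (K0 k) (LL k M') := by
    rw [← hK0p]
    exact relfinrank_map_map (K0 k) (LL k M') (VdA k p)
  have hneA : relfinrank ((LL k M').map (VdA k p)) (LL k (p * M')) ≠ 0 := by
    intro h0
    rw [h0, mul_zero] at m3
    exact hne_p m3.symm
  have hp_le : p ≤ relfinrank ((LL k M').map (VdA k p)) (LL k (p * M')) := by
    obtain ⟨hint4, -, hdeg4⟩ := inv_orbit hp P ((LL k M').map (VdA k p))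
      (hK0p_le_A (mem_adjoin_simple_self k _))
    have hfixA : ∀ a ∈ (LL k M').map (VdA k p), tw P.ζ a = a := by
      rintro a ⟨a', -, rfl⟩
      exact tw_Vd_of_pow_eq_one P.ζ hp0 P.hζ.pow_eq_one a'
    exact (hdeg4 hfixA).trans
      (natDegree_minpoly_le_relfinrank hA_le hneA (J_mem_LL hM) hint4)
  have first : relfinrank (K0 k) (LL k M') * p ≤ relfinrank (K0 k) (LL k (p * M')) := by
    calc relfinrank (K0 k) (LL k M') * p
        ≤ relfinrank (K0 k) (LL k M') *
            relfinrank ((LL k M').map (VdA k p)) (LL k (p * M')) :=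
          Nat.mul_le_mul_left _ hp_le
      _ = relfinrank (adjoin k {Vd k p (jqModC k)}) (LL k (p * M')) := by rw [← r3, m3]
      _ ≤ _ := T1
  refine ⟨first, fun hpM' => ?_⟩
  have hex : ∃ d, d ∣ M' ∧ Vd k (d * p) (jqModC k) ∉ LL k M' := by
    by_contra hcon
    push Not at hcon
    have hle : LL k (p * M') ≤ LL k M' := by
      refine LL_le fun e he => ?_
      by_cases hpe : p ∣ e
      · obtain ⟨d, rfl⟩ := hpe
        rw [mul_comm p d]
        exact hcon d (Nat.dvd_of_mul_dvd_mul_left hp.pos he)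
      · have hcop : Nat.Coprime e p := ((Nat.Prime.coprime_iff_not_dvd hp).mpr hpe).symm
        exact Vd_J_mem_LL hM' (hcop.dvd_of_dvd_mul_left he)
    have heq : LL k (p * M') = LL k M' := le_antisymm hle hLL
    rw [heq] at first
    have h2 := hp.two_le
    have h3 : relfinrank (K0 k) (LL k M') * 2 ≤ relfinrank (K0 k) (LL k M') * p :=
      Nat.mul_le_mul_left _ h2
    omega
  obtain ⟨d, hd, hx⟩ := hex
  have hd0 : d ≠ 0 := ne_zero_of_dvd_ne_zero hM' hd
  have hpd : ¬ p ∣ d := fun hpd => hpM' (hpd.trans hd)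
  obtain ⟨hint5, hdeg5⟩ := orbit hp P (LL k M') hd0 hpd (Vd_J_mem_LL hM' hd) hx
  have m4 := relfinrank_mul_relfinrank (K0_le_LL (k := k) hM') hLL
  have hne4 : relfinrank (LL k M') (LL k (p * M')) ≠ 0 := by
    intro h0
    rw [h0, mul_zero] at m4
    exact hfinM m4.symm
  have hxM : Vd k (d * p) (jqModC k) ∈ LL k (p * M') :=
    Vd_J_mem_LL hM (by rw [mul_comm d p]; exact mul_dvd_mul_left p hd)
  have := natDegree_minpoly_le_relfinrank hLL hne4 hxM hint5
  rw [← m4]
  exact Nat.mul_le_mul_left _ (hdeg5.trans this)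

/-- The tower bound `ψ(M) ≤ [k(j(q^d) : d ∣ M) : k(j)]`. -/
theorem psi_le_relfinrank_LL : ∀ M : ℕ, M ≠ 0 →
    (∀ p : ℕ, p.Prime → p ∣ M → Nonempty (PrimeData k p)) →
    (∀ p : ℕ, p.Prime → p ∣ M → Vd k p (jqModC k) ∉ K0 k) →
    dedekindPsi M ≤ relfinrank (K0 k) (LL k M) := by
  intro M
  induction M using Nat.strong_induction_on with
  | _ M ih =>
    intro hM h hF1
    by_cases h1 : M = 1
    · subst h1
      rw [LL_one, relfinrank_self, dedekindPsi_one]
    · obtain ⟨p, hp, M', rfl⟩ : ∃ p, p.Prime ∧ ∃ M', M = p * M' :=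
        ⟨M.minFac, Nat.minFac_prime h1, Nat.minFac_dvd M⟩
      have hM'0 : M' ≠ 0 := fun h0 => hM (by rw [h0, mul_zero])
      have hlt : M' < p * M' := lt_mul_of_one_lt_left (Nat.pos_of_ne_zero hM'0) hp.one_lt
      obtain ⟨P⟩ := h p hp (dvd_mul_right p M')
      have IH := ih M' hlt hM'0 (fun q hq hqd => h q hq (Dvd.dvd.mul_left hqd p))
        (fun q hq hqd => hF1 q hq (Dvd.dvd.mul_left hqd p))
      have hs := step hp hM'0 P h (hF1 p hp (dvd_mul_right p M'))
      by_cases hpM' : p ∣ M'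
      · rw [dedekindPsi_prime_mul_of_dvd hp hM'0 hpM', mul_comm]
        exact (Nat.mul_le_mul_right p IH).trans hs.1
      · rw [dedekindPsi_prime_mul_of_not_dvd hp hpM', mul_comm]
        exact (Nat.mul_le_mul_right (p + 1) IH).trans (hs.2 hpM')

end Main

/-! ### Interface -/

section Interface

variable (k : Type*) [Field k] (N : ℕ) [NeZero N]

/-- `ψ(N) ≤ [k(j(q^d) : d ∣ N) : k(j)]`. -/
theorem psi_le_relfinrank
    (h : ∀ p : ℕ, p.Prime → p ∣ N → Nonempty (PrimeData k p))
    (hF1 : ∀ p : ℕ, p.Prime → p ∣ N →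
      Vd k p (jqModC k) ∉ IntermediateField.adjoin k {jqModC k}) :
    dedekindPsi N ≤ IntermediateField.relfinrank (IntermediateField.adjoin k {jqModC k})
      (modularFunctionFieldFullC k N) := by
  rw [← LL_eq_full]
  exact psi_le_relfinrank_LL N (NeZero.ne N) h hF1

/-- (ALGEBRAIC) every `j(q^d)`, `d ∣ N`, is algebraic over `k(j)`. -/
theorem isIntegral_qExpand_J
    (h : ∀ p : ℕ, p.Prime → p ∣ N → Nonempty (PrimeData k p)) {d : ℕ} [NeZero d]
    (hd : d ∣ N) :
    IsIntegral ↥(IntermediateField.adjoin k {jqModC k}) (qExpand k d (jqModC k)) := by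
  rw [← Vd_eq k d]
  exact isIntegral_Vd_J d (NeZero.ne d) (fun p hp hpd => h p hp (hpd.trans hd))

/-- `k(j(q^d) : d ∣ N)` is finite over `k(j)`. -/
theorem relfinrank_ne_zero
    (h : ∀ p : ℕ, p.Prime → p ∣ N → Nonempty (PrimeData k p)) :
    IntermediateField.relfinrank (IntermediateField.adjoin k {jqModC k})
      (modularFunctionFieldFullC k N) ≠ 0 := by
  rw [← LL_eq_full]
  exact relfinrank_K0_LL_ne_zero (NeZero.ne N) h

theorem adjoin_J_le_full :
    IntermediateField.adjoin k {jqModC k} ≤ modularFunctionFieldFullC k N := by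
  rw [← LL_eq_full]
  exact K0_le_LL (NeZero.ne N)

/-- `ψ(N)` elements of `k(j(q^d) : d ∣ N)` linearly independent over `k(j)`. -/
theorem exists_linearIndependent
    (h : ∀ p : ℕ, p.Prime → p ∣ N → Nonempty (PrimeData k p))
    (hF1 : ∀ p : ℕ, p.Prime → p ∣ N →
      Vd k p (jqModC k) ∉ IntermediateField.adjoin k {jqModC k}) :
    ∃ b : Fin (dedekindPsi N) → LaurentSeries k,
      (∀ i, b i ∈ modularFunctionFieldFullC k N) ∧
      LinearIndependent ↥(IntermediateField.adjoin k {jqModC k}) b := by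
  have hle := adjoin_J_le_full k N
  have h1 := psi_le_relfinrank k N h hF1
  rw [relfinrank_eq_finrank_of_le hle] at h1
  obtain ⟨f, hf⟩ := exists_linearIndependent_of_le_finrank h1
  refine ⟨fun i => (f i : LaurentSeries k), fun i => (f i).2, ?_⟩
  exact hf.map' (extendScalars hle).val.toLinearMap
    (LinearMap.ker_eq_bot.mpr Subtype.val_injective)

end Interface

end Fermat.Agent.IgusaLib.Tower
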