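import Mathlib
import Fermat.Agent.IgusaLib.Tower
import Fermat.Agent.IgusaLib.FormalF1

/-!
# S28, tower step with `F1` discharged

The results of `Tower.lean` without the hypothesis `j(q^p) ∉ k(j)`, which is
`Fermat.Agent.IgusaLib.F1` of `FormalF1.lean`.
-/

set_option autoImplicit false

noncomputable section

namespace Fermat.Agent.IgusaLib.Tower

open ModularCurve

/-- `ψ(N) ≤ [k(j(q^d) : d ∣ N) : k(j)]`. -/
theorem psi_le_relfinrank' (k : Type*) [Field k] (N : ℕ) [NeZero N]
    (h : ∀ p : ℕ, p.Prime → p ∣ N → Nonempty (PrimeData k p)) :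
    dedekindPsi N ≤ IntermediateField.relfinrank (IntermediateField.adjoin k {jqModC k})
      (modularFunctionFieldFullC k N) :=
  psi_le_relfinrank k N h
    (fun p hp hpN => Fermat.Agent.IgusaLib.F1 hp.two_le (h p hp hpN).some)

/-- `ψ(N)` elements of `k(j(q^d) : d ∣ N)` linearly independent over `k(j)`. -/
theorem exists_linearIndependent' (k : Type*) [Field k] (N : ℕ) [NeZero N]
    (h : ∀ p : ℕ, p.Prime → p ∣ N → Nonempty (PrimeData k p)) :
    ∃ b : Fin (dedekindPsi N) → LaurentSeries k,
      (∀ i, b i ∈ modularFunctionFieldFullC k N) ∧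
      LinearIndependent ↥(IntermediateField.adjoin k {jqModC k}) b :=
  exists_linearIndependent k N h
    (fun p hp hpN => Fermat.Agent.IgusaLib.F1 hp.two_le (h p hp hpN).some)

end Fermat.Agent.IgusaLib.Tower
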