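import Mathlib
import Fermat.Agent.IgusaLib.DescentCore
import Fermat.Agent.IgusaLib.PrimeFinal
import Fermat.Agent.IgusaLib.TowerF1

/-!
# S28 (Igusa), leaf [DESCENT] = (IND)

For a prime `ℓ ∤ N` there are `ψ(N)` Laurent series with integer coefficients (monomials in the
`j(q^d)`, `d ∣ N`) whose images over `ℚ` lie in the function field `ℚ(j(q^d) : d ∣ N)` and whose
reductions mod `ℓ` are linearly independent over `𝔽_ℓ[J]`.

Inputs: the field `k` of characteristic `ℓ` with level data at all primes `p ≠ ℓ`
(`exists_field_primeData`), the tower inequality `ψ(N) ≤ [k(j(q^d) : d ∣ N) : k(J)]`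
(`Tower.psi_le_relfinrank'`), and the descent of `DescentCore.lean`.
-/

set_option autoImplicit false

noncomputable section

namespace Fermat.Agent.IgusaLib

open Polynomial IntermediateField ModularCurve

/-- **[DESCENT] = (IND).** -/
theorem ind_modl (N : ℕ) [NeZero N] (l : ℕ) [Fact l.Prime] (hlN : ¬ l ∣ N) :
    ∃ m : Fin (dedekindPsi N) → LaurentSeries ℤ,
      (∀ i, coeffMap (Int.castRingHom ℚ) (m i) ∈ modularFunctionFieldFull N) ∧
      ∀ P : Fin (dedekindPsi N) → Polynomial (ZMod l),
        ∑ i, aeval (jqModC (ZMod l)) (P i) * coeffMap (Int.castRingHom (ZMod l)) (m i) = 0 →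
          P = 0 := by
  obtain ⟨k, hk, hchar, hdata⟩ := exists_field_primeData l
  have h : ∀ p : ℕ, p.Prime → p ∣ N → Nonempty (PrimeData k p) := fun p hp hpN =>
    hdata p hp (by rintro rfl; exact hlN hpN)
  exact Descent.ind_modl_of_relfinrank N l k (dedekindPsi N) (Tower.psi_le_relfinrank' k N h)

end Fermat.Agent.IgusaLib
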