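import Mathlib

/-!
# S28 (Igusa): a generic finiteness step

A subring `B` of a field `L`, all of whose elements are `R`-linear combinations of finitely many
elements `m i ∈ B` (for a subring `R` of `L`), is integral over `R`.
-/

set_option autoImplicit false

noncomputable section

namespace Fermat.Agent.IgusaLib

/-- **[FIN], generic step**: elements of a subring `B` which is contained in the `R`-span of
finitely many of its elements are integral over `R`. -/
theorem isIntegral_of_span {L : Type*} [Field L] (R : Subring L) {n : ℕ} (m : Fin n → L)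
    (B : Subring L)
    (hB : ∀ x ∈ B, ∃ c : Fin n → L, (∀ i, c i ∈ R) ∧ x = ∑ i, c i * m i)
    (hm : ∀ i, m i ∈ B) (x : L) (hx : x ∈ B) : IsIntegral ↥R x := by
  classical
  let M : Submodule ↥R L := Submodule.span ↥R (Set.range m)
  have hspan : ∀ y ∈ B, y ∈ M := by
    intro y hy
    obtain ⟨c, hc, rfl⟩ := hB y hy
    refine Submodule.sum_mem _ fun i _ => ?_
    have : c i * m i = (⟨c i, hc i⟩ : ↥R) • m i := rfl
    rw [this]
    exact Submodule.smul_mem _ _ (Submodule.subset_span ⟨i, rfl⟩)
  have hM : M ≠ ⊥ := by
    intro h
    have h1 : (1 : L) ∈ M := hspan 1 B.one_mem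
    rw [h, Submodule.mem_bot] at h1
    exact one_ne_zero h1
  have hfg : M.FG := Submodule.fg_span (Set.finite_range m)
  refine isIntegral_of_smul_mem_submodule M hM hfg x ?_
  intro y hy
  induction hy using Submodule.span_induction with
  | mem z hz =>
    obtain ⟨i, rfl⟩ := hz
    exact hspan _ (B.mul_mem hx (hm i))
  | zero => rw [smul_zero]; exact M.zero_mem
  | add a b _ _ ha hb => rw [smul_add]; exact M.add_mem ha hb
  | smul r a _ ha =>
    rw [smul_comm]
    exact M.smul_mem r ha

end Fermat.Agent.IgusaLib
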