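import Mathlib
import Fermat.Agent.IgusaLib.Defs

/-!
# S28 (Igusa): the Gauss ring of Laurent series and its reduction map

`Zl l = ℤ_(l)`. Inside `LaurentSeries ℚ`:

* `Oint l` : the subring of quotients `a / b` of Laurent series with coefficients in `ℤ_(l)`, the
  denominator `b` being nonzero modulo `l`;
* `rho l : Oint l →+* LaurentSeries (ZMod l)` : the reduction map `a / b ↦ ā / b̄`;
* `rho_coeffMap` : on series with coefficients in `ℤ_(l)` it is the coefficientwise reduction;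
* `mem_Oint_of_mul` : a quotient of two elements of `Oint l` whose denominator has nonzero reduction
  lies in `Oint l`;
* `rho_eq_zero` : the kernel of `rho` is generated by `l`.
-/

set_option autoImplicit false
set_option linter.unusedSectionVars false

noncomputable section

namespace Fermat.Agent.IgusaLib

open ModularCurve

/-! ### Generic facts on `coeffMap` -/

theorem coeffMap_injective {R S : Type*} [CommRing R] [CommRing S] (f : R →+* S)
    (hf : Function.Injective f) : Function.Injective (coeffMap f) := by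
  intro x y h
  ext n
  apply hf
  have := congrArg (fun z => z.coeff n) h
  simpa using this

/-- A Laurent series all of whose coefficients lie in the range of `f` is in the range of
`coeffMap f`. -/
theorem exists_coeffMap_eq {R S : Type*} [CommRing R] [CommRing S] (f : R →+* S)
    (y : LaurentSeries S) (g : ℤ → R) (hg : ∀ n, f (g n) = y.coeff n)
    (hg0 : ∀ n, y.coeff n = 0 → g n = 0) : ∃ a : LaurentSeries R, coeffMap f a = y := by
  refine ⟨⟨g, y.isPWO_support.mono ?_⟩, ?_⟩
  · intro n hn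
    rw [Function.mem_support] at hn
    rw [HahnSeries.mem_support]
    exact fun h => hn (hg0 n h)
  · ext n
    rw [coeffMap_coeff]
    exact hg n

variable (l : ℕ) [Fact l.Prime]

/-! ### The reduction map of `ℤ_(l)` -/

/-- The kernel of any ring homomorphism `ℤ_(l) → ZMod l` is generated by `l`. -/
theorem zl_map_eq_zero_iff (r : Zl l →+* ZMod l) (x : Zl l) :
    r x = 0 ↔ ∃ y : Zl l, x = (l : Zl l) * y := by
  obtain ⟨q, hq⟩ := x
  have hq' : q.den.Coprime l := hq
  have hden0 : (q.den : ℚ) ≠ 0 := Nat.cast_ne_zero.mpr q.den_nz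
  have hdinv : ((q.den : ℚ)⁻¹) ∈ GaloisRep.ratLocalizedAt l := by
    show ((q.den : ℚ)⁻¹).den.Coprime l
    rw [Rat.inv_natCast_den_of_pos (Nat.pos_of_ne_zero q.den_nz)]
    exact hq'
  let dinv : Zl l := ⟨(q.den : ℚ)⁻¹, hdinv⟩
  have h1 : (⟨q, hq⟩ : Zl l) * ((q.den : ℕ) : Zl l) = ((q.num : ℤ) : Zl l) := by
    apply Subtype.ext
    show q * ((q.den : ℕ) : ℚ) = ((q.num : ℤ) : ℚ)
    exact Rat.mul_den_eq_num q
  have h2 : r ⟨q, hq⟩ * ((q.den : ℕ) : ZMod l) = ((q.num : ℤ) : ZMod l) := by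
    have := congrArg r h1
    rwa [map_mul, map_natCast, map_intCast] at this
  have hd : ((q.den : ℕ) : ZMod l) ≠ 0 := by
    rw [Ne, ZMod.natCast_eq_zero_iff]
    intro hdvd
    have := Nat.Coprime.eq_one_of_dvd hq'.symm hdvd
    exact (Fact.out : l.Prime).one_lt.ne' this
  constructor
  · intro h0
    rw [h0, zero_mul] at h2
    have h3 : (l : ℤ) ∣ q.num := (ZMod.intCast_zmod_eq_zero_iff_dvd _ _).mp h2.symm
    obtain ⟨m, hm⟩ := h3
    refine ⟨((m : ℤ) : Zl l) * dinv, ?_⟩
    apply Subtype.ext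
    show q = ((l : ℕ) : ℚ) * (((m : ℤ) : ℚ) * (q.den : ℚ)⁻¹)
    rw [← mul_assoc, ← div_eq_mul_inv]
    have : ((l : ℕ) : ℚ) * ((m : ℤ) : ℚ) = ((q.num : ℤ) : ℚ) := by
      rw [hm]; push_cast; ring
    rw [this, Rat.num_div_den]
  · rintro ⟨y, hy⟩
    rw [hy, map_mul, map_natCast, ZMod.natCast_self, zero_mul]

theorem redZl_eq_zero_iff (x : Zl l) : redZl l x = 0 ↔ ∃ y : Zl l, x = (l : Zl l) * y :=
  zl_map_eq_zero_iff l (redZl l) x

/-! ### Integral Laurent series and their reduction -/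

/-- The inclusion of Laurent series over `ℤ_(l)` into Laurent series over `ℚ`. -/
abbrev inclZ : LaurentSeries (Zl l) →+* LaurentSeries ℚ := coeffMap (GaloisRep.ratLocalizedAt l).subtype

/-- Reduction modulo `l` of Laurent series over `ℤ_(l)`. -/
abbrev redZ : LaurentSeries (Zl l) →+* LaurentSeries (ZMod l) := coeffMap (redZl l)

theorem inclZ_injective : Function.Injective (inclZ l) :=
  coeffMap_injective _ Subtype.val_injective

/-- A Laurent series over `ℚ` with coefficients in `ℤ_(l)` comes from a series over `ℤ_(l)`. -/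
theorem exists_inclZ_eq (y : LaurentSeries ℚ) (h : ∀ n, y.coeff n ∈ GaloisRep.ratLocalizedAt l) :
    ∃ a : LaurentSeries (Zl l), inclZ l a = y :=
  exists_coeffMap_eq (GaloisRep.ratLocalizedAt l).subtype y (fun n => ⟨y.coeff n, h n⟩) (fun _ => rfl)
    (fun n hn => Subtype.ext hn)

/-- A series over `ℤ_(l)` with zero reduction is divisible by `l`. -/
theorem exists_eq_mul_of_redZ_eq_zero (a : LaurentSeries (Zl l)) (h : redZ l a = 0) :
    ∃ a' : LaurentSeries (Zl l), a = (l : LaurentSeries (Zl l)) * a' := by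
  have hc : ∀ n, ∃ y : Zl l, a.coeff n = (l : Zl l) * y := by
    intro n
    rw [← redZl_eq_zero_iff]
    have := congrArg (fun z => z.coeff n) h
    simpa using this
  choose c hc using hc
  have hl0 : ((l : ℕ) : ℚ) ≠ 0 := Nat.cast_ne_zero.mpr (Fact.out : l.Prime).ne_zero
  obtain ⟨a', ha'⟩ := exists_inclZ_eq l (HahnSeries.C ((l : ℚ)⁻¹) * inclZ l a) (by
    intro n
    rw [HahnSeries.C_mul_eq_smul, HahnSeries.coeff_smul, coeffMap_coeff, hc n]
    have : ((l : ℚ)⁻¹) • ((GaloisRep.ratLocalizedAt l).subtype ((l : Zl l) * c n)) = (c n : ℚ) := by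
      show ((l : ℚ)⁻¹) * (((l : ℕ) : ℚ) * (c n : ℚ)) = (c n : ℚ)
      rw [← mul_assoc, inv_mul_cancel₀ hl0, one_mul]
    rw [this]
    exact (c n).2)
  refine ⟨a', inclZ_injective l ?_⟩
  rw [map_mul, ha', map_natCast, ← mul_assoc]
  have : ((l : ℕ) : LaurentSeries ℚ) * HahnSeries.C ((l : ℚ)⁻¹) = 1 := by
    rw [← map_natCast (HahnSeries.C : ℚ →+* LaurentSeries ℚ), ← map_mul, mul_inv_cancel₀ hl0,
      map_one]
  rw [this, one_mul]

/-! ### The Gauss ring `Oint` and its reduction map `rho` -/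

/-- The Gauss ring: quotients `a / b` of Laurent series with `l`-integral coefficients, the
denominator `b` being nonzero modulo `l`. -/
def Oint : Subring (LaurentSeries ℚ) where
  carrier := {x | ∃ a b : LaurentSeries (Zl l), redZ l b ≠ 0 ∧ x * inclZ l b = inclZ l a}
  mul_mem' := by
    rintro x y ⟨a, b, hb, h⟩ ⟨a', b', hb', h'⟩
    refine ⟨a * a', b * b', ?_, ?_⟩
    · rw [map_mul]; exact mul_ne_zero hb hb'
    · rw [map_mul, map_mul, ← h, ← h']; ring
  one_mem' := ⟨1, 1, by rw [map_one]; exact one_ne_zero, by rw [map_one, mul_one]⟩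
  add_mem' := by
    rintro x y ⟨a, b, hb, h⟩ ⟨a', b', hb', h'⟩
    refine ⟨a * b' + a' * b, b * b', ?_, ?_⟩
    · rw [map_mul]; exact mul_ne_zero hb hb'
    · rw [map_mul, map_add, map_mul, map_mul, ← h, ← h']; ring
  zero_mem' := ⟨0, 1, by rw [map_one]; exact one_ne_zero, by rw [map_zero, zero_mul]⟩
  neg_mem' := by
    rintro x ⟨a, b, hb, h⟩
    exact ⟨-a, b, hb, by rw [map_neg, ← h, neg_mul]⟩

theorem mem_Oint_iff {x : LaurentSeries ℚ} :
    x ∈ Oint l ↔ ∃ a b : LaurentSeries (Zl l), redZ l b ≠ 0 ∧ x * inclZ l b = inclZ l a :=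
  Iff.rfl

theorem mem_Oint_of_eq {x : LaurentSeries ℚ} {a b : LaurentSeries (Zl l)} (hb : redZ l b ≠ 0)
    (h : x * inclZ l b = inclZ l a) : x ∈ Oint l :=
  ⟨a, b, hb, h⟩

/-- Integral series lie in the Gauss ring. -/
theorem coeffMap_mem_Oint (a : LaurentSeries (Zl l)) : inclZ l a ∈ Oint l :=
  ⟨a, 1, by rw [map_one]; exact one_ne_zero, by rw [map_one, mul_one]⟩

/-- The reduction `a / b ↦ ā / b̄` does not depend on the representation. -/
theorem redZ_div_eq {x : LaurentSeries ℚ} {a b a' b' : LaurentSeries (Zl l)}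
    (hb : redZ l b ≠ 0) (hb' : redZ l b' ≠ 0) (h : x * inclZ l b = inclZ l a)
    (h' : x * inclZ l b' = inclZ l a') : redZ l a / redZ l b = redZ l a' / redZ l b' := by
  have e : a * b' = a' * b := inclZ_injective l (by
    rw [map_mul, map_mul, ← h, ← h']; ring)
  rw [div_eq_div_iff hb hb', ← map_mul, ← map_mul, e]

/-- The underlying function of `rho`. -/
def rhoFun (x : Oint l) : LaurentSeries (ZMod l) :=
  redZ l x.2.choose / redZ l x.2.choose_spec.choose

theorem rhoFun_eq (x : Oint l) {a b : LaurentSeries (Zl l)} (hb : redZ l b ≠ 0)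
    (h : (x : LaurentSeries ℚ) * inclZ l b = inclZ l a) : rhoFun l x = redZ l a / redZ l b :=
  redZ_div_eq l x.2.choose_spec.choose_spec.1 hb x.2.choose_spec.choose_spec.2 h

/-- **The reduction map** of the Gauss ring: `a / b ↦ ā / b̄`. -/
def rho : Oint l →+* LaurentSeries (ZMod l) where
  toFun := rhoFun l
  map_one' := by
    rw [rhoFun_eq l 1 (a := 1) (b := 1) (by rw [map_one]; exact one_ne_zero)
      (by rw [map_one, mul_one]; rfl), map_one, div_one]
  map_mul' := by
    intro x y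
    obtain ⟨a, b, hb, h⟩ := x.2
    obtain ⟨a', b', hb', h'⟩ := y.2
    rw [rhoFun_eq l x hb h, rhoFun_eq l y hb' h',
      rhoFun_eq l (x * y) (a := a * a') (b := b * b')
        (by rw [map_mul]; exact mul_ne_zero hb hb')
        (by rw [Subring.coe_mul, map_mul, map_mul, ← h, ← h']; ring),
      map_mul, map_mul, div_mul_div_comm]
  map_zero' := by
    rw [rhoFun_eq l 0 (a := 0) (b := 1) (by rw [map_one]; exact one_ne_zero)
      (by rw [map_zero]; exact zero_mul _), map_zero, zero_div]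
  map_add' := by
    intro x y
    obtain ⟨a, b, hb, h⟩ := x.2
    obtain ⟨a', b', hb', h'⟩ := y.2
    rw [rhoFun_eq l x hb h, rhoFun_eq l y hb' h',
      rhoFun_eq l (x + y) (a := a * b' + a' * b) (b := b * b')
        (by rw [map_mul]; exact mul_ne_zero hb hb')
        (by rw [Subring.coe_add, map_mul, map_add, map_mul, map_mul, ← h, ← h']; ring),
      map_add, map_mul, map_mul, map_mul, div_add_div _ _ hb hb', mul_comm (redZ l a') (redZ l b)]

theorem rho_eq (x : Oint l) {a b : LaurentSeries (Zl l)} (hb : redZ l b ≠ 0)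
    (h : (x : LaurentSeries ℚ) * inclZ l b = inclZ l a) : rho l x = redZ l a / redZ l b :=
  rhoFun_eq l x hb h

theorem rho_mk {x : LaurentSeries ℚ} {a b : LaurentSeries (Zl l)} (hb : redZ l b ≠ 0)
    (h : x * inclZ l b = inclZ l a) (hx : x ∈ Oint l) : rho l ⟨x, hx⟩ = redZ l a / redZ l b :=
  rhoFun_eq l _ hb h

/-- On integral series `rho` is the coefficientwise reduction. -/
theorem rho_coeffMap (a : LaurentSeries (Zl l)) :
    rho l ⟨inclZ l a, coeffMap_mem_Oint l a⟩ = redZ l a := by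
  rw [rho_eq l _ (a := a) (b := 1) (by rw [map_one]; exact one_ne_zero)
    (by rw [map_one, mul_one]), map_one, div_one]

theorem rho_inclZ (a : LaurentSeries (Zl l)) (h : inclZ l a ∈ Oint l) :
    rho l ⟨inclZ l a, h⟩ = redZ l a :=
  rho_coeffMap l a

/-- Constants. -/
theorem C_mem_Oint (a : Zl l) : HahnSeries.C (a : ℚ) ∈ Oint l := by
  have : (HahnSeries.C (a : ℚ) : LaurentSeries ℚ) = inclZ l (HahnSeries.C a) := by
    rw [HahnSeries.C_apply, HahnSeries.C_apply]
    exact (coeffMap_single (GaloisRep.ratLocalizedAt l).subtype 0 a).symm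
  rw [this]
  exact coeffMap_mem_Oint l _

theorem rho_C (a : Zl l) :
    rho l ⟨HahnSeries.C (a : ℚ), C_mem_Oint l a⟩ = HahnSeries.C (redZl l a) := by
  have e : (HahnSeries.C (a : ℚ) : LaurentSeries ℚ) = inclZ l (HahnSeries.C a) := by
    rw [HahnSeries.C_apply, HahnSeries.C_apply]
    exact (coeffMap_single (GaloisRep.ratLocalizedAt l).subtype 0 a).symm
  have h2 : redZ l (HahnSeries.C a) = HahnSeries.C (redZl l a) := by
    rw [HahnSeries.C_apply, HahnSeries.C_apply]
    exact coeffMap_single (redZl l) 0 a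
  rw [← h2]
  exact rho_eq l _ (a := HahnSeries.C a) (b := 1) (by rw [map_one]; exact one_ne_zero)
    (by rw [map_one, mul_one]; exact e) |>.trans (by rw [map_one, div_one])

/-- A quotient of two elements of the Gauss ring, the denominator having nonzero reduction, is in
the Gauss ring. -/
theorem mem_Oint_of_mul {x a b : LaurentSeries ℚ} (ha : a ∈ Oint l) (hb : b ∈ Oint l)
    (hρ : rho l ⟨b, hb⟩ ≠ 0) (h : x * b = a) : x ∈ Oint l := by
  obtain ⟨a₁, a₂, ha₂, ha'⟩ := ha
  obtain ⟨b₁, b₂, hb₂, hb'⟩ := hb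
  have hb₁ : redZ l b₁ ≠ 0 := by
    intro h0
    apply hρ
    rw [rho_eq l ⟨b, b₁, b₂, hb₂, hb'⟩ hb₂ hb', h0, zero_div]
  refine ⟨a₁ * b₂, b₁ * a₂, ?_, ?_⟩
  · rw [map_mul]; exact mul_ne_zero hb₁ ha₂
  · rw [map_mul, map_mul, ← ha', ← hb', ← h]; ring

/-- Elements of the Gauss ring with nonzero reduction are units. -/
theorem inv_mem_Oint (x : Oint l) (hx : rho l x ≠ 0) : (x : LaurentSeries ℚ)⁻¹ ∈ Oint l := by
  have hx0 : (x : LaurentSeries ℚ) ≠ 0 := by
    intro h0
    apply hx
    have : x = 0 := Subtype.ext h0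
    rw [this, map_zero]
  exact mem_Oint_of_mul l (Oint l).one_mem x.2 hx (inv_mul_cancel₀ hx0)

theorem natCast_laurent_ne_zero : ((l : ℕ) : LaurentSeries ℚ) ≠ 0 := by
  rw [← map_natCast (HahnSeries.C : ℚ →+* LaurentSeries ℚ), Ne, map_eq_zero_iff _
    HahnSeries.C_injective]
  exact Nat.cast_ne_zero.mpr (Fact.out : l.Prime).ne_zero

/-- **The kernel of `rho` is generated by `l`.** -/
theorem rho_eq_zero (x : Oint l) (h : rho l x = 0) : ∃ y : Oint l, x = (l : Oint l) * y := by
  obtain ⟨a, b, hb, hab⟩ := x.2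
  rw [rho_eq l x hb hab, div_eq_zero_iff] at h
  have ha : redZ l a = 0 := h.resolve_right hb
  obtain ⟨a', ha'⟩ := exists_eq_mul_of_redZ_eq_zero l a ha
  have hl0 : ((l : ℕ) : LaurentSeries ℚ) ≠ 0 := natCast_laurent_ne_zero l
  have hy : ((l : ℕ) : LaurentSeries ℚ)⁻¹ * (x : LaurentSeries ℚ) ∈ Oint l := by
    refine ⟨a', b, hb, ?_⟩
    rw [mul_assoc, hab, ha', map_mul, map_natCast, ← mul_assoc, inv_mul_cancel₀ hl0, one_mul]
  refine ⟨⟨_, hy⟩, Subtype.ext ?_⟩
  rw [Subring.coe_mul, Subring.coe_natCast, ← mul_assoc, mul_inv_cancel₀ hl0, one_mul]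

theorem rho_natCast_self : rho l (l : Oint l) = 0 := by
  rw [map_natCast, ← map_natCast (HahnSeries.C : ZMod l →+* LaurentSeries (ZMod l)),
    ZMod.natCast_self, map_zero]

theorem rho_eq_zero_iff (x : Oint l) : rho l x = 0 ↔ ∃ y : Oint l, x = (l : Oint l) * y := by
  refine ⟨rho_eq_zero l x, ?_⟩
  rintro ⟨y, rfl⟩
  rw [map_mul, rho_natCast_self, zero_mul]

end Fermat.Agent.IgusaLib
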