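import Mathlib
import Fermat.Agent.IgusaLib.Defs

/-!
# S28 (Igusa): transport between the charts and subrings of `ℚ((q))`

`AJ l t` is the subring `ℤ_(l)[t]` of `ℚ((q))`. An element `x` of the function field lies in
`chartAlg N l {g}` iff it is integral over `AJ l g`.
-/

set_option autoImplicit false
set_option linter.style.haveILetI false
set_option linter.unusedSectionVars false

noncomputable section

namespace Fermat.Agent.IgusaLib

open Polynomial ModularCurve ModularCurve.IgusaScheme

/-- The ring hom `ℤ_(l)[X] → ℚ((q))`, `G ↦ G(t)`. -/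
def AJhom (l : ℕ) (t : LaurentSeries ℚ) : (Zl l)[X] →+* LaurentSeries ℚ :=
  (Polynomial.aeval t : ℚ[X] →ₐ[ℚ] LaurentSeries ℚ).toRingHom.comp
    (Polynomial.mapRingHom (GaloisRep.ratLocalizedAt l).subtype)

theorem AJhom_apply (l : ℕ) (t : LaurentSeries ℚ) (G : (Zl l)[X]) :
    AJhom l t G = Polynomial.aeval t (G.map (GaloisRep.ratLocalizedAt l).subtype) := rfl

/-- The subring `ℤ_(l)[t]` of `ℚ((q))`. -/
def AJ (l : ℕ) (t : LaurentSeries ℚ) : Subring (LaurentSeries ℚ) := (AJhom l t).range

theorem mem_AJ {l : ℕ} {t x : LaurentSeries ℚ} :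
    x ∈ AJ l t ↔ ∃ G : (Zl l)[X],
      Polynomial.aeval t (G.map (GaloisRep.ratLocalizedAt l).subtype) = x := Iff.rfl

theorem AJ_le_adjoin (l : ℕ) (t : LaurentSeries ℚ) :
    AJ l t ≤ (Algebra.adjoin ℚ {t}).toSubring := by
  rintro x ⟨G, rfl⟩
  exact Polynomial.aeval_mem_adjoin_singleton ℚ t

section chart

variable (N : ℕ) [NeZero N] (l : ℕ) [Fact l.Prime]

/-- The inclusion of the function field into `ℚ((q))` as a ring hom. -/
def fullToLS : ↥(modularFunctionFieldFull N) →+* LaurentSeries ℚ :=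
  algebraMap ↥(modularFunctionFieldFull N) (LaurentSeries ℚ)

theorem fullToLS_apply (x : ↥(modularFunctionFieldFull N)) :
    fullToLS N x = (x : LaurentSeries ℚ) := rfl

theorem fullToLS_injective : Function.Injective (fullToLS N) := (fullToLS N).injective

theorem fullToLS_algebraMap (a : Zl l) :
    fullToLS N (algebraMap (Zl l) ↥(modularFunctionFieldFull N) a) =
      algebraMap ℚ (LaurentSeries ℚ) ((a : ℚ)) := by
  have h : (fullToLS N).comp (algebraMap ℚ ↥(modularFunctionFieldFull N)) =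
      algebraMap ℚ (LaurentSeries ℚ) := Subsingleton.elim _ _
  rw [IsScalarTower.algebraMap_apply (Zl l) ℚ ↥(modularFunctionFieldFull N) a, ← h]
  rfl

/-- The coercion of `aeval g G` (computed in the function field, as a `ℤ_(l)`-algebra). -/
theorem coe_aeval (g : ↥(modularFunctionFieldFull N)) (G : (Zl l)[X]) :
    fullToLS N (Polynomial.aeval g G) = AJhom l (g : LaurentSeries ℚ) G := by
  induction G using Polynomial.induction_on' with
  | add p q hp hq => rw [map_add, map_add, map_add, hp, hq]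
  | monomial n a =>
    rw [AJhom_apply, Polynomial.aeval_monomial, Polynomial.map_monomial,
      Polynomial.aeval_monomial, map_mul, map_pow, fullToLS_algebraMap]
    rfl

/-- Elements of `ℤ_(l)[g]` (inside the function field) lie in `AJ l g`. -/
theorem coe_mem_AJ (g : ↥(modularFunctionFieldFull N)) {a : ↥(modularFunctionFieldFull N)}
    (ha : a ∈ Algebra.adjoin (Zl l) {g}) : fullToLS N a ∈ AJ l (g : LaurentSeries ℚ) := by
  rw [Algebra.adjoin_singleton_eq_range_aeval] at ha
  obtain ⟨G, rfl⟩ := ha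
  exact ⟨G, (coe_aeval N l g G).symm⟩

/-- The ring hom `ℤ_(l)[g] → ℚ((q))`. -/
def adjoinToLS (g : ↥(modularFunctionFieldFull N)) :
    ↥(Algebra.adjoin (Zl l) {g}) →+* LaurentSeries ℚ :=
  (fullToLS N).comp (algebraMap ↥(Algebra.adjoin (Zl l) {g}) ↥(modularFunctionFieldFull N))

theorem adjoinToLS_apply (g : ↥(modularFunctionFieldFull N)) (a : ↥(Algebra.adjoin (Zl l) {g})) :
    adjoinToLS N l g a = fullToLS N (a : ↥(modularFunctionFieldFull N)) := rfl

theorem range_adjoinToLS (g : ↥(modularFunctionFieldFull N)) :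
    (adjoinToLS N l g).range = AJ l (g : LaurentSeries ℚ) := by
  apply le_antisymm
  · rintro x ⟨a, rfl⟩
    exact coe_mem_AJ N l g a.2
  · rintro x ⟨G, rfl⟩
    refine ⟨⟨Polynomial.aeval g G, ?_⟩, ?_⟩
    · rw [Algebra.adjoin_singleton_eq_range_aeval]
      exact ⟨G, rfl⟩
    · rw [adjoinToLS_apply]
      exact coe_aeval N l g G

/-- **Transport**: membership in a chart is integrality over `AJ l g` inside `ℚ((q))`. -/
theorem mem_chartAlg_singleton_iff (g x : ↥(modularFunctionFieldFull N)) :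
    x ∈ chartAlg N l {g} ↔ IsIntegral ↥(AJ l (g : LaurentSeries ℚ)) (x : LaurentSeries ℚ) := by
  rw [mem_chartAlg_iff]
  constructor
  · intro hx
    let φ : ↥(Algebra.adjoin (Zl l) {g}) →+* ↥(AJ l (g : LaurentSeries ℚ)) :=
      (adjoinToLS N l g).codRestrict (AJ l (g : LaurentSeries ℚ))
        (fun a => coe_mem_AJ N l g a.2)
    exact IsIntegral.map_of_comp_eq φ (fullToLS N) (by ext a; rfl) hx
  · rintro ⟨f, hf, hfx⟩
    have hl : f.map (AJ l (g : LaurentSeries ℚ)).subtype ∈ lifts (adjoinToLS N l g) := by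
      rw [lifts_iff_coeff_lifts]
      intro n
      rw [coeff_map]
      have h : ((f.coeff n : ↥(AJ l (g : LaurentSeries ℚ))) : LaurentSeries ℚ) ∈
          (adjoinToLS N l g).range := by
        rw [range_adjoinToLS]
        exact (f.coeff n).2
      exact h
    obtain ⟨f', hf', -, hf'm⟩ := lifts_and_natDegree_eq_and_monic hl (hf.map _)
    refine ⟨f', hf'm, ?_⟩
    apply fullToLS_injective N
    rw [map_zero, Polynomial.hom_eval₂]
    have : (fullToLS N).comp
        (algebraMap ↥(Algebra.adjoin (Zl l) {g}) ↥(modularFunctionFieldFull N)) =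
        adjoinToLS N l g := rfl
    rw [this, ← eval_map, hf', eval_map]
    exact hfx

theorem mem_chartAlg_iff_isIntegral_AJ (x : ↥(modularFunctionFieldFull N)) :
    x ∈ chartAlg N l {jFull N} ↔ IsIntegral ↥(AJ l jq) (x : LaurentSeries ℚ) :=
  mem_chartAlg_singleton_iff N l (jFull N) x

theorem mem_chartAlg_inv_iff_isIntegral_AJ (x : ↥(modularFunctionFieldFull N)) :
    x ∈ chartAlg N l {(jFull N)⁻¹} ↔ IsIntegral ↥(AJ l jq⁻¹) (x : LaurentSeries ℚ) :=
  mem_chartAlg_singleton_iff N l (jFull N)⁻¹ x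

end chart

end Fermat.Agent.IgusaLib
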