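import Mathlib
import Fermat.Agent.IgusaLib.Defs
import Fermat.Agent.IgusaLib.Gauss
import Fermat.Agent.IgusaLib.Alg
import Fermat.Agent.IgusaLib.Transport
import Fermat.Agent.IgusaLib.FormalOrd

/-!
# S28 (Igusa): the kernel of the reduction map on the charts

`ker_chart`: if `x` lies in a chart `chartAlg N l {g}` and its reduction `rho l x` vanishes, then
`x = l * y` with `y` in the same chart. The inputs from the other leaves (the ring `Ov`, its
integral closedness, finiteness `Q2` and the intersection statement `INT`) are hypotheses.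
-/

set_option autoImplicit false
set_option linter.style.haveILetI false
set_option linter.unusedSectionVars false

noncomputable section

namespace Fermat.Agent.IgusaLib

open Polynomial ModularCurve ModularCurve.IgusaScheme

variable (N : ℕ) [NeZero N] (l : ℕ) [Fact l.Prime]

/-- **Kernel of the reduction on a chart**, from the seams of the other leaves. -/
theorem ker_chart (g : ↥(modularFunctionFieldFull N))
    (R₁ : Subring (LaurentSeries ℚ)) (K : Subfield (LaurentSeries ℚ))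
    (hR₁K : R₁ ≤ K.toSubring)
    (hR₁cl : ∀ x ∈ K, IsIntegral ↥R₁ x → x ∈ R₁)
    (hR₂K : (Algebra.adjoin ℚ {(g : LaurentSeries ℚ)}).toSubring ≤ K.toSubring)
    (hR₂cl : ∀ x ∈ K, IsIntegral ↥(Algebra.adjoin ℚ {(g : LaurentSeries ℚ)}).toSubring x →
      x ∈ (Algebra.adjoin ℚ {(g : LaurentSeries ℚ)}).toSubring)
    (hQ2 : ∀ x ∈ modularFunctionFieldFull N, x ∈ Oint l → IsIntegral ↥R₁ x)
    (hINT : R₁ ⊓ (Algebra.adjoin ℚ {(g : LaurentSeries ℚ)}).toSubring ≤
      AJ l (g : LaurentSeries ℚ))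
    (x : ↥(modularFunctionFieldFull N)) (hx : x ∈ chartAlg N l {g})
    (hxO : (x : LaurentSeries ℚ) ∈ Oint l) (hρ : rho l ⟨(x : LaurentSeries ℚ), hxO⟩ = 0) :
    ∃ y : ↥(modularFunctionFieldFull N), y ∈ chartAlg N l {g} ∧
      x = (l : ↥(modularFunctionFieldFull N)) * y := by
  obtain ⟨y₀, hy₀⟩ := rho_eq_zero l ⟨(x : LaurentSeries ℚ), hxO⟩ hρ
  have hxy : (x : LaurentSeries ℚ) = (l : LaurentSeries ℚ) * (y₀ : LaurentSeries ℚ) := by
    have := congrArg Subtype.val hy₀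
    simpa using this
  have hl0 : ((l : ℕ) : LaurentSeries ℚ) ≠ 0 := natCast_laurent_ne_zero l
  have hy₀eq : (y₀ : LaurentSeries ℚ) = ((l : ℕ) : LaurentSeries ℚ)⁻¹ * (x : LaurentSeries ℚ) := by
    rw [hxy, inv_mul_cancel_left₀ hl0]
  have hyF : (y₀ : LaurentSeries ℚ) ∈ modularFunctionFieldFull N := by
    rw [hy₀eq]
    exact mul_mem (inv_mem (natCast_mem _ l)) x.2
  -- integrality over `R₁`
  have hyR₁ : IsIntegral ↥R₁ (y₀ : LaurentSeries ℚ) := hQ2 _ hyF y₀.2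
  -- integrality over `ℚ[g]`
  have hxA : IsIntegral ↥(AJ l (g : LaurentSeries ℚ)) (x : LaurentSeries ℚ) :=
    (mem_chartAlg_singleton_iff N l g x).mp hx
  have hxQ : IsIntegral ↥(Algebra.adjoin ℚ {(g : LaurentSeries ℚ)}).toSubring
      (x : LaurentSeries ℚ) := isIntegral_of_subring_le (AJ_le_adjoin l _) hxA
  have hlmem : ((l : ℕ) : LaurentSeries ℚ)⁻¹ ∈
      (Algebra.adjoin ℚ {(g : LaurentSeries ℚ)}).toSubring := by
    have h1 : ((l : ℕ) : LaurentSeries ℚ)⁻¹ = algebraMap ℚ (LaurentSeries ℚ) ((l : ℚ)⁻¹) := by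
      rw [map_inv₀, map_natCast]
    rw [h1]
    exact Subalgebra.algebraMap_mem _ _
  have hyQ : IsIntegral ↥(Algebra.adjoin ℚ {(g : LaurentSeries ℚ)}).toSubring
      (y₀ : LaurentSeries ℚ) := by
    rw [hy₀eq]
    exact IsIntegral.mul (isIntegral_algebraMap
      (x := (⟨_, hlmem⟩ : ↥(Algebra.adjoin ℚ {(g : LaurentSeries ℚ)}).toSubring))) hxQ
  have hy : IsIntegral ↥(R₁ ⊓ (Algebra.adjoin ℚ {(g : LaurentSeries ℚ)}).toSubring)
      (y₀ : LaurentSeries ℚ) :=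
    isIntegral_inf K R₁ _ hR₁K hR₂K hR₁cl hR₂cl _ hyR₁ hyQ
  have hyA : IsIntegral ↥(AJ l (g : LaurentSeries ℚ)) (y₀ : LaurentSeries ℚ) :=
    isIntegral_of_subring_le hINT hy
  refine ⟨⟨(y₀ : LaurentSeries ℚ), hyF⟩, (mem_chartAlg_singleton_iff N l g _).mpr hyA, ?_⟩
  apply Subtype.ext
  rw [hxy]
  simp

/-- **Kernel of the reduction on the finite chart** (`S = {j}`), from the seams. -/
theorem ker_fin_of (R₁ : Subring (LaurentSeries ℚ))
    (hR₁K : ∀ x ∈ R₁, x ∈ IntermediateField.adjoin ℚ {jq})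
    (hR₁cl : ∀ x ∈ IntermediateField.adjoin ℚ {jq}, IsIntegral ↥R₁ x → x ∈ R₁)
    (hQ2 : ∀ x ∈ modularFunctionFieldFull N, x ∈ Oint l → IsIntegral ↥R₁ x)
    (hINT : R₁ ⊓ (Algebra.adjoin ℚ {jq}).toSubring ≤ AJ l jq)
    (x : ↥(modularFunctionFieldFull N)) (hx : x ∈ chartAlgFin N l)
    (hxO : (x : LaurentSeries ℚ) ∈ Oint l) (hρ : rho l ⟨(x : LaurentSeries ℚ), hxO⟩ = 0) :
    ∃ y : ↥(modularFunctionFieldFull N), y ∈ chartAlgFin N l ∧
      x = (l : ↥(modularFunctionFieldFull N)) * y :=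
  ker_chart N l (jFull N) R₁ (IntermediateField.adjoin ℚ {jq}).toSubfield hR₁K hR₁cl
    (fun _ hy => IntermediateField.algebra_adjoin_le_adjoin ℚ {jq} hy)
    (fun y hy hint => mem_adjoin_toSubring_of_isIntegral jq (transcendental_jqModC (k := ℚ)) y hy hint)
    hQ2 hINT x hx hxO hρ

/-- **Kernel of the reduction on the chart at infinity** (`S = {j⁻¹}`), from the seams. -/
theorem ker_inf_of (R₁ : Subring (LaurentSeries ℚ))
    (hR₁K : ∀ x ∈ R₁, x ∈ IntermediateField.adjoin ℚ {jq})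
    (hR₁cl : ∀ x ∈ IntermediateField.adjoin ℚ {jq}, IsIntegral ↥R₁ x → x ∈ R₁)
    (hQ2 : ∀ x ∈ modularFunctionFieldFull N, x ∈ Oint l → IsIntegral ↥R₁ x)
    (hINT : R₁ ⊓ (Algebra.adjoin ℚ {jq⁻¹}).toSubring ≤ AJ l jq⁻¹)
    (x : ↥(modularFunctionFieldFull N)) (hx : x ∈ chartAlgInf N l)
    (hxO : (x : LaurentSeries ℚ) ∈ Oint l) (hρ : rho l ⟨(x : LaurentSeries ℚ), hxO⟩ = 0) :
    ∃ y : ↥(modularFunctionFieldFull N), y ∈ chartAlgInf N l ∧
      x = (l : ↥(modularFunctionFieldFull N)) * y :=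
  ker_chart N l (jFull N)⁻¹ R₁ (IntermediateField.adjoin ℚ {jq}).toSubfield hR₁K hR₁cl
    (fun y hy => by
      have h := IntermediateField.algebra_adjoin_le_adjoin ℚ {jq⁻¹} hy
      rw [adjoin_inv_eq_adjoin] at h
      exact h)
    (fun y hy hint => mem_adjoin_inv_toSubring_of_isIntegral jq (transcendental_jqModC (k := ℚ)) y hy hint)
    hQ2 hINT x hx hxO hρ

end Fermat.Agent.IgusaLib
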