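import Mathlib
import Fermat.Prelude.Def_ModularCurve_IgusaScheme
import Fermat.Agent.IgusaLib.Cover

/-!
# S28 (Igusa), scheme part

The pullback of the Igusa scheme to `Spec K` is covered by the spectra of the two tensor products
`chartAlgFin ⊗ K` and `chartAlgInf ⊗ K`; it is integral as soon as these are domains and
`chartAlgMid ⊗ K` is nontrivial.
-/

set_option autoImplicit false
set_option linter.style.haveILetI false

noncomputable section

namespace Fermat.Agent.IgusaLib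

open AlgebraicGeometry CategoryTheory CategoryTheory.Limits ModularCurve ModularCurve.IgusaScheme
open scoped TensorProduct

variable (N : ℕ) [NeZero N] (ℓ : ℕ) [Fact ℓ.Prime]
variable (K : Type) [Field K] [Algebra ↥(GaloisRep.ratLocalizedAt ℓ) K]

/-- The base change morphism `Spec K ⟶ Spec ℤ_(ℓ)`. -/
abbrev baseK : Spec (CommRingCat.of K) ⟶ Spec (CommRingCat.of ↥(GaloisRep.ratLocalizedAt ℓ)) :=
  Spec.map (CommRingCat.ofHom (algebraMap ↥(GaloisRep.ratLocalizedAt ℓ) K))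

section generic

variable {N ℓ}
variable {R : Type} [CommRing R] [Algebra ↥(GaloisRep.ratLocalizedAt ℓ) R]
  (i : Spec (CommRingCat.of R) ⟶ ModularCurve.IgusaScheme N ℓ)
  (hi : i ≫ igusaTo N ℓ =
    Spec.map (CommRingCat.ofHom (algebraMap ↥(GaloisRep.ratLocalizedAt ℓ) R)))

/-- The chart `Spec (R ⊗ K) ⟶ Y` induced by a chart `Spec R ⟶ IgusaScheme`. -/
def chartMap : Spec (CommRingCat.of (R ⊗[↥(GaloisRep.ratLocalizedAt ℓ)] K)) ⟶
    pullback (igusaTo N ℓ) (baseK ℓ K) :=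
  (pullbackSpecIso ↥(GaloisRep.ratLocalizedAt ℓ) R K).inv ≫
    pullback.map _ _ _ _ i (𝟙 _) (𝟙 _) (by simp [hi]) (by simp)

instance isOpenImmersion_chartMap [IsOpenImmersion i] : IsOpenImmersion (chartMap K i hi) := by
  unfold chartMap
  infer_instance

theorem range_chartMap : Set.range (chartMap K i hi).base =
    (pullback.fst (igusaTo N ℓ) (baseK ℓ K)).base ⁻¹' Set.range i.base := by
  unfold chartMap
  rw [Scheme.Hom.comp_base, TopCat.coe_comp, Set.range_comp,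
    Set.range_eq_univ.mpr (pullbackSpecIso ↥(GaloisRep.ratLocalizedAt ℓ) R K).inv.surjective,
    Set.image_univ]
  have := Scheme.Pullback.range_map
    (Spec.map (CommRingCat.ofHom (algebraMap ↥(GaloisRep.ratLocalizedAt ℓ) R)))
    (baseK ℓ K) (igusaTo N ℓ) (baseK ℓ K) i (𝟙 _) (𝟙 _) (by simp [hi]) (by simp)
  rw [this]
  have h1 : Set.range ⇑(𝟙 (Spec (CommRingCat.of K))) = Set.univ :=
    Set.range_eq_univ.mpr fun x => ⟨x, rfl⟩
  rw [h1, Set.preimage_univ, Set.inter_univ]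

end generic

theorem fFin_ιFin_igusaTo : (fFin N ℓ ≫ ιFin N ℓ) ≫ igusaTo N ℓ =
    Spec.map (CommRingCat.ofHom (algebraMap ↥(GaloisRep.ratLocalizedAt ℓ) (chartAlgMid N ℓ))) := by
  rw [Category.assoc, ιFin_igusaTo, ← Spec.map_comp, ← CommRingCat.ofHom_comp]
  congr 2

/-- **Scheme part of S28**: the base change of the Igusa scheme to `K` is integral as soon as
the two affine charts are domains after tensoring with `K` and the middle chart is nontrivial. -/
theorem isIntegral_pullback_of_isDomain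
    (hfin : IsDomain (chartAlgFin N ℓ ⊗[↥(GaloisRep.ratLocalizedAt ℓ)] K))
    (hinf : IsDomain (chartAlgInf N ℓ ⊗[↥(GaloisRep.ratLocalizedAt ℓ)] K))
    (hmid : Nontrivial (chartAlgMid N ℓ ⊗[↥(GaloisRep.ratLocalizedAt ℓ)] K)) :
    IsIntegral ↑(pullback (igusaTo N ℓ)
      (Spec.map (CommRingCat.ofHom (algebraMap ↥(GaloisRep.ratLocalizedAt ℓ) K)))) := by
  have : IsIntegral (Spec (CommRingCat.of (chartAlgFin N ℓ ⊗[↥(GaloisRep.ratLocalizedAt ℓ)] K))) :=
    (affine_isIntegral_iff _).mpr hfin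
  have : IsIntegral (Spec (CommRingCat.of (chartAlgInf N ℓ ⊗[↥(GaloisRep.ratLocalizedAt ℓ)] K))) :=
    (affine_isIntegral_iff _).mpr hinf
  refine isIntegral_of_openImmersions (chartMap K (ιFin N ℓ) (ιFin_igusaTo N ℓ))
    (chartMap K (ιInf N ℓ) (ιInf_igusaTo N ℓ)) ?_ ?_
  · intro y
    rw [range_chartMap, range_chartMap]
    exact mem_range_ιFin_or_mem_range_ιInf N ℓ _
  · obtain ⟨z⟩ : Nonempty (Spec (CommRingCat.of
        (chartAlgMid N ℓ ⊗[↥(GaloisRep.ratLocalizedAt ℓ)] K))) :=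
      inferInstanceAs (Nonempty (PrimeSpectrum
        (chartAlgMid N ℓ ⊗[↥(GaloisRep.ratLocalizedAt ℓ)] K)))
    refine ⟨(chartMap K (fFin N ℓ ≫ ιFin N ℓ) (fFin_ιFin_igusaTo N ℓ)).base z, ?_, ?_⟩
    · have hz : (chartMap K (fFin N ℓ ≫ ιFin N ℓ) (fFin_ιFin_igusaTo N ℓ)).base z ∈
          Set.range (chartMap K (fFin N ℓ ≫ ιFin N ℓ) (fFin_ιFin_igusaTo N ℓ)).base := ⟨z, rfl⟩
      rw [range_chartMap] at hz ⊢
      obtain ⟨w, hw⟩ := hz
      exact ⟨(fFin N ℓ).base w, by rw [← hw]; rfl⟩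
    · have hz : (chartMap K (fFin N ℓ ≫ ιFin N ℓ) (fFin_ιFin_igusaTo N ℓ)).base z ∈
          Set.range (chartMap K (fFin N ℓ ≫ ιFin N ℓ) (fFin_ιFin_igusaTo N ℓ)).base := ⟨z, rfl⟩
      rw [range_chartMap] at hz ⊢
      obtain ⟨w, hw⟩ := hz
      refine ⟨(fInf N ℓ).base w, ?_⟩
      rw [← hw, glue_condition]
      rfl

end Fermat.Agent.IgusaLib
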