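import Mathlib
import Fermat.Prelude.Def_ModularCurve_IgusaScheme
import Fermat.Agent.IgusaLib.Scheme

/-!
# S28 (Igusa), scheme part: the middle chart

`chartAlgMid ⊗ K` is nontrivial as soon as `chartAlgFin ⊗ K` is a domain in which `j ⊗ 1 ≠ 0`.
-/

set_option autoImplicit false
set_option linter.style.haveILetI false

noncomputable section

namespace Fermat.Agent.IgusaLib

open AlgebraicGeometry CategoryTheory CategoryTheory.Limits ModularCurve ModularCurve.IgusaScheme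
open scoped TensorProduct

variable (N : ℕ) [NeZero N] (ℓ : ℕ) [Fact ℓ.Prime]
variable (K : Type) [Field K] [Algebra ↥(GaloisRep.ratLocalizedAt ℓ) K]

set_option synthInstance.maxHeartbeats 400000 in
set_option maxHeartbeats 1000000 in
/-- The middle chart is nontrivial after base change, if `j ⊗ 1` is a nonzero element of the
domain `chartAlgFin ⊗ K`. -/
theorem nontrivial_mid_of_isDomain_fin
    (hfin : IsDomain (chartAlgFin N ℓ ⊗[↥(GaloisRep.ratLocalizedAt ℓ)] K))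
    (hj : (jChartFin N ℓ) ⊗ₜ[↥(GaloisRep.ratLocalizedAt ℓ)] (1 : K) ≠ 0) :
    Nontrivial (chartAlgMid N ℓ ⊗[↥(GaloisRep.ratLocalizedAt ℓ)] K) := by
  classical
  letI := (inclFin N ℓ).toRingHom.toAlgebra
  haveI := isLocalization_away_inclFin N ℓ
  haveI := hfin
  -- the map `chartAlgFin → Frac (chartAlgFin ⊗ K)`
  let φ : chartAlgFin N ℓ →+*
      FractionRing (chartAlgFin N ℓ ⊗[↥(GaloisRep.ratLocalizedAt ℓ)] K) :=
    (algebraMap (chartAlgFin N ℓ ⊗[↥(GaloisRep.ratLocalizedAt ℓ)] K)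
      (FractionRing (chartAlgFin N ℓ ⊗[↥(GaloisRep.ratLocalizedAt ℓ)] K))).comp
      (Algebra.TensorProduct.includeLeftRingHom :
        chartAlgFin N ℓ →+* chartAlgFin N ℓ ⊗[↥(GaloisRep.ratLocalizedAt ℓ)] K)
  have hφj : IsUnit (φ (jChartFin N ℓ)) := by
    refine IsUnit.mk0 _ fun h0 => hj ?_
    have : algebraMap (chartAlgFin N ℓ ⊗[↥(GaloisRep.ratLocalizedAt ℓ)] K)
        (FractionRing (chartAlgFin N ℓ ⊗[↥(GaloisRep.ratLocalizedAt ℓ)] K))
        ((jChartFin N ℓ) ⊗ₜ[↥(GaloisRep.ratLocalizedAt ℓ)] (1 : K)) = 0 := h0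
    exact (IsFractionRing.injective (chartAlgFin N ℓ ⊗[↥(GaloisRep.ratLocalizedAt ℓ)] K)
      (FractionRing (chartAlgFin N ℓ ⊗[↥(GaloisRep.ratLocalizedAt ℓ)] K)))
      (by rw [this, map_zero])
  let ψ : chartAlgMid N ℓ →+*
      FractionRing (chartAlgFin N ℓ ⊗[↥(GaloisRep.ratLocalizedAt ℓ)] K) :=
    IsLocalization.Away.lift (jChartFin N ℓ) hφj
  have hψ : ∀ x : chartAlgFin N ℓ, ψ (inclFin N ℓ x) = φ x := fun x =>
    IsLocalization.Away.lift_eq (jChartFin N ℓ) hφj x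
  -- as an algebra hom
  let ψA : chartAlgMid N ℓ →ₐ[↥(GaloisRep.ratLocalizedAt ℓ)]
      FractionRing (chartAlgFin N ℓ ⊗[↥(GaloisRep.ratLocalizedAt ℓ)] K) :=
    { ψ with
      commutes' := fun r => by
        have h1 : algebraMap ↥(GaloisRep.ratLocalizedAt ℓ) (chartAlgMid N ℓ) r =
            inclFin N ℓ (algebraMap ↥(GaloisRep.ratLocalizedAt ℓ) (chartAlgFin N ℓ) r) :=
          ((inclFin N ℓ).commutes r).symm
        show ψ (algebraMap ↥(GaloisRep.ratLocalizedAt ℓ) (chartAlgMid N ℓ) r) = _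
        rw [h1, hψ]
        show algebraMap (chartAlgFin N ℓ ⊗[↥(GaloisRep.ratLocalizedAt ℓ)] K)
          (FractionRing (chartAlgFin N ℓ ⊗[↥(GaloisRep.ratLocalizedAt ℓ)] K))
          (Algebra.TensorProduct.includeLeftRingHom
            (algebraMap ↥(GaloisRep.ratLocalizedAt ℓ) (chartAlgFin N ℓ) r)) = _
        rw [IsScalarTower.algebraMap_apply ↥(GaloisRep.ratLocalizedAt ℓ)
          (chartAlgFin N ℓ ⊗[↥(GaloisRep.ratLocalizedAt ℓ)] K)
          (FractionRing (chartAlgFin N ℓ ⊗[↥(GaloisRep.ratLocalizedAt ℓ)] K))]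
        rfl }
  let κ : K →ₐ[↥(GaloisRep.ratLocalizedAt ℓ)]
      FractionRing (chartAlgFin N ℓ ⊗[↥(GaloisRep.ratLocalizedAt ℓ)] K) :=
    (IsScalarTower.toAlgHom ↥(GaloisRep.ratLocalizedAt ℓ)
      (chartAlgFin N ℓ ⊗[↥(GaloisRep.ratLocalizedAt ℓ)] K)
      (FractionRing (chartAlgFin N ℓ ⊗[↥(GaloisRep.ratLocalizedAt ℓ)] K))).comp
      (Algebra.TensorProduct.includeRight :
        K →ₐ[↥(GaloisRep.ratLocalizedAt ℓ)] chartAlgFin N ℓ ⊗[↥(GaloisRep.ratLocalizedAt ℓ)] K)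
  exact (Algebra.TensorProduct.productMap ψA κ).toRingHom.domain_nontrivial

/-- **Scheme part of S28**, second form: no hypothesis on the middle chart. -/
theorem isIntegral_pullback_of_isDomain'
    (hfin : IsDomain (chartAlgFin N ℓ ⊗[↥(GaloisRep.ratLocalizedAt ℓ)] K))
    (hinf : IsDomain (chartAlgInf N ℓ ⊗[↥(GaloisRep.ratLocalizedAt ℓ)] K))
    (hj : (jChartFin N ℓ) ⊗ₜ[↥(GaloisRep.ratLocalizedAt ℓ)] (1 : K) ≠ 0) :
    IsIntegral ↑(pullback (igusaTo N ℓ)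
      (Spec.map (CommRingCat.ofHom (algebraMap ↥(GaloisRep.ratLocalizedAt ℓ) K)))) :=
  isIntegral_pullback_of_isDomain N ℓ K hfin hinf (nontrivial_mid_of_isDomain_fin N ℓ K hfin hj)

end Fermat.Agent.IgusaLib
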