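import Mathlib
import Fermat.Prelude.Def_GaloisRep_Flat
import Fermat.Prelude.Def_ModularCurve_LaurentCoeff
import Fermat.Agent.GenusLib.FormalLD

/-!
# S28 (Igusa), step (2): base change of a `ℤ_(ℓ)`-algebra with a good reduction map

`Zl = GaloisRep.ratLocalizedAt ℓ` (the localisation of `ℤ` at `ℓ`, as a subring of `ℚ`).

* `ratLocalizedAt_ringHom_ext` : two ring homomorphisms out of `Zl` are equal;
* `tensorToLaurent ρ` : for a ring homomorphism `ρ : A →+* LaurentSeries (ZMod ℓ)` and a field `K`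
  of characteristic `ℓ`, the algebra map `A ⊗[Zl] K →ₐ[Zl] LaurentSeries K`,
  `a ⊗ c ↦ (ρ a with coefficients in K) * c`;
* `tensorToLaurent_injective` : it is injective as soon as `ker ρ ⊆ ℓ A`;
* `isDomain_tensor_of_ker` : then `A ⊗[Zl] K` is a domain;
* `nontrivial_tensor_of_ringHom` : `A ⊗[Zl] K` is nontrivial as soon as some `ρ` exists.
-/

set_option autoImplicit false

noncomputable section

namespace Fermat.Agent.IgusaLib

open TensorProduct ModularCurve

/-- Two ring homomorphisms out of `ℤ_(ℓ)` are equal. -/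
theorem ratLocalizedAt_ringHom_ext (ℓ : ℕ) {S : Type*} [Ring S]
    (f g : ↥(GaloisRep.ratLocalizedAt ℓ) →+* S) : f = g := by
  ext ⟨q, hq⟩
  have hq' : q.den.Coprime ℓ := hq
  have hden0 : (q.den : ℚ) ≠ 0 := Nat.cast_ne_zero.mpr q.den_nz
  -- the denominator and its inverse, as elements of `ℤ_(ℓ)`
  let d : ↥(GaloisRep.ratLocalizedAt ℓ) := (q.den : ℕ)
  have hdinv : ((q.den : ℚ)⁻¹) ∈ GaloisRep.ratLocalizedAt ℓ := by
    show ((q.den : ℚ)⁻¹).den.Coprime ℓ
    have h1 : ((q.den : ℚ)⁻¹).den = q.den := by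
      have := Rat.inv_natCast_den_of_pos (Nat.pos_of_ne_zero q.den_nz)
      exact this
    rw [h1]
    exact hq'
  let dinv : ↥(GaloisRep.ratLocalizedAt ℓ) := ⟨(q.den : ℚ)⁻¹, hdinv⟩
  let n : ↥(GaloisRep.ratLocalizedAt ℓ) := (q.num : ℤ)
  have h1 : d * dinv = 1 := by
    apply Subtype.ext
    show ((q.den : ℕ) : ℚ) * (q.den : ℚ)⁻¹ = 1
    exact mul_inv_cancel₀ hden0
  have h2 : (⟨q, hq⟩ : ↥(GaloisRep.ratLocalizedAt ℓ)) = n * dinv := by
    apply Subtype.ext
    show q = ((q.num : ℤ) : ℚ) * (q.den : ℚ)⁻¹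
    rw [← div_eq_mul_inv, Rat.num_div_den]
  have hfd : f d = g d := by rw [map_natCast, map_natCast]
  have hfn : f n = g n := by rw [map_intCast, map_intCast]
  have hinv : f dinv = g dinv := by
    calc f dinv = (g dinv * g d) * f dinv := by
            rw [← map_mul, mul_comm dinv d, h1, map_one, one_mul]
      _ = g dinv * (f d * f dinv) := by rw [mul_assoc, hfd]
      _ = g dinv := by rw [← map_mul, h1, map_one, mul_one]
  rw [h2, map_mul, map_mul, hfn, hinv]

variable (ℓ : ℕ) [Fact ℓ.Prime]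

set_option quotPrecheck false in
local notation "Zl" => ↥(GaloisRep.ratLocalizedAt ℓ)

variable {A : Type*} [CommRing A] [Algebra ↥(GaloisRep.ratLocalizedAt ℓ) A]
variable (K : Type*) [Field K] [CharP K ℓ] [Algebra ↥(GaloisRep.ratLocalizedAt ℓ) K]

/-- The coefficient embedding `ZMod ℓ →+* K`. -/
def zmodToField : ZMod ℓ →+* K := ZMod.castHom (dvd_refl ℓ) K

/-- The comparison map `A ⊗[Zl] K → K((q))`, `a ⊗ c ↦ c * (ρ a with coefficients in K)`. -/
def tensorToLaurent (ρ : A →+* LaurentSeries (ZMod ℓ)) : A ⊗[Zl] K →+* LaurentSeries K :=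
  letI alg : Algebra Zl (LaurentSeries K) := HahnSeries.instAlgebra
  let ψ₁ : A →ₐ[Zl] LaurentSeries K :=
    { (coeffMap (zmodToField ℓ K)).comp ρ with
      commutes' := fun r => by
        have h := ratLocalizedAt_ringHom_ext ℓ
          (((coeffMap (zmodToField ℓ K)).comp ρ).comp (algebraMap Zl A))
          (algebraMap Zl (LaurentSeries K))
        exact RingHom.congr_fun h r }
  let ψ₂ : K →ₐ[Zl] LaurentSeries K :=
    { (HahnSeries.C : K →+* LaurentSeries K) with
      commutes' := fun _ => rfl }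
  (Algebra.TensorProduct.lift ψ₁ ψ₂ (fun _ _ => Commute.all _ _)).toRingHom

theorem tensorToLaurent_tmul (ρ : A →+* LaurentSeries (ZMod ℓ)) (a : A) (c : K) :
    tensorToLaurent ℓ K ρ (a ⊗ₜ[Zl] c) =
      HahnSeries.C c * coeffMap (zmodToField ℓ K) (ρ a) := by
  rw [mul_comm]
  let alg : Algebra Zl (LaurentSeries K) := HahnSeries.instAlgebra
  exact Algebra.TensorProduct.lift_tmul _ _ _ a c

/-- `A ⊗[Zl] K` is not the zero ring. -/
theorem nontrivial_tensor_of_ringHom (ρ : A →+* LaurentSeries (ZMod ℓ)) :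
    Nontrivial (A ⊗[Zl] K) := by
  refine ⟨⟨0, 1, fun h => ?_⟩⟩
  have h1 := congrArg (tensorToLaurent ℓ K ρ) h
  rw [map_zero, map_one] at h1
  exact zero_ne_one h1

variable {K}

omit [Fact ℓ.Prime] [CharP K ℓ] in
/-- moving a natural number across the tensor product -/
theorem natCast_mul_tmul (n : ℕ) (a : A) (c : K) :
    ((n : A) * a) ⊗ₜ[Zl] c = a ⊗ₜ[Zl] ((n : K) * c) := by
  have h := TensorProduct.smul_tmul (R := Zl) (R' := ℤ) (n : ℤ) a c
  rw [zsmul_eq_mul, zsmul_eq_mul] at h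
  simpa using h

/-- Every tensor is a finite sum `∑ b_j ⊗ e_j` along a `ZMod ℓ`-basis `e` of `K`. -/
theorem exists_repr_basis {κ : Type*}
    (e : @Module.Basis κ (ZMod ℓ) K _ _ (ZMod.algebra K ℓ).toModule) (t : A ⊗[Zl] K) :
    ∃ (s : Finset κ) (b : κ → A), t = ∑ j ∈ s, b j ⊗ₜ[Zl] e j := by
  classical
  let _ : Algebra (ZMod ℓ) K := ZMod.algebra K ℓ
  induction t using TensorProduct.induction_on with
  | zero => exact ⟨∅, 0, by simp⟩
  | tmul a c =>
    refine ⟨(e.repr c).support, fun j => (((e.repr c j).val : ℕ) : A) * a, ?_⟩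
    have hc : c = ∑ j ∈ (e.repr c).support, (((e.repr c j).val : ℕ) : K) * e j := by
      conv_lhs => rw [← e.linearCombination_repr c, Finsupp.linearCombination_apply, Finsupp.sum]
      refine Finset.sum_congr rfl fun j _ => ?_
      rw [Algebra.smul_def]
      congr 1
      show ZMod.cast (e.repr c j) = (((e.repr c j).val : ℕ) : K)
      rw [ZMod.natCast_val]
    conv_lhs => rw [hc, TensorProduct.tmul_sum]
    refine Finset.sum_congr rfl fun j _ => ?_
    rw [natCast_mul_tmul]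
  | add t₁ t₂ h₁ h₂ =>
    obtain ⟨s₁, b₁, rfl⟩ := h₁
    obtain ⟨s₂, b₂, rfl⟩ := h₂
    refine ⟨s₁ ∪ s₂, fun j => (if j ∈ s₁ then b₁ j else 0) + (if j ∈ s₂ then b₂ j else 0), ?_⟩
    simp only [TensorProduct.add_tmul, Finset.sum_add_distrib]
    congr 1
    · rw [← Finset.sum_subset Finset.subset_union_left]
      · exact Finset.sum_congr rfl fun j hj => by rw [if_pos hj]
      · intro j _ hj
        rw [if_neg hj, TensorProduct.zero_tmul]
    · rw [← Finset.sum_subset Finset.subset_union_right]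
      · exact Finset.sum_congr rfl fun j hj => by rw [if_pos hj]
      · intro j _ hj
        rw [if_neg hj, TensorProduct.zero_tmul]

/-- The comparison map is injective when `ker ρ ⊆ ℓ A`. -/
theorem tensorToLaurent_injective (ρ : A →+* LaurentSeries (ZMod ℓ))
    (hker : ∀ a : A, ρ a = 0 → ∃ b : A, a = (ℓ : A) * b) :
    Function.Injective (tensorToLaurent ℓ K ρ) := by
  classical
  let _ : Algebra (ZMod ℓ) K := ZMod.algebra K ℓ
  rw [injective_iff_map_eq_zero]
  intro t ht
  let e := Module.Basis.ofVectorSpace (ZMod ℓ) K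
  obtain ⟨s, b, rfl⟩ := exists_repr_basis ℓ e t
  rw [map_sum] at ht
  simp only [tensorToLaurent_tmul] at ht
  have hli : ∀ a : (Module.Basis.ofVectorSpaceIndex (ZMod ℓ) K) → ZMod ℓ,
      ∑ k ∈ s, zmodToField ℓ K (a k) * e k = 0 → ∀ k ∈ s, a k = 0 := by
    intro a ha
    have hlin := e.linearIndependent
    rw [linearIndependent_iff'] at hlin
    refine hlin s a ?_
    rw [← ha]
    exact Finset.sum_congr rfl fun k _ => Algebra.smul_def _ _
  have hz := GenusLib.FormalLD.coeffMap_eq_zero_of_linearIndependent (zmodToField ℓ K) s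
    (fun k => e k) hli (fun k => ρ (b k)) ht
  refine Finset.sum_eq_zero fun j hj => ?_
  obtain ⟨b', hb'⟩ := hker (b j) (hz j hj)
  rw [hb', natCast_mul_tmul, CharP.cast_eq_zero K ℓ, zero_mul, TensorProduct.tmul_zero]

/-- **Step (2).** If `ρ : A →+* 𝔽_ℓ((q))` has kernel contained in `ℓ A`, then `A ⊗[Zl] K` is a
domain for every field `K` of characteristic `ℓ`. -/
theorem isDomain_tensor_of_ker (ρ : A →+* LaurentSeries (ZMod ℓ))
    (hker : ∀ a : A, ρ a = 0 → ∃ b : A, a = (ℓ : A) * b) :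
    IsDomain (A ⊗[Zl] K) :=
  (tensorToLaurent_injective ℓ ρ hker).isDomain (tensorToLaurent ℓ K ρ)

end Fermat.Agent.IgusaLib
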