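import Fermat.Agent.IgusaLib.Defs
import Fermat.Agent.IgusaLib.Tensor

/-!
# The tensor seam of S28 in the common vocabulary

`isDomain_tensor` / `nontrivial_tensor`: restatements of `isDomain_tensor_of_ker` /
`nontrivial_tensor_of_ringHom` with `Zl ℓ` and `redZl ℓ` from `Defs.lean`.
-/

set_option autoImplicit false

namespace Fermat.Agent.IgusaLib

/-- If `ρ : R → 𝔽_ℓ((q))` is a ring homomorphism from a `ℤ_(ℓ)`-algebra whose kernel is
contained in `ℓ R`, then `R ⊗ K` is a domain for every field `K` of characteristic `ℓ`.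
(The compatibility `hρ` with the reduction map is automatic and is not used.) -/
theorem isDomain_tensor (l : ℕ) [Fact l.Prime] (K : Type) [Field K] [CharP K l]
    [Algebra (Zl l) K] (R : Type) [CommRing R] [Algebra (Zl l) R]
    (ρ : R →+* LaurentSeries (ZMod l))
    (_hρ : ∀ a : Zl l, ρ (algebraMap (Zl l) R a) = HahnSeries.C (redZl l a))
    (hker : ∀ x, ρ x = 0 → ∃ y, x = (l : R) * y) :
    IsDomain (TensorProduct (Zl l) R K) :=
  isDomain_tensor_of_ker l ρ hker

/-- Variant of `isDomain_tensor` without the (unused) compatibility hypothesis. -/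
theorem isDomain_tensor' (l : ℕ) [Fact l.Prime] (K : Type) [Field K] [CharP K l]
    [Algebra (Zl l) K] (R : Type) [CommRing R] [Algebra (Zl l) R]
    (ρ : R →+* LaurentSeries (ZMod l))
    (hker : ∀ x, ρ x = 0 → ∃ y, x = (l : R) * y) :
    IsDomain (TensorProduct (Zl l) R K) :=
  isDomain_tensor_of_ker l ρ hker

/-- If a `ℤ_(ℓ)`-algebra `R` admits a ring homomorphism to `𝔽_ℓ((q))`, then `R ⊗ K` is
nontrivial for every field `K` of characteristic `ℓ`. -/
theorem nontrivial_tensor (l : ℕ) [Fact l.Prime] (K : Type) [Field K] [CharP K l]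
    [Algebra (Zl l) K] (R : Type) [CommRing R] [Algebra (Zl l) R]
    (ρ : R →+* LaurentSeries (ZMod l))
    (_hρ : ∀ a : Zl l, ρ (algebraMap (Zl l) R a) = HahnSeries.C (redZl l a)) :
    Nontrivial (TensorProduct (Zl l) R K) :=
  nontrivial_tensor_of_ringHom l K ρ

/-- Variant of `nontrivial_tensor` without the (unused) compatibility hypothesis. -/
theorem nontrivial_tensor' (l : ℕ) [Fact l.Prime] (K : Type) [Field K] [CharP K l]
    [Algebra (Zl l) K] (R : Type) [CommRing R] [Algebra (Zl l) R]
    (ρ : R →+* LaurentSeries (ZMod l)) :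
    Nontrivial (TensorProduct (Zl l) R K) :=
  nontrivial_tensor_of_ringHom l K ρ

end Fermat.Agent.IgusaLib
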