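import Mathlib
import Fermat.Agent.IgusaLib.Defs
import Fermat.Agent.IgusaLib.Gauss
import Fermat.Prelude.Def_ModularCurve_X0ModL

/-!
# S28 (Igusa): the `l`-adic valuation on the function field and integral closedness of the
Gauss ring

* `exists_pow_mul_of_mem_Oint` : a nonzero element of the Gauss ring is `l ^ n * u` with `rho u ≠ 0`;
* `KO l` : the subfield `Oint l [1 / l]` of `ℚ((q))`; it contains the function fields;
* `exists_eq_pow_mul` : nonzero elements of the function field are `l ^ n * u`, `n : ℤ`;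
* `mem_Oint_of_isIntegral_of_le` : the Gauss ring is integrally closed in `KO l`;
* `Ov l`, `mem_Ov_of_isIntegral`, `mem_Oint_of_isIntegral`, `chart_le_Oint`.
-/

set_option autoImplicit false
set_option linter.unusedSectionVars false
set_option linter.unusedVariables false

noncomputable section

namespace Fermat.Agent.IgusaLib

open ModularCurve ModularCurve.IgusaScheme

section basic

variable (l : ℕ) [Fact l.Prime]

/-! ### Divisibility by powers of `l` in `ℤ_(l)` and in `ℤ_(l)((q))` -/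

/-- The `l`-adic valuation of an element of `ℤ_(l)` is nonnegative. -/
theorem padicValRat_zl_nonneg (s : Zl l) : 0 ≤ padicValRat l (s : ℚ) := by
  have h : (s : ℚ).den.Coprime l := s.2
  have h2 : padicValNat l (s : ℚ).den = 0 := by
    apply padicValNat.eq_zero_of_not_dvd
    intro hdvd
    have h1 : l ∣ Nat.gcd (s : ℚ).den l := Nat.dvd_gcd hdvd dvd_rfl
    rw [Nat.Coprime] at h
    rw [h] at h1
    exact (Fact.out : l.Prime).one_lt.ne' (Nat.dvd_one.mp h1)
  unfold padicValRat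
  rw [h2]
  simp

/-- A nonzero element of `ℤ_(l)` is not divisible by arbitrarily large powers of `l`. -/
theorem zl_pow_dvd_bound (r : Zl l) (hr : r ≠ 0) (n : ℕ) (s : Zl l)
    (h : r = (l : Zl l) ^ n * s) : (n : ℤ) ≤ padicValRat l (r : ℚ) := by
  have hs : (s : ℚ) ≠ 0 := by
    intro h0
    apply hr
    have : s = 0 := Subtype.ext h0
    rw [h, this, mul_zero]
  have hl0 : ((l : ℕ) : ℚ) ≠ 0 := Nat.cast_ne_zero.mpr (Fact.out : l.Prime).ne_zero
  have e : (r : ℚ) = ((l : ℕ) : ℚ) ^ n * (s : ℚ) := by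
    rw [h]; rfl
  rw [e, padicValRat.mul (pow_ne_zero n hl0) hs, padicValRat.pow,
    padicValRat.self (Fact.out : l.Prime).one_lt, mul_one]
  have := padicValRat_zl_nonneg l s
  omega

theorem natCast_laurentZl_mul_coeff (n : ℕ) (c : LaurentSeries (Zl l)) (m : ℤ) :
    (((l : ℕ) : LaurentSeries (Zl l)) ^ n * c).coeff m = (l : Zl l) ^ n * c.coeff m := by
  have : (((l : ℕ) : LaurentSeries (Zl l)) ^ n) = HahnSeries.C ((l : Zl l) ^ n) := by
    rw [map_pow, map_natCast]
  rw [this, HahnSeries.C_mul_eq_smul, HahnSeries.coeff_smul, smul_eq_mul]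

/-- A nonzero Laurent series over `ℤ_(l)` has finite `l`-multiplicity. -/
theorem finiteMultiplicity_laurentZl (a : LaurentSeries (Zl l)) (ha : a ≠ 0) :
    FiniteMultiplicity ((l : ℕ) : LaurentSeries (Zl l)) a := by
  obtain ⟨m, hm⟩ : ∃ m, a.coeff m ≠ 0 := by
    by_contra hcon
    apply ha
    ext m
    by_contra hm
    exact hcon ⟨m, fun h0 => hm (by rw [h0]; rfl)⟩
  refine ⟨(padicValRat l ((a.coeff m : Zl l) : ℚ)).toNat, ?_⟩
  rintro ⟨c, hc⟩
  have h1 := congrArg (fun z => z.coeff m) hc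
  simp only [natCast_laurentZl_mul_coeff] at h1
  have h2 := zl_pow_dvd_bound l (a.coeff m) hm _ _ h1
  push_cast at h2
  omega

/-! ### The valuation on the Gauss ring -/

/-- A nonzero element of the Gauss ring is a power of `l` times an element with nonzero
reduction. -/
theorem exists_pow_mul_of_mem_Oint {x : LaurentSeries ℚ} (hx : x ∈ Oint l) (hx0 : x ≠ 0) :
    ∃ (n : ℕ) (u : Oint l), rho l u ≠ 0 ∧ x = ((l : ℕ) : LaurentSeries ℚ) ^ n * (u : LaurentSeries ℚ) := by
  obtain ⟨a, b, hb, h⟩ := hx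
  have hb0 : inclZ l b ≠ 0 := by
    intro h0
    apply hb
    have : b = 0 := inclZ_injective l (by rw [h0, map_zero])
    rw [this, map_zero]
  have ha0 : a ≠ 0 := by
    rintro rfl
    rw [map_zero] at h
    exact hx0 ((mul_eq_zero.mp h).resolve_right hb0)
  obtain ⟨a', ha'eq, hna'⟩ :=
    (finiteMultiplicity_laurentZl l a ha0).exists_eq_pow_mul_and_not_dvd
  set n := multiplicity ((l : ℕ) : LaurentSeries (Zl l)) a with hn
  have ha' : redZ l a' ≠ 0 := by
    intro h0
    obtain ⟨a'', rfl⟩ := exists_eq_mul_of_redZ_eq_zero l a' h0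
    exact hna' (dvd_mul_right _ _)
  have hu : inclZ l a' / inclZ l b ∈ Oint l :=
    mem_Oint_of_eq l hb (div_mul_cancel₀ _ hb0)
  refine ⟨n, ⟨_, hu⟩, ?_, ?_⟩
  · rw [rho_mk l hb (div_mul_cancel₀ _ hb0) hu]
    exact div_ne_zero ha' hb
  · rw [ha'eq, map_mul, map_pow, map_natCast] at h
    show x = ((l : ℕ) : LaurentSeries ℚ) ^ n * (inclZ l a' / inclZ l b)
    rw [← mul_div_assoc, ← h, mul_div_cancel_right₀ _ hb0]

/-! ### The field `Oint l [1 / l]` -/

/-- The subfield `Oint l [1 / l]` of `ℚ((q))`. -/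
def KO : Subfield (LaurentSeries ℚ) where
  carrier := {x | ∃ n : ℕ, ((l : ℕ) : LaurentSeries ℚ) ^ n * x ∈ Oint l}
  mul_mem' := by
    rintro x y ⟨n, hn⟩ ⟨m, hm⟩
    refine ⟨n + m, ?_⟩
    have : ((l : ℕ) : LaurentSeries ℚ) ^ (n + m) * (x * y) =
        (((l : ℕ) : LaurentSeries ℚ) ^ n * x) * (((l : ℕ) : LaurentSeries ℚ) ^ m * y) := by ring
    rw [this]
    exact mul_mem hn hm
  one_mem' := ⟨0, by rw [pow_zero, one_mul]; exact one_mem _⟩
  add_mem' := by
    rintro x y ⟨n, hn⟩ ⟨m, hm⟩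
    refine ⟨n + m, ?_⟩
    have : ((l : ℕ) : LaurentSeries ℚ) ^ (n + m) * (x + y) =
        ((l : ℕ) : LaurentSeries ℚ) ^ m * (((l : ℕ) : LaurentSeries ℚ) ^ n * x) +
          ((l : ℕ) : LaurentSeries ℚ) ^ n * (((l : ℕ) : LaurentSeries ℚ) ^ m * y) := by ring
    rw [this]
    exact add_mem (mul_mem (pow_mem (natCast_mem _ l) m) hn)
      (mul_mem (pow_mem (natCast_mem _ l) n) hm)
  zero_mem' := ⟨0, by rw [mul_zero]; exact zero_mem _⟩
  neg_mem' := by
    rintro x ⟨n, hn⟩
    exact ⟨n, by rw [mul_neg]; exact neg_mem hn⟩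
  inv_mem' := by
    rintro x ⟨n, hn⟩
    by_cases hx0 : x = 0
    · exact ⟨0, by rw [hx0, inv_zero, mul_zero]; exact zero_mem _⟩
    have hl0 : ((l : ℕ) : LaurentSeries ℚ) ≠ 0 := natCast_laurent_ne_zero l
    obtain ⟨k, u, hu, hk⟩ := exists_pow_mul_of_mem_Oint l hn (mul_ne_zero (pow_ne_zero n hl0) hx0)
    refine ⟨k, ?_⟩
    have hu0 : (u : LaurentSeries ℚ) ≠ 0 := by
      intro h0
      apply hu
      have : u = 0 := Subtype.ext h0
      rw [this, map_zero]
    have : ((l : ℕ) : LaurentSeries ℚ) ^ k * x⁻¹ =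
        ((l : ℕ) : LaurentSeries ℚ) ^ n * (u : LaurentSeries ℚ)⁻¹ := by
      have hx : x = ((l : ℕ) : LaurentSeries ℚ) ^ k * (u : LaurentSeries ℚ) /
          ((l : ℕ) : LaurentSeries ℚ) ^ n := by
        rw [← hk, mul_div_cancel_left₀ _ (pow_ne_zero n hl0)]
      rw [hx]
      field_simp
    rw [this]
    exact mul_mem (pow_mem (natCast_mem _ l) n) (inv_mem_Oint l u hu)

theorem mem_KO_iff {x : LaurentSeries ℚ} :
    x ∈ KO l ↔ ∃ n : ℕ, ((l : ℕ) : LaurentSeries ℚ) ^ n * x ∈ Oint l := Iff.rfl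

theorem Oint_le_KO {x : LaurentSeries ℚ} (hx : x ∈ Oint l) : x ∈ KO l :=
  ⟨0, by rw [pow_zero, one_mul]; exact hx⟩

/-- Nonzero elements of `Oint l [1 / l]` are `l ^ n * u` with `rho u ≠ 0`. -/
theorem exists_eq_zpow_mul_of_mem_KO {x : LaurentSeries ℚ} (hx : x ∈ KO l) (hx0 : x ≠ 0) :
    ∃ (n : ℤ) (u : Oint l), rho l u ≠ 0 ∧
      x = ((l : ℕ) : LaurentSeries ℚ) ^ n * (u : LaurentSeries ℚ) := by
  obtain ⟨n, hn⟩ := hx
  have hl0 : ((l : ℕ) : LaurentSeries ℚ) ≠ 0 := natCast_laurent_ne_zero l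
  obtain ⟨k, u, hu, hk⟩ := exists_pow_mul_of_mem_Oint l hn (mul_ne_zero (pow_ne_zero n hl0) hx0)
  refine ⟨(k : ℤ) - n, u, hu, ?_⟩
  rw [zpow_sub₀ hl0, zpow_natCast, zpow_natCast, div_mul_eq_mul_div, ← hk,
    mul_div_cancel_left₀ _ (pow_ne_zero n hl0)]

/-- **The Gauss ring is integrally closed in `Oint l [1 / l]`.** -/
theorem mem_Oint_of_isIntegral_of_le (R : Subring (LaurentSeries ℚ)) (hR : R ≤ Oint l)
    {x : LaurentSeries ℚ} (hx : x ∈ KO l) (hint : IsIntegral ↥R x) : x ∈ Oint l := by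
  by_cases hx0 : x = 0
  · rw [hx0]; exact zero_mem _
  obtain ⟨n, u, hu, hxu⟩ := exists_eq_zpow_mul_of_mem_KO l hx hx0
  have hl0 : ((l : ℕ) : LaurentSeries ℚ) ≠ 0 := natCast_laurent_ne_zero l
  rcases le_or_gt 0 n with hn | hn
  · lift n to ℕ using hn
    rw [hxu, zpow_natCast]
    exact mul_mem (pow_mem (natCast_mem _ l) n) u.2
  · exfalso
    apply hu
    obtain ⟨m, rfl⟩ : ∃ m : ℕ, n = -((m : ℤ) + 1) := ⟨(-n - 1).toNat, by omega⟩
    -- `u = l ^ (m + 1) * x`
    have hux : (u : LaurentSeries ℚ) = ((l : ℕ) : LaurentSeries ℚ) ^ (m + 1) * x := by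
      rw [hxu, zpow_neg, ← Nat.cast_succ, zpow_natCast, ← mul_assoc,
        mul_inv_cancel₀ (pow_ne_zero _ hl0), one_mul]
    obtain ⟨f, hf, hfx⟩ := hint
    -- the polynomial over the Gauss ring
    set f' : Polynomial ↥(Oint l) := f.map (Subring.inclusion hR) with hf'
    have hf'm : f'.Monic := hf.map _
    have hf'x : Polynomial.eval₂ (Oint l).subtype x f' = 0 := by
      rw [hf', Polynomial.eval₂_map]
      exact hfx
    set g : Polynomial ↥(Oint l) := Polynomial.scaleRoots f' ((l : Oint l) ^ (m + 1)) with hg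
    have hgu : Polynomial.eval₂ (Oint l).subtype (u : LaurentSeries ℚ) g = 0 := by
      have := Polynomial.scaleRoots_eval₂_eq_zero (Oint l).subtype (s := (l : Oint l) ^ (m + 1))
        hf'x
      rw [hux]
      simpa using this
    have hgu' : Polynomial.eval u g = 0 := by
      apply Subtype.val_injective
      have := Polynomial.eval₂_at_apply (p := g) (Oint l).subtype u
      rw [Subring.coe_zero]
      exact this.symm.trans hgu
    have hρ : Polynomial.eval₂ (rho l) (rho l u) g = 0 := by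
      rw [Polynomial.eval₂_at_apply, hgu', map_zero]
    rw [Polynomial.eval₂_eq_sum_range, Finset.sum_range_succ, Finset.sum_eq_zero, zero_add] at hρ
    · have hd : g.natDegree = f'.natDegree := Polynomial.natDegree_scaleRoots _ _
      have hc : g.coeff g.natDegree = 1 := by
        rw [hg, Polynomial.coeff_scaleRoots, hd, Nat.sub_self, pow_zero, mul_one]
        exact hf'm
      rw [hc, map_one, one_mul] at hρ
      exact eq_zero_of_pow_eq_zero hρ
    · intro i hi
      have hi' : i < f'.natDegree := by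
        have := Finset.mem_range.mp hi
        rwa [Polynomial.natDegree_scaleRoots] at this
      have : rho l (g.coeff i) = 0 := by
        rw [hg, Polynomial.coeff_scaleRoots, map_mul, map_pow, map_pow, rho_natCast_self,
          zero_pow (by omega), zero_pow (by omega), mul_zero]
      rw [this, zero_mul]

/-! ### The function fields lie in `Oint l [1 / l]` -/

theorem jq_eq_inclZ : jq = inclZ l (jqModC (Zl l)) := by
  rw [coeffMap_jqModC]
  rfl

theorem jq_mem_Oint : jq ∈ Oint l := by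
  rw [jq_eq_inclZ l]
  exact coeffMap_mem_Oint l _

/-- The reduction of `j` is the `j`-series modulo `l`. -/
theorem rho_jq (h : jq ∈ Oint l) : rho l ⟨jq, h⟩ = jqModC (ZMod l) := by
  have h3 : (⟨jq, h⟩ : Oint l) = ⟨inclZ l (jqModC (Zl l)), coeffMap_mem_Oint l _⟩ :=
    Subtype.ext (jq_eq_inclZ l)
  rw [h3, rho_coeffMap, coeffMap_jqModC]

theorem rho_jq_ne_zero (h : jq ∈ Oint l) : rho l ⟨jq, h⟩ ≠ 0 := by
  rw [rho_jq]
  exact jqModC_ne_zero_of_nontrivial (ZMod l)

theorem jq_inv_mem_Oint : jq⁻¹ ∈ Oint l :=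
  inv_mem_Oint l ⟨jq, jq_mem_Oint l⟩ (rho_jq_ne_zero l _)

theorem qExpand_jq_mem_Oint (d : ℕ) [NeZero d] : qExpand ℚ d jq ∈ Oint l := by
  rw [jq_eq_inclZ l, ← coeffMap_qExpand]
  exact coeffMap_mem_Oint l _

theorem algebraMap_rat_mem_KO (r : ℚ) : algebraMap ℚ (LaurentSeries ℚ) r ∈ KO l := by
  rw [eq_ratCast]
  exact SubfieldClass.ratCast_mem (KO l) r

/-- The function field of full level `N` lies in `Oint l [1 / l]`. -/
theorem full_le_KO (N : ℕ) [NeZero N] {x : LaurentSeries ℚ} (hx : x ∈ modularFunctionFieldFull N) :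
    x ∈ KO l := by
  have h : modularFunctionFieldFull N ≤ (KO l).toIntermediateField (algebraMap_rat_mem_KO l) := by
    rw [modularFunctionFieldFull, IntermediateField.adjoin_le_iff]
    rintro y ⟨d, hd, -, rfl⟩
    exact Oint_le_KO l (qExpand_jq_mem_Oint l d)
  exact h hx

theorem adjoin_jq_le_KO {x : LaurentSeries ℚ} (hx : x ∈ IntermediateField.adjoin ℚ {jq}) :
    x ∈ KO l := by
  have h : IntermediateField.adjoin ℚ {jq} ≤
      (KO l).toIntermediateField (algebraMap_rat_mem_KO l) := by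
    rw [IntermediateField.adjoin_le_iff]
    rintro y rfl
    exact Oint_le_KO l (jq_mem_Oint l)
  exact h hx

end basic

/-! ### The exported seams -/

section seams

variable (N : ℕ) [NeZero N] (l : ℕ) [Fact l.Prime]

/-- **(VAL)**, unconditional form. -/
theorem exists_eq_pow_mul' {x : LaurentSeries ℚ} (hx : x ∈ modularFunctionFieldFull N)
    (hx0 : x ≠ 0) : ∃ (n : ℤ) (u : Oint l), rho l u ≠ 0 ∧
      x = (l : LaurentSeries ℚ) ^ n * (u : LaurentSeries ℚ) :=
  exists_eq_zpow_mul_of_mem_KO l (full_le_KO l N hx) hx0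

/-- **(VAL)**: a nonzero element of the function field is `l ^ n * u` with `u` in the Gauss ring
and `rho u ≠ 0`. -/
theorem exists_eq_pow_mul (hlN : ¬ l ∣ N) {x : LaurentSeries ℚ}
    (hx : x ∈ modularFunctionFieldFull N) (hx0 : x ≠ 0) :
    ∃ (n : ℤ) (u : Oint l), rho l u ≠ 0 ∧
      x = (l : LaurentSeries ℚ) ^ n * (u : LaurentSeries ℚ) :=
  exists_eq_pow_mul' N l hx hx0

/-- **(Q1')**, unconditional form. -/
theorem mem_Oint_of_isIntegral' {x : LaurentSeries ℚ} (hx : x ∈ modularFunctionFieldFull N)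
    (hint : IsIntegral ↥((modularFunctionFieldFull N).toSubring ⊓ Oint l) x) : x ∈ Oint l :=
  mem_Oint_of_isIntegral_of_le l _ inf_le_right (full_le_KO l N hx) hint

/-- **(Q1')**: `F ∩ Oint l` is integrally closed in the function field `F`. -/
theorem mem_Oint_of_isIntegral (hlN : ¬ l ∣ N) {x : LaurentSeries ℚ}
    (hx : x ∈ modularFunctionFieldFull N)
    (hint : IsIntegral ↥((modularFunctionFieldFull N).toSubring ⊓ Oint l) x) : x ∈ Oint l :=
  mem_Oint_of_isIntegral' N l hx hint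

/-- An element of the function field which is integral over the Gauss ring is in the Gauss
ring. -/
theorem mem_Oint_of_isIntegral_Oint {x : LaurentSeries ℚ} (hx : x ∈ modularFunctionFieldFull N)
    (hint : IsIntegral ↥(Oint l) x) : x ∈ Oint l :=
  mem_Oint_of_isIntegral_of_le l _ le_rfl (full_le_KO l N hx) hint

end seams

section level_one

variable (l : ℕ) [Fact l.Prime]

/-- The Gauss ring of the rational function field `ℚ(j)`. -/
def Ov (l : ℕ) [Fact l.Prime] : Subring (LaurentSeries ℚ) :=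
  (IntermediateField.adjoin ℚ {jq}).toSubring ⊓ Oint l

theorem mem_Ov_iff {x : LaurentSeries ℚ} :
    x ∈ Ov l ↔ x ∈ IntermediateField.adjoin ℚ {jq} ∧ x ∈ Oint l := Iff.rfl

theorem Ov_le_Oint : Ov l ≤ Oint l := inf_le_right

/-- **(Q1) at level one**: `Ov l` is integrally closed in `ℚ(j)`. -/
theorem mem_Ov_of_isIntegral {x : LaurentSeries ℚ} (hx : x ∈ IntermediateField.adjoin ℚ {jq})
    (hint : IsIntegral ↥(Ov l) x) : x ∈ Ov l :=
  ⟨hx, mem_Oint_of_isIntegral_of_le l _ (Ov_le_Oint l) (adjoin_jq_le_KO l hx) hint⟩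

end level_one

/-! ### The charts lie in the Gauss ring -/

section chart

variable (N : ℕ) [NeZero N] (l : ℕ) [Fact l.Prime]

theorem coe_algebraMap_zl (r : Zl l) :
    ((algebraMap (Zl l) ↥(modularFunctionFieldFull N) r : ↥(modularFunctionFieldFull N)) :
      LaurentSeries ℚ) = HahnSeries.C (r : ℚ) := by
  have h1 : algebraMap (Zl l) ↥(modularFunctionFieldFull N) r =
      algebraMap ℚ ↥(modularFunctionFieldFull N) (r : ℚ) := rfl
  rw [h1, eq_ratCast, eq_ratCast (HahnSeries.C : ℚ →+* LaurentSeries ℚ)]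
  exact SubfieldClass.coe_ratCast _ _

/-- `ℤ_(l)[S]` lies in the Gauss ring for `S ⊆ {j, j⁻¹}`. -/
theorem adjoin_le_Oint (S : Set ↥(modularFunctionFieldFull N))
    (hS : S ⊆ {jFull N, (jFull N)⁻¹}) {a : ↥(modularFunctionFieldFull N)}
    (ha : a ∈ Algebra.adjoin (Zl l) S) : (a : LaurentSeries ℚ) ∈ Oint l := by
  induction ha using Algebra.adjoin_induction with
  | mem y hy =>
    rcases hS hy with rfl | rfl
    · exact jq_mem_Oint l
    · exact jq_inv_mem_Oint l
  | algebraMap r =>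
    rw [coe_algebraMap_zl]
    exact C_mem_Oint l r
  | add y z _ _ hy hz => exact add_mem hy hz
  | mul y z _ _ hy hz => exact mul_mem hy hz

/-- **(Q1)**, unconditional form. -/
theorem chart_le_Oint' (S : Set ↥(modularFunctionFieldFull N))
    (hS : S ⊆ {jFull N, (jFull N)⁻¹}) {x : ↥(modularFunctionFieldFull N)}
    (hx : x ∈ chartAlg N l S) : (x : LaurentSeries ℚ) ∈ Oint l := by
  rw [mem_chartAlg_iff] at hx
  let φ : ↥(Algebra.adjoin (Zl l) S) →+* ↥(Oint l) :=
    ((algebraMap ↥(modularFunctionFieldFull N) (LaurentSeries ℚ)).comp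
      (algebraMap ↥(Algebra.adjoin (Zl l) S) ↥(modularFunctionFieldFull N))).codRestrict (Oint l)
      (fun a => adjoin_le_Oint N l S hS a.2)
  have hint : IsIntegral ↥(Oint l)
      (algebraMap ↥(modularFunctionFieldFull N) (LaurentSeries ℚ) x) :=
    IsIntegral.map_of_comp_eq φ (algebraMap ↥(modularFunctionFieldFull N) (LaurentSeries ℚ))
      (by ext a; rfl) hx
  exact mem_Oint_of_isIntegral_Oint N l x.2 hint

/-- **(Q1)**: the chart algebras lie in the Gauss ring. -/
theorem chart_le_Oint (hlN : ¬ l ∣ N) (S : Set ↥(modularFunctionFieldFull N))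
    (hS : S ⊆ {jFull N, (jFull N)⁻¹}) {x : ↥(modularFunctionFieldFull N)}
    (hx : x ∈ chartAlg N l S) : (x : LaurentSeries ℚ) ∈ Oint l :=
  chart_le_Oint' N l S hS hx

end chart

end Fermat.Agent.IgusaLib
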