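import Mathlib
import Fermat.Agent.IgusaLib.Val
import Fermat.Agent.IgusaLib.Ker
import Fermat.Agent.IgusaLib.SchemeMid
import Fermat.Agent.IgusaLib.TensorSeam

/-!
# S28 (Igusa): the final assembly

`igusa_isIntegral_of` : the special fibre of the Igusa model is integral, given the finiteness
statement `(Q2)` (the function field part of the Gauss ring is integral over the Gauss ring `Ov l`
of `ℚ(j)`) and the two intersection statements `[INT]` (`Ov l ∩ ℚ[j] = ℤ_(l)[j]` and the same
for `j⁻¹`).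
-/

set_option autoImplicit false
set_option linter.unusedSectionVars false

noncomputable section

namespace Fermat.Agent.IgusaLib

open AlgebraicGeometry CategoryTheory CategoryTheory.Limits ModularCurve ModularCurve.IgusaScheme
open scoped TensorProduct

namespace Final28

variable (N : ℕ) [NeZero N] (l : ℕ) [Fact l.Prime]

/-- The inclusion of a chart algebra into the Gauss ring. -/
def chartToOint (S : Set ↥(modularFunctionFieldFull N))
    (h : ∀ x : ↥(modularFunctionFieldFull N), x ∈ chartAlg N l S →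
      (x : LaurentSeries ℚ) ∈ Oint l) :
    ↥(chartAlg N l S) →+* ↥(Oint l) :=
  ((algebraMap ↥(modularFunctionFieldFull N) (LaurentSeries ℚ)).comp
    (chartAlg N l S).toSubring.subtype).codRestrict (Oint l) (fun x => h x.1 x.2)

/-- The reduction map on a chart algebra. -/
def rhoChart (S : Set ↥(modularFunctionFieldFull N))
    (h : ∀ x : ↥(modularFunctionFieldFull N), x ∈ chartAlg N l S →
      (x : LaurentSeries ℚ) ∈ Oint l) :
    ↥(chartAlg N l S) →+* LaurentSeries (ZMod l) :=
  (rho l).comp (chartToOint N l S h)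

theorem rhoChart_apply (S : Set ↥(modularFunctionFieldFull N))
    (h : ∀ x : ↥(modularFunctionFieldFull N), x ∈ chartAlg N l S →
      (x : LaurentSeries ℚ) ∈ Oint l) (x : ↥(chartAlg N l S)) :
    rhoChart N l S h x = rho l ⟨((x : ↥(modularFunctionFieldFull N)) : LaurentSeries ℚ),
      h x.1 x.2⟩ := rfl

variable (K : Type) [Field K] [CharP K l] [Algebra (Zl l) K]

/-- `j ⊗ 1` is not zero in the base change of the finite chart. -/
theorem jChartFin_tmul_ne_zero
    (h : ∀ x : ↥(modularFunctionFieldFull N), x ∈ chartAlgFin N l →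
      (x : LaurentSeries ℚ) ∈ Oint l) :
    (jChartFin N l) ⊗ₜ[Zl l] (1 : K) ≠ 0 := by
  intro h0
  have h1 := congrArg (tensorToLaurent l K (rhoChart N l _ h)) h0
  rw [tensorToLaurent_tmul, map_zero, map_one, one_mul, rhoChart_apply] at h1
  have h2 : rho l ⟨((jChartFin N l : ↥(modularFunctionFieldFull N)) : LaurentSeries ℚ),
      h _ (jChartFin N l).2⟩ = jqModC (ZMod l) := rho_jq l _
  rw [h2, coeffMap_jqModC] at h1
  exact jqModC_ne_zero_of_nontrivial K h1

end Final28

open Final28 in
/-- **Igusa**: the reduction of the Igusa model is integral, from `(Q2)` and `[INT]`. -/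
theorem igusa_isIntegral_of (N : ℕ) [NeZero N] (l : ℕ) [Fact l.Prime]
    (K : Type) [Field K] [CharP K l] [Algebra (Zl l) K]
    (hQ2 : ∀ x ∈ modularFunctionFieldFull N, x ∈ Oint l → IsIntegral ↥(Ov l) x)
    (hINTfin : Ov l ⊓ (Algebra.adjoin ℚ {jq}).toSubring ≤ AJ l jq)
    (hINTinf : Ov l ⊓ (Algebra.adjoin ℚ {jq⁻¹}).toSubring ≤ AJ l jq⁻¹) :
    IsIntegral ↑(pullback (igusaTo N l)
      (Spec.map (CommRingCat.ofHom (algebraMap ↥(GaloisRep.ratLocalizedAt l) K)))) := by
  have hfinO : ∀ x : ↥(modularFunctionFieldFull N), x ∈ chartAlgFin N l →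
      (x : LaurentSeries ℚ) ∈ Oint l := fun x hx =>
    chart_le_Oint' N l _ (sFin_subset N) hx
  have hinfO : ∀ x : ↥(modularFunctionFieldFull N), x ∈ chartAlgInf N l →
      (x : LaurentSeries ℚ) ∈ Oint l := fun x hx =>
    chart_le_Oint' N l _ (sInf_subset N) hx
  have hfin : IsDomain (chartAlgFin N l ⊗[Zl l] K) := by
    refine isDomain_tensor' l K _ (rhoChart N l _ hfinO) ?_
    intro x hx
    rw [rhoChart_apply] at hx
    obtain ⟨y, hy, hxy⟩ := ker_fin_of N l (Ov l) (fun _ hx => hx.1)
      (fun _ hx h => mem_Ov_of_isIntegral l hx h) hQ2 hINTfin x.1 x.2 (hfinO x.1 x.2) hx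
    exact ⟨⟨y, hy⟩, Subtype.ext hxy⟩
  have hinf : IsDomain (chartAlgInf N l ⊗[Zl l] K) := by
    refine isDomain_tensor' l K _ (rhoChart N l _ hinfO) ?_
    intro x hx
    rw [rhoChart_apply] at hx
    obtain ⟨y, hy, hxy⟩ := ker_inf_of N l (Ov l) (fun _ hx => hx.1)
      (fun _ hx h => mem_Ov_of_isIntegral l hx h) hQ2 hINTinf x.1 x.2 (hinfO x.1 x.2) hx
    exact ⟨⟨y, hy⟩, Subtype.ext hxy⟩
  exact isIntegral_pullback_of_isDomain' N l K hfin hinf (jChartFin_tmul_ne_zero N l K hfinO)

end Fermat.Agent.IgusaLib
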