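import Mathlib
import Fermat.Agent.IgusaLib.FormalF1

/-!
# `(ORBIT)`, `(F2)`, `(F3)` for the tower step of S28

Over a field `k` with `PrimeData k p` (`p` prime), inside `k((q))`, with `J = jqModC k`:

* `orbit_natDegree_minpoly`: if `E` is an intermediate field with `V_d J ∈ E`, `V_{pd} J ∉ E` and
  `p ∤ d`, then `V_{pd} J` has degree exactly `p + 1` over `E`.
* `F2`: `V_p J` has degree `p + 1` over `k(J)`.
* `F3`: `J` has degree `p + 1` over `k(V_p J)`.
-/

set_option autoImplicit false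

noncomputable section

namespace Fermat.Agent.IgusaLib

open ModularCurve Polynomial

section AbstractRoots

variable {L : Type*} [Field L]

theorem natDegree_X_sub_C_mul_prod {p : ℕ} (a : L) (r : ℕ → L) :
    ((X - C a) * ∏ b ∈ Finset.range p, (X - C (r b))).natDegree = p + 1 := by
  rw [(monic_X_sub_C a).natDegree_mul (monic_prod_of_monic _ _ fun b _ => monic_X_sub_C (r b)),
    natDegree_X_sub_C, natDegree_prod_of_monic _ _ fun b _ => monic_X_sub_C (r b)]
  simp only [natDegree_X_sub_C, Finset.sum_const, Finset.card_range, smul_eq_mul, mul_one]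
  omega

/-- A polynomial of degree `≥ 2` dividing `(X - a) ∏_b (X - r b)` and vanishing at `a` vanishes at
some `r b`. -/
theorem exists_root_of_dvd_mul_prod {p : ℕ} (f : L[X]) (a : L) (r : ℕ → L)
    (hdvd : f ∣ (X - C a) * ∏ b ∈ Finset.range p, (X - C (r b)))
    (hroot : f.eval a = 0) (hdeg : 2 ≤ f.natDegree) : ∃ b < p, f.eval (r b) = 0 := by
  obtain ⟨f₁, hf₁⟩ : (X - C a) ∣ f := dvd_iff_isRoot.mpr hroot
  have hf0 : f ≠ 0 := by
    rintro rfl
    simp at hdeg
  have hf₁0 : f₁ ≠ 0 := by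
    rintro rfl
    rw [mul_zero] at hf₁
    exact hf0 hf₁
  have hf₁_dvd : f₁ ∣ ∏ b ∈ Finset.range p, (X - C (r b)) := by
    rw [hf₁] at hdvd
    exact (mul_dvd_mul_iff_left (X_sub_C_ne_zero a)).mp hdvd
  have hdeg₁ : 1 ≤ f₁.natDegree := by
    rw [hf₁, natDegree_mul (X_sub_C_ne_zero a) hf₁0, natDegree_X_sub_C] at hdeg
    omega
  by_contra hno'
  have hno : ∀ b < p, f₁.eval (r b) ≠ 0 := fun b hb h =>
    hno' ⟨b, hb, by rw [hf₁, eval_mul, h, mul_zero]⟩
  have hcop : IsCoprime f₁ (∏ b ∈ Finset.range p, (X - C (r b))) := by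
    refine IsCoprime.prod_right fun b hb => ?_
    refine IsCoprime.symm ?_
    rw [(irreducible_X_sub_C (r b)).coprime_iff_not_dvd, dvd_iff_isRoot]
    exact hno b (Finset.mem_range.mp hb)
  have hunit : IsUnit f₁ := hcop.isUnit_of_dvd' dvd_rfl hf₁_dvd
  have := natDegree_eq_zero_of_isUnit hunit
  omega

/-- The roots of a polynomial fixed by a ring endomorphism are stable under it. -/
theorem eval_apply_eq_zero_of_map_eq {f : L[X]} (φ : L →+* L) (hφ : f.map φ = f) {s : L}
    (hs : f.eval s = 0) : f.eval (φ s) = 0 := by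
  have h : (f.map φ).eval (φ s) = 0 := by rw [eval_map, eval₂_at_apply, hs, map_zero]
  rwa [hφ] at h

theorem le_natDegree_of_roots {f : L[X]} (hf : f ≠ 0) {p : ℕ} (r : ℕ → L)
    (hr : ∀ i < p, f.eval (r i) = 0) (hinj : ∀ i < p, ∀ i' < p, r i = r i' → i = i') :
    p ≤ f.natDegree := by
  classical
  have hcard : ((Finset.range p).image r).card = p := by
    rw [Finset.card_image_of_injOn, Finset.card_range]
    intro i hi i' hi' h
    exact hinj i (Finset.mem_range.mp hi) i' (Finset.mem_range.mp hi') h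
  rw [← hcard]
  refine card_le_degree_of_subset_roots ?_
  intro x hx
  rw [Finset.mem_val, Finset.mem_image] at hx
  obtain ⟨i, hi, rfl⟩ := hx
  exact (mem_roots hf).mpr (hr i (Finset.mem_range.mp hi))

theorem succ_le_natDegree_of_roots {f : L[X]} (hf : f ≠ 0) {p : ℕ} (a : L) (r : ℕ → L)
    (ha : f.eval a = 0) (hr : ∀ i < p, f.eval (r i) = 0) (hne : ∀ i < p, r i ≠ a)
    (hinj : ∀ i < p, ∀ i' < p, r i = r i' → i = i') : p + 1 ≤ f.natDegree := by
  classical
  have hcard : ((Finset.range p).image r).card = p := by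
    rw [Finset.card_image_of_injOn, Finset.card_range]
    intro i hi i' hi' h
    exact hinj i (Finset.mem_range.mp hi) i' (Finset.mem_range.mp hi') h
  have hnot : a ∉ (Finset.range p).image r := by
    intro h
    obtain ⟨i, hi, hia⟩ := Finset.mem_image.mp h
    exact hne i (Finset.mem_range.mp hi) hia
  have hcard' : (insert a ((Finset.range p).image r)).card = p + 1 := by
    rw [Finset.card_insert_of_notMem hnot, hcard]
  rw [← hcard']
  refine card_le_degree_of_subset_roots ?_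
  intro x hx
  rw [Finset.mem_val, Finset.mem_insert, Finset.mem_image] at hx
  rcases hx with rfl | ⟨i, hi, rfl⟩
  · exact (mem_roots hf).mpr ha
  · exact (mem_roots hf).mpr (hr i (Finset.mem_range.mp hi))

end AbstractRoots

section VdBasics

variable {R : Type*} [CommRing R]

theorem Vd_injective {d : ℕ} (hd : d ≠ 0) : Function.Injective (Vd R d) := by
  have : NeZero d := ⟨hd⟩
  rw [Vd_eq]
  exact qExpand_injective d

theorem Vd_one (f : LaurentSeries R) : Vd R 1 f = f := by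
  rw [Vd_eq, qExpand_one_apply]

theorem coeff_Vd_of_not_dvd {d : ℕ} (hd : d ≠ 0) (f : LaurentSeries R) {n : ℤ}
    (hn : ¬ (d : ℤ) ∣ n) : (Vd R d f).coeff n = 0 := by
  have : NeZero d := ⟨hd⟩
  rw [Vd_eq]
  exact qExpand_coeff_of_not_dvd d f hn

end VdBasics

section Orbit

variable {k : Type*} [Field k] {p : ℕ}

/-- Equation form of the transport of evaluations along `V_d`. -/
theorem Vd_eval_map_ev (d : ℕ) (Q : k[X][X]) (x a : LaurentSeries k) :
    Vd k d ((Q.map (ev x)).eval a) = (Q.map (ev (Vd k d x))).eval (Vd k d a) := by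
  rw [eval_map, eval_map, ← Vd_comp_ev, hom_eval₂]

theorem PrimeData.isLead_Vd_jqModC (hp : p ≠ 0) :
    IsLead (Vd k p (jqModC k)) (-(p : ℤ)) 1 := by
  have h := (isLead_jqModC (k := k)).Vd hp
  rwa [mul_neg_one] at h

theorem PrimeData.monic_Φ (P : PrimeData k p) (hp : p ≠ 0) : P.Φ.Monic := by
  have hinj : Function.Injective (ev (Vd k p (jqModC k))) :=
    aeval_injective_of_isLead (PrimeData.isLead_Vd_jqModC hp)
      (by exact_mod_cast Nat.pos_of_ne_zero hp)
  refine monic_of_injective hinj ?_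
  rw [P.hΦ]
  exact monic_X_sub_C_mul_prod _ _

theorem PrimeData.natDegree_Φ (P : PrimeData k p) (hp : p ≠ 0) : P.Φ.natDegree = p + 1 := by
  have hinj : Function.Injective (ev (Vd k p (jqModC k))) :=
    aeval_injective_of_isLead (PrimeData.isLead_Vd_jqModC hp)
      (by exact_mod_cast Nat.pos_of_ne_zero hp)
  rw [← natDegree_map_eq_of_injective hinj, P.hΦ, natDegree_X_sub_C_mul_prod]

/-- `Φ(J, V_p J) = 0`. -/
theorem PrimeData.eval_Φ_Vd (P : PrimeData k p) (hp : p ≠ 0) :
    (P.Φ.map (ev (jqModC k))).eval (Vd k p (jqModC k)) = 0 := by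
  apply Vd_injective hp
  rw [Vd_eval_map_ev, map_zero, Vd_Vd hp hp, P.hΦ, eval_X_sub_C_mul_prod, sub_self, zero_mul]

/-- `Φ(V_d J, V_{pd} J) = 0`. -/
theorem PrimeData.eval_Φ_Vd_mul (P : PrimeData k p) (hp : p ≠ 0) {d : ℕ} (hd : d ≠ 0) :
    (P.Φ.map (ev (Vd k d (jqModC k)))).eval (Vd k (p * d) (jqModC k)) = 0 := by
  have h := congrArg (Vd k d) (P.eval_Φ_Vd hp)
  rwa [Vd_eval_map_ev, map_zero, Vd_Vd hd hp, mul_comm d p] at h

/-- `Φ(V_p J, J) = 0`. -/
theorem PrimeData.eval_Φ_self (P : PrimeData k p) (hp : p ≠ 0) :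
    (P.Φ.map (ev (Vd k p (jqModC k)))).eval (jqModC k) = 0 := by
  rw [P.hΦ, eval_X_sub_C_mul_prod]
  refine mul_eq_zero_of_right _ (Finset.prod_eq_zero (i := 0)
    (Finset.mem_range.mpr (Nat.pos_of_ne_zero hp)) ?_)
  rw [pow_zero, tw_one_apply, sub_self]

/-- The specialisation of `Φ` at `X = V_{pd} J` splits with roots `V_{p²d} J` and
`V_d (tw ζ^b J)`. -/
theorem PrimeData.map_Φ_Vd_mul (P : PrimeData k p) (hp : p ≠ 0) {d : ℕ} (hd : d ≠ 0) :
    P.Φ.map (ev (Vd k (p * d) (jqModC k))) =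
      (X - C (Vd k d (Vd k (p * p) (jqModC k)))) *
        ∏ b ∈ Finset.range p, (X - C (Vd k d (tw (P.ζ ^ b) (jqModC k)))) := by
  have h := congrArg (Polynomial.map (Vd k d)) P.hΦ
  rw [Polynomial.map_map, Vd_comp_ev, Vd_Vd hd hp, mul_comm d p, Polynomial.map_mul,
    Polynomial.map_sub, Polynomial.map_X, Polynomial.map_C, Polynomial.map_prod] at h
  rw [h]
  congr 1
  exact Finset.prod_congr rfl fun b _ => by
    rw [Polynomial.map_sub, Polynomial.map_X, Polynomial.map_C]

/-- All twists by powers of `u` of a root of a `tw u`-invariant polynomial are roots. -/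
theorem eval_tw_pow_eq_zero {f : (LaurentSeries k)[X]} (u : kˣ) (hf : f.map (tw u) = f)
    {s : LaurentSeries k} (hs : f.eval s = 0) (i : ℕ) : f.eval (tw (u ^ i) s) = 0 := by
  induction i with
  | zero => rwa [pow_zero, tw_one_apply]
  | succ i ih =>
    have h := eval_apply_eq_zero_of_map_eq (tw u) hf ih
    rwa [tw_tw, ← pow_succ'] at h

/-- **(ORBIT)** If `V_d J ∈ E`, `V_{pd} J ∉ E` and `p ∤ d`, then `V_{pd} J` is integral of degree
exactly `p + 1` over `E`. -/
theorem orbit_natDegree_minpoly (hp : p.Prime) (P : PrimeData k p)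
    (E : IntermediateField k (LaurentSeries k)) {d : ℕ} (hd : d ≠ 0) (hpd : ¬ p ∣ d)
    (hdE : Vd k d (jqModC k) ∈ E) (hpdE : Vd k (p * d) (jqModC k) ∉ E) :
    IsIntegral E (Vd k (p * d) (jqModC k)) ∧
      (minpoly E (Vd k (p * d) (jqModC k))).natDegree = p + 1 := by
  have hp0 : p ≠ 0 := hp.ne_zero
  have hp2 : 2 ≤ p := hp.two_le
  set x : LaurentSeries k := Vd k (p * d) (jqModC k) with hx
  -- `Φ` specialised at `V_d J` has coefficients in `E`
  set evE : k[X] →+* E := (aeval (⟨Vd k d (jqModC k), hdE⟩ : E)).toRingHom with hevE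
  have hcomp : (algebraMap E (LaurentSeries k)).comp evE = ev (Vd k d (jqModC k)) := by
    refine Polynomial.ringHom_ext (fun c => ?_) ?_
    · simp only [RingHom.comp_apply, hevE, AlgHom.toRingHom_eq_coe, RingHom.coe_coe, aeval_C]
      exact (IsScalarTower.algebraMap_apply k E (LaurentSeries k) c).symm
    · simp only [RingHom.comp_apply, hevE, AlgHom.toRingHom_eq_coe, RingHom.coe_coe, aeval_X]
      rfl
  have hΦE : (P.Φ.map evE).map (algebraMap E (LaurentSeries k)) =
      P.Φ.map (ev (Vd k d (jqModC k))) := by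
    rw [Polynomial.map_map, hcomp]
  have hΦEmonic : (P.Φ.map evE).Monic := (P.monic_Φ hp0).map evE
  have hΦEdeg : (P.Φ.map evE).natDegree = p + 1 := by
    rw [(P.monic_Φ hp0).natDegree_map evE, P.natDegree_Φ hp0]
  have haeval : aeval x (P.Φ.map evE) = 0 := by
    rw [aeval_def, eval₂_eq_eval_map, hΦE]
    exact P.eval_Φ_Vd_mul hp0 hd
  have hint : IsIntegral E x := ⟨P.Φ.map evE, hΦEmonic, haeval⟩
  refine ⟨hint, ?_⟩
  set m := minpoly E x with hm
  have hmdvd : m ∣ P.Φ.map evE := minpoly.dvd E x haeval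
  have hrange : x ∉ (algebraMap E (LaurentSeries k)).range := by
    rintro ⟨z, hz⟩
    exact hpdE (hz ▸ z.2)
  have hm2 : 2 ≤ m.natDegree := (minpoly.two_le_natDegree_iff hint).mpr hrange
  have hupper : m.natDegree ≤ p + 1 := by
    rw [← hΦEdeg]
    exact natDegree_le_of_dvd hmdvd hΦEmonic.ne_zero
  refine le_antisymm hupper ?_
  -- apply `V_p` to the coefficients of the minimal polynomial
  set mV : (LaurentSeries k)[X] := (m.map (algebraMap E (LaurentSeries k))).map (Vd k p) with hmV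
  have hmVdeg : mV.natDegree = m.natDegree := by
    rw [hmV, natDegree_map_eq_of_injective (Vd_injective hp0), natDegree_map]
  have hmV0 : mV ≠ 0 := by
    intro h
    rw [h, natDegree_zero] at hmVdeg
    omega
  have hmVdvd : mV ∣ (X - C (Vd k d (Vd k (p * p) (jqModC k)))) *
      ∏ b ∈ Finset.range p, (X - C (Vd k d (tw (P.ζ ^ b) (jqModC k)))) := by
    rw [← P.map_Φ_Vd_mul hp0 hd]
    have h1 : mV ∣ (P.Φ.map (ev (Vd k d (jqModC k)))).map (Vd k p) := by
      rw [← hΦE]
      exact Polynomial.map_dvd _ (Polynomial.map_dvd _ hmdvd)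
    rwa [Polynomial.map_map, Vd_comp_ev, Vd_Vd hp0 hd] at h1
  have hxroot : mV.eval (Vd k p x) = 0 := by
    rw [hmV, eval_map, eval₂_at_apply, ← eval₂_eq_eval_map, ← aeval_def, hm, minpoly.aeval,
      map_zero]
  have hreq : Vd k p x = Vd k d (Vd k (p * p) (jqModC k)) := by
    rw [hx, Vd_Vd hp0 (Nat.mul_ne_zero hp0 hd), Vd_Vd hd (Nat.mul_ne_zero hp0 hp0),
      show p * (p * d) = d * (p * p) by ring]
  rw [hreq] at hxroot
  obtain ⟨b, -, hbroot⟩ := exists_root_of_dvd_mul_prod mV _ _ hmVdvd hxroot (hmVdeg ▸ hm2)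
  -- `mV` is invariant under the twist by `ζ`
  have hσ : mV.map (tw P.ζ) = mV := by
    rw [hmV, Polynomial.map_map]
    congr 1
    exact RingHom.ext fun f => tw_Vd_of_pow_eq_one P.ζ hp0 P.hζ.pow_eq_one f
  have hroots : ∀ i : ℕ, mV.eval (tw (P.ζ ^ i) (Vd k d (tw (P.ζ ^ b) (jqModC k)))) = 0 :=
    fun i => eval_tw_pow_eq_zero P.ζ hσ hbroot i
  -- leading data of the roots
  have hlead : ∀ i : ℕ, IsLead (tw (P.ζ ^ i) (Vd k d (tw (P.ζ ^ b) (jqModC k))))
      ((d : ℤ) * (-1)) ((((P.ζ ^ i) ^ ((d : ℤ) * (-1)) : kˣ) : k) * (((P.ζ ^ b)⁻¹ : kˣ) : k)) :=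
    fun i => ((isLead_tw_jqModC (P.ζ ^ b)).Vd hd).tw (P.ζ ^ i)
  have hleadinf : IsLead (Vd k d (Vd k (p * p) (jqModC k))) ((d : ℤ) * (-((p : ℤ) * p))) 1 :=
    (isLead_Vd_sq_jqModC hp0).Vd hd
  have hζd : IsPrimitiveRoot (P.ζ ^ d) p :=
    P.hζ.pow_of_coprime d ((Nat.Prime.coprime_iff_not_dvd hp).mpr hpd).symm
  have hd0 : (0 : ℤ) < d := by exact_mod_cast Nat.pos_of_ne_zero hd
  have hp2' : (2 : ℤ) ≤ p := by exact_mod_cast hp2
  rw [← hmVdeg]
  refine succ_le_natDegree_of_roots hmV0 _ _ hxroot (fun i _ => hroots i) (fun i _ => ?_)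
    (fun i hi i' hi' h => ?_)
  · refine (hlead i).ne_of_order_ne hleadinf ?_
    intro h
    have : (p : ℤ) * p = 1 := by
      have h' : (d : ℤ) * ((p : ℤ) * p - 1) = 0 := by linarith
      rcases mul_eq_zero.mp h' with h'' | h''
      · omega
      · linarith
    nlinarith
  · have hc := ((hlead i).unique (h ▸ hlead i')).2
    have hc' : ((P.ζ ^ i) ^ ((d : ℤ) * (-1)) : kˣ) = (P.ζ ^ i') ^ ((d : ℤ) * (-1)) :=
      Units.ext (mul_right_cancel₀ (Units.ne_zero _) hc)
    rw [mul_neg_one, zpow_neg, zpow_neg, inv_inj, zpow_natCast, zpow_natCast, ← pow_mul,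
      ← pow_mul, mul_comm i d, mul_comm i' d, pow_mul, pow_mul] at hc'
    exact hζd.pow_inj hi hi' hc'

/-- **(F2)** `V_p J` has degree `p + 1` over `k(J)`. -/
theorem F2 (hp : p.Prime) (P : PrimeData k p) :
    IsIntegral (IntermediateField.adjoin k {jqModC k}) (Vd k p (jqModC k)) ∧
      (minpoly (IntermediateField.adjoin k {jqModC k}) (Vd k p (jqModC k))).natDegree = p + 1 := by
  have h := orbit_natDegree_minpoly hp P (IntermediateField.adjoin k {jqModC k}) (d := 1)
    one_ne_zero (by rw [Nat.dvd_one]; exact hp.ne_one)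
    (by rw [Vd_one]; exact IntermediateField.mem_adjoin_simple_self k _)
    (by rw [mul_one]; exact F1 hp.two_le P)
  rwa [mul_one] at h

/-- **(F3)** `J` has degree `p + 1` over `k(V_p J)`. -/
theorem F3 (hp : 2 ≤ p) (P : PrimeData k p) :
    IsIntegral (IntermediateField.adjoin k {Vd k p (jqModC k)}) (jqModC k) ∧
      (minpoly (IntermediateField.adjoin k {Vd k p (jqModC k)}) (jqModC k)).natDegree = p + 1 := by
  have hp0 : p ≠ 0 := by omega
  set K₁ : IntermediateField k (LaurentSeries k) :=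
    IntermediateField.adjoin k {Vd k p (jqModC k)} with hK₁
  have hXK : Vd k p (jqModC k) ∈ K₁ := IntermediateField.mem_adjoin_simple_self k _
  -- `K₁` lies in the range of `V_p`, hence is fixed by the twist
  have hle : K₁ ≤ (VdAlgHom k p).fieldRange :=
    IntermediateField.adjoin_simple_le_iff.mpr ⟨jqModC k, rfl⟩
  have hrange : ∀ z ∈ K₁, ∃ w, Vd k p w = z := fun z hz => AlgHom.mem_fieldRange.mp (hle hz)
  have hfix : ∀ z ∈ K₁, tw P.ζ z = z := by
    intro z hz
    obtain ⟨w, rfl⟩ := hrange z hz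
    exact tw_Vd_of_pow_eq_one P.ζ hp0 P.hζ.pow_eq_one w
  set evK : k[X] →+* K₁ := (aeval (⟨Vd k p (jqModC k), hXK⟩ : K₁)).toRingHom with hevK
  have hcomp : (algebraMap K₁ (LaurentSeries k)).comp evK = ev (Vd k p (jqModC k)) := by
    refine Polynomial.ringHom_ext (fun c => ?_) ?_
    · simp only [RingHom.comp_apply, hevK, AlgHom.toRingHom_eq_coe, RingHom.coe_coe, aeval_C]
      exact (IsScalarTower.algebraMap_apply k K₁ (LaurentSeries k) c).symm
    · simp only [RingHom.comp_apply, hevK, AlgHom.toRingHom_eq_coe, RingHom.coe_coe, aeval_X]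
      rfl
  have hΦK : (P.Φ.map evK).map (algebraMap K₁ (LaurentSeries k)) =
      (X - C (Vd k (p * p) (jqModC k))) *
        ∏ b ∈ Finset.range p, (X - C (tw (P.ζ ^ b) (jqModC k))) := by
    rw [Polynomial.map_map, hcomp]
    exact P.hΦ
  have hΦKmonic : (P.Φ.map evK).Monic := (P.monic_Φ hp0).map evK
  have hΦKdeg : (P.Φ.map evK).natDegree = p + 1 := by
    rw [(P.monic_Φ hp0).natDegree_map evK, P.natDegree_Φ hp0]
  have haeval : aeval (jqModC k) (P.Φ.map evK) = 0 := by
    rw [aeval_def, eval₂_eq_eval_map, Polynomial.map_map, hcomp]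
    exact P.eval_Φ_self hp0
  have hint : IsIntegral K₁ (jqModC k) := ⟨P.Φ.map evK, hΦKmonic, haeval⟩
  refine ⟨hint, ?_⟩
  set m := minpoly K₁ (jqModC k) with hm
  have hmdvd : m ∣ P.Φ.map evK := minpoly.dvd K₁ _ haeval
  have hupper : m.natDegree ≤ p + 1 := by
    rw [← hΦKdeg]
    exact natDegree_le_of_dvd hmdvd hΦKmonic.ne_zero
  set mL : (LaurentSeries k)[X] := m.map (algebraMap K₁ (LaurentSeries k)) with hmL
  have hmLdeg : mL.natDegree = m.natDegree := natDegree_map _
  have hmL0 : mL ≠ 0 :=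
    (Polynomial.map_ne_zero_iff (algebraMap K₁ (LaurentSeries k)).injective).mpr
      (minpoly.ne_zero hint)
  have hσ : mL.map (tw P.ζ) = mL := by
    rw [hmL, Polynomial.map_map]
    congr 1
    exact RingHom.ext fun z => hfix z z.2
  have hJroot : mL.eval (jqModC k) = 0 := by
    rw [hmL, ← eval₂_eq_eval_map, ← aeval_def, hm, minpoly.aeval]
  have hroots : ∀ i : ℕ, mL.eval (tw (P.ζ ^ i) (jqModC k)) = 0 :=
    fun i => eval_tw_pow_eq_zero P.ζ hσ hJroot i
  have hlower : p ≤ m.natDegree := by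
    rw [← hmLdeg]
    refine le_natDegree_of_roots hmL0 _ (fun i _ => hroots i) (fun i hi i' hi' h => ?_)
    exact inv_pow_inj_of_isPrimitiveRoot P.hζ hi hi'
      (((isLead_tw_jqModC (P.ζ ^ i)).unique (h ▸ isLead_tw_jqModC (P.ζ ^ i'))).2)
  by_contra hne
  have hmp : m.natDegree = p := by omega
  obtain ⟨c, hc⟩ := hmdvd
  have hmmonic : m.Monic := minpoly.monic hint
  have hcmonic : c.Monic := hmmonic.of_mul_monic_left (hc ▸ hΦKmonic)
  have hcdeg : c.natDegree = 1 := by
    have h := hΦKdeg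
    rw [hc, hmmonic.natDegree_mul hcmonic, hmp] at h
    omega
  have hceq := hcmonic.eq_X_add_C hcdeg
  have hcroot : c.eval (-c.coeff 0) = 0 := by
    rw [hceq, eval_add, eval_X, eval_C, coeff_add, coeff_X_zero, coeff_C_zero, zero_add,
      neg_add_cancel]
  have hΦroot : (P.Φ.map evK).eval (-c.coeff 0) = 0 := by
    rw [hc, eval_mul, hcroot, mul_zero]
  have hΦrootL : ((P.Φ.map evK).map (algebraMap K₁ (LaurentSeries k))).eval
      (algebraMap K₁ (LaurentSeries k) (-c.coeff 0)) = 0 := by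
    rw [eval_map, eval₂_at_apply, hΦroot, map_zero]
  rw [hΦK, eval_X_sub_C_mul_prod, mul_eq_zero, Finset.prod_eq_zero_iff] at hΦrootL
  have hρK : algebraMap K₁ (LaurentSeries k) (-c.coeff 0) ∈ K₁ := (-c.coeff 0).2
  rcases hΦrootL with h | ⟨b, -, h⟩
  · -- the root is `V_{p²} J`: then `V_p J ∈ k(J)`, contradicting `F1`
    have hmem : Vd k (p * p) (jqModC k) ∈ K₁ := by
      rw [← sub_eq_zero.mp h]
      exact hρK
    have hmem' : Vd k p (Vd k p (jqModC k)) ∈
        (IntermediateField.adjoin k {jqModC k}).map (VdAlgHom k p) := by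
      rw [IntermediateField.adjoin_map, Set.image_singleton, VdAlgHom_apply, Vd_Vd hp0 hp0]
      exact hmem
    obtain ⟨w, hw, hwe⟩ := hmem'
    have hweq : w = Vd k p (jqModC k) := Vd_injective hp0 hwe
    exact F1 hp P (hweq ▸ hw)
  · -- the root is a twist of `J`, which is not in the range of `V_p`
    obtain ⟨w, hw⟩ := hrange _ hρK
    have h1 : (tw (P.ζ ^ b) (jqModC k)).coeff (-1) = 0 := by
      rw [← sub_eq_zero.mp h, ← hw]
      refine coeff_Vd_of_not_dvd hp0 w ?_
      intro hdvd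
      have : (p : ℤ) ∣ 1 := (dvd_neg).mp hdvd
      have hp1 : (p : ℤ) ≤ 1 := Int.le_of_dvd one_pos this
      omega
    have hl := isLead_tw_jqModC (k := k) (P.ζ ^ b)
    exact hl.coeff_ne_zero (hl.coeff_eq ▸ h1)

end Orbit

end Fermat.Agent.IgusaLib
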