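import Mathlib
import Fermat.Prelude.Def_ModularCurve_JqCoeff
import Fermat.Prelude.Def_ModularCurve_LaurentCoeff
import Fermat.Prelude.Def_GaloisRep_Flat

/-!
# S28 (Igusa), `q`-expansion principle: basic lemmas

* the formal `j` over any commutative ring: leading coefficient of its powers, transcendence over
  a field (`aeval_jqModC_ne_zero`, `aeval_jqModC_inv_ne_zero`);
* `l`-contents: a nonzero family of rational polynomials can be scaled by a power of `l` to a
  family over `ℤ_(l)` one of whose coefficients is a unit (`exists_scale_poly`).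
-/

set_option autoImplicit false

noncomputable section

namespace Fermat.Agent.IgusaLib.Qep

open ModularCurve Polynomial

/-! ### The formal `j` -/

section J

variable (R : Type*) [CommRing R]

theorem jqModC_pow (n : ℕ) :
    (jqModC R) ^ n = HahnSeries.single (-(n : ℤ)) 1 *
      HahnSeries.ofPowerSeries ℤ R ((jNum.map (Int.castRingHom R)) ^ n) := by
  have h : n • (-1 : ℤ) = -(n : ℤ) := by simp
  rw [jqModC, mul_pow, HahnSeries.single_pow, one_pow, h, ← map_pow]

theorem constantCoeff_jNum_map :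
    PowerSeries.constantCoeff (jNum.map (Int.castRingHom R)) = 1 := by
  rw [← PowerSeries.coeff_zero_eq_constantCoeff, PowerSeries.coeff_map,
    PowerSeries.coeff_zero_eq_constantCoeff, constantCoeff_jNum, map_one]

theorem coeff_jqModC_pow_self (n : ℕ) : ((jqModC R) ^ n).coeff (-(n : ℤ)) = 1 := by
  rw [jqModC_pow, HahnSeries.coeff_single_mul, one_mul, sub_neg_eq_add, neg_add_cancel,
    show (0 : ℤ) = ((0 : ℕ) : ℤ) from rfl, HahnSeries.ofPowerSeries_apply_coeff,
    PowerSeries.coeff_zero_eq_constantCoeff, map_pow, constantCoeff_jNum_map, one_pow]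

theorem coeff_jqModC_pow_of_lt {n : ℕ} {m : ℤ} (hm : m < -(n : ℤ)) :
    ((jqModC R) ^ n).coeff m = 0 := by
  rw [jqModC_pow, HahnSeries.coeff_single_mul, one_mul]
  exact ofPowerSeries_coeff_of_neg _ (by omega)

theorem coeff_jqModC_neg_one : (jqModC R).coeff (-1 : ℤ) = 1 := by
  simpa using coeff_jqModC_pow_self R 1

theorem jqModC_ne_zero [Nontrivial R] : jqModC R ≠ 0 := by
  intro h
  have h1 : (jqModC R).coeff (-1 : ℤ) = 1 := coeff_jqModC_neg_one R
  rw [h, HahnSeries.coeff_zero] at h1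
  exact zero_ne_one h1

/-- The coefficient of `q^(-deg P)` in `P(j)` is the leading coefficient of `P`. -/
theorem coeff_eval₂_jqModC (P : R[X]) :
    (P.eval₂ (HahnSeries.C : R →+* LaurentSeries R) (jqModC R)).coeff (-(P.natDegree : ℤ))
      = P.leadingCoeff := by
  set n := P.natDegree with hn
  rw [eval₂_eq_sum_range, HahnSeries.coeff_sum, Finset.sum_eq_single n]
  · rw [HahnSeries.C_apply, HahnSeries.coeff_single_zero_mul, coeff_jqModC_pow_self, mul_one]
    rfl
  · intro i hi hin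
    have hilt : i < n := lt_of_le_of_ne (Nat.lt_succ_iff.mp (Finset.mem_range.mp hi)) hin
    rw [HahnSeries.C_apply, HahnSeries.coeff_single_zero_mul, coeff_jqModC_pow_of_lt, mul_zero]
    omega
  · intro hn'
    exact absurd (Finset.self_mem_range_succ n) hn'

theorem eval₂_jqModC_ne_zero {P : R[X]} (hP : P ≠ 0) :
    P.eval₂ (HahnSeries.C : R →+* LaurentSeries R) (jqModC R) ≠ 0 := by
  intro h
  have h1 := coeff_eval₂_jqModC R P
  rw [h, HahnSeries.coeff_zero] at h1
  exact hP (leadingCoeff_eq_zero.mp h1.symm)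

end J

section JField

variable (k : Type*) [Field k]

theorem algebraMap_eq_C : (algebraMap k (LaurentSeries k)) = (HahnSeries.C : k →+* LaurentSeries k) := by
  ext c : 1
  rw [algebraMap_laurentSeries_eq_single, HahnSeries.C_apply]

theorem aeval_jqModC_ne_zero {P : k[X]} (hP : P ≠ 0) : aeval (jqModC k) P ≠ 0 := by
  rw [aeval_def, algebraMap_eq_C]
  exact eval₂_jqModC_ne_zero k hP

theorem transcendental_jqModC : Transcendental k (jqModC k) :=
  transcendental_iff.mpr fun _ hp => by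
    by_contra h
    exact aeval_jqModC_ne_zero k h hp

theorem transcendental_jqModC_inv : Transcendental k (jqModC k)⁻¹ := fun h =>
  transcendental_jqModC k (by simpa using h.inv)

theorem aeval_jqModC_inv_ne_zero {P : k[X]} (hP : P ≠ 0) : aeval (jqModC k)⁻¹ P ≠ 0 :=
  fun h => hP (transcendental_iff.mp (transcendental_jqModC_inv k) P h)

end JField

/-! ### `l`-contents -/

section Content

variable (l : ℕ) [Fact l.Prime]

theorem mem_ratLocalizedAt_of_padicValRat_nonneg {q : ℚ} (hq : 0 ≤ padicValRat l q) :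
    q ∈ GaloisRep.ratLocalizedAt l := by
  have hl : l.Prime := Fact.out
  show q.den.Coprime l
  by_contra hcop
  have hdvd : l ∣ q.den := by
    by_contra hnd
    exact hcop ((Nat.Prime.coprime_iff_not_dvd hl).mpr hnd).symm
  have h1 : 1 ≤ padicValNat l q.den := one_le_padicValNat_of_dvd q.den_pos.ne' hdvd
  have h2 : padicValInt l q.num = 0 := by
    apply padicValInt.eq_zero_of_not_dvd
    intro hnum
    have h3 : l ∣ q.num.natAbs := Int.natCast_dvd.mp hnum
    have h4 := Nat.dvd_gcd h3 hdvd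
    rw [q.reduced] at h4
    exact hl.one_lt.ne' (Nat.dvd_one.mp h4)
  have h5 : padicValRat l q = padicValInt l q.num - padicValNat l q.den := rfl
  rw [h5, h2] at hq
  omega

/-- A finite set of rationals, not all zero, can be scaled by a power of `l` into `ℤ_(l)` with
one of the scaled elements a unit. -/
theorem exists_zpow_mul_mem (T : Finset ℚ) (hT : ∃ c ∈ T, c ≠ 0) :
    ∃ n : ℤ, (∀ c ∈ T, (l : ℚ) ^ n * c ∈ GaloisRep.ratLocalizedAt l) ∧
      ∃ c ∈ T, ∃ d ∈ GaloisRep.ratLocalizedAt l, (l : ℚ) ^ n * c * d = 1 := by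
  classical
  have hl : l.Prime := Fact.out
  have hl0 : (l : ℚ) ≠ 0 := Nat.cast_ne_zero.mpr hl.ne_zero
  obtain ⟨c₁, hc₁, hc₁0⟩ := hT
  have hne : (T.filter (· ≠ 0)).Nonempty := ⟨c₁, Finset.mem_filter.mpr ⟨hc₁, hc₁0⟩⟩
  obtain ⟨c₀, hc₀, hmin⟩ := Finset.exists_min_image _ (padicValRat l) hne
  rw [Finset.mem_filter] at hc₀
  have hval : ∀ c : ℚ, c ≠ 0 → ∀ n : ℤ, padicValRat l ((l : ℚ) ^ n * c) = n + padicValRat l c := by
    intro c hc n
    rw [padicValRat.mul (zpow_ne_zero _ hl0) hc, padicValRat.zpow, padicValRat.self hl.one_lt,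
      mul_one]
  refine ⟨-padicValRat l c₀, fun c hc => ?_, c₀, hc₀.1, ((l : ℚ) ^ (-padicValRat l c₀) * c₀)⁻¹,
    ?_, ?_⟩
  · by_cases hc0 : c = 0
    · rw [hc0, mul_zero]; exact zero_mem _
    · apply mem_ratLocalizedAt_of_padicValRat_nonneg
      rw [hval c hc0]
      have := hmin c (Finset.mem_filter.mpr ⟨hc, hc0⟩)
      omega
  · apply mem_ratLocalizedAt_of_padicValRat_nonneg
    rw [padicValRat.inv, hval c₀ hc₀.2]
    omega
  · exact mul_inv_cancel₀ (mul_ne_zero (zpow_ne_zero _ hl0) hc₀.2)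

/-- A nonzero finite family of rational polynomials can be scaled by a power of `l` to a family
of polynomials over `ℤ_(l)` one of whose coefficients is a unit. -/
theorem exists_scale_poly {ι : Type*} [Fintype ι] (P : ι → ℚ[X]) (hP : P ≠ 0) :
    ∃ (n : ℤ) (P' : ι → (↥(GaloisRep.ratLocalizedAt l))[X]),
      (∀ i, (P' i).map (GaloisRep.ratLocalizedAt l).subtype = C ((l : ℚ) ^ n) * P i) ∧
      ∃ i k, IsUnit ((P' i).coeff k) := by
  classical
  set T : Finset ℚ := Finset.univ.biUnion (fun i => (P i).coeffs) with hTdef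
  have hT : ∃ c ∈ T, c ≠ 0 := by
    obtain ⟨i, hi⟩ : ∃ i, P i ≠ 0 := by
      by_contra h
      exact hP (funext fun i => by_contra fun hi => h ⟨i, hi⟩)
    obtain ⟨k, hk⟩ : ∃ k, (P i).coeff k ≠ 0 := by
      by_contra h
      exact hi (Polynomial.ext fun k => by
        rw [coeff_zero]
        exact by_contra fun hk => h ⟨k, hk⟩)
    exact ⟨(P i).coeff k, Finset.mem_biUnion.mpr ⟨i, Finset.mem_univ _, coeff_mem_coeffs hk⟩, hk⟩
  obtain ⟨n, hn, c, hcT, d, hd, hcd⟩ := exists_zpow_mul_mem l T hT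
  have hmem : ∀ i k, (l : ℚ) ^ n * (P i).coeff k ∈ GaloisRep.ratLocalizedAt l := by
    intro i k
    by_cases h0 : (P i).coeff k = 0
    · rw [h0, mul_zero]; exact zero_mem _
    · exact hn _ (Finset.mem_biUnion.mpr ⟨i, Finset.mem_univ _, coeff_mem_coeffs h0⟩)
  have hsub : ∀ i, (↑(C ((l : ℚ) ^ n) * P i).coeffs : Set ℚ) ⊆ GaloisRep.ratLocalizedAt l := by
    intro i x hx
    obtain ⟨k, -, rfl⟩ := mem_coeffs_iff.mp (Finset.mem_coe.mp hx)
    rw [coeff_C_mul]
    exact hmem i k
  refine ⟨n, fun i => (C ((l : ℚ) ^ n) * P i).toSubring (GaloisRep.ratLocalizedAt l) (hsub i),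
    fun i => map_toSubring _ _ _, ?_⟩
  obtain ⟨i, -, hci⟩ := Finset.mem_biUnion.mp hcT
  obtain ⟨k, -, rfl⟩ := mem_coeffs_iff.mp hci
  refine ⟨i, k, isUnit_iff_exists_inv.mpr ⟨⟨d, hd⟩, Subtype.ext ?_⟩⟩
  rw [Subring.coe_mul, coeff_toSubring, coeff_C_mul, Subring.coe_one]
  exact hcd

/-- The reduction of a polynomial with a unit coefficient along a ring hom to a nontrivial ring
is nonzero. -/
theorem map_ne_zero_of_isUnit_coeff {A B : Type*} [CommRing A] [CommRing B] [Nontrivial B]
    (r : A →+* B) {P : A[X]} {k : ℕ} (h : IsUnit (P.coeff k)) : P.map r ≠ 0 := by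
  intro h0
  have h1 : (P.map r).coeff k = r (P.coeff k) := coeff_map _ _
  rw [h0, coeff_zero] at h1
  exact (h.map r).ne_zero h1.symm

/-- One polynomial: `G ≠ 0` is `l^(-n)` times a polynomial over `ℤ_(l)` with a unit coefficient. -/
theorem exists_scale_poly_one (G : ℚ[X]) (hG : G ≠ 0) :
    ∃ (n : ℤ) (G' : (↥(GaloisRep.ratLocalizedAt l))[X]),
      G'.map (GaloisRep.ratLocalizedAt l).subtype = C ((l : ℚ) ^ n) * G ∧
      ∃ k, IsUnit (G'.coeff k) := by
  obtain ⟨n, P', h1, _, k, hk⟩ := exists_scale_poly l (fun _ : Unit => G)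
    (fun h => hG (congrFun h ()))
  exact ⟨n, P' (), h1 (), k, hk⟩

end Content

end Fermat.Agent.IgusaLib.Qep
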