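import Mathlib
import Fermat.Agent.IgusaLib.DegQ
import Fermat.Agent.GenusLib.CosetCount

/-!
# S28 (Igusa), leaf [SPAN]: `ψ(N)` elements of `F = ℚ(j(q^d) : d ∣ N)` that are independent over
`ℚ[j]` span `F` up to denominators in `ℚ[j]`

* `exists_common_denominator` : generic statement for a field extension `E / K₀` and `j : E` with
  `[E : K₀(j)] ≤ n`: every `x : E` is `(∑ P_i(j) M_i) / Q(j)` for any `K₀[j]`-independent family
  `M : Fin n → E`;
* `span_full` : the seam statement of the S28 blueprint.
-/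

set_option autoImplicit false

noncomputable section

namespace Fermat.Agent.IgusaLib

open Polynomial IntermediateField ModularCurve ModularCurve.IgusaScheme
open scoped IntermediateField.algebraAdjoinAdjoin

/-- If `[E : K₀(j)] ≤ n` and `M : Fin n → E` is independent over `K₀[j]`, then every `x : E`
satisfies `Q(j) · x = ∑ P_i(j) · M_i` for suitable polynomials `Q ≠ 0`, `P_i`. -/
theorem exists_common_denominator {K₀ E : Type*} [Field K₀] [Field E] [Algebra K₀ E] (j : E)
    (n : ℕ) (hfin : FiniteDimensional K₀⟮j⟯ E) (hrank : Module.finrank K₀⟮j⟯ E ≤ n)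
    (M : Fin n → E)
    (hind : ∀ P : Fin n → K₀[X], ∑ i, aeval j (P i) * M i = 0 → P = 0) (x : E) :
    ∃ (Q : K₀[X]) (P : Fin n → K₀[X]), Q ≠ 0 ∧ aeval j Q * x = ∑ i, aeval j (P i) * M i := by
  classical
  -- every element of the subalgebra `K₀[j]` is a polynomial in `j`
  have hrep : ∀ r : Algebra.adjoin K₀ ({j} : Set E), ∃ P : K₀[X], aeval j P = (r : E) := by
    intro r
    have hr : (r : E) ∈ (aeval j : K₀[X] →ₐ[K₀] E).range := by
      rw [← Algebra.adjoin_singleton_eq_range_aeval]
      exact r.2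
    exact hr
  -- independence over the subalgebra `K₀[j]`
  have hR : LinearIndependent (Algebra.adjoin K₀ ({j} : Set E)) M := by
    rw [Fintype.linearIndependent_iff]
    intro g hg i
    choose P hP using fun i => hrep (g i)
    have h0 : P = 0 := by
      apply hind
      rw [← hg]
      refine Finset.sum_congr rfl fun i _ => ?_
      rw [hP i, Subalgebra.smul_def, smul_eq_mul]
    have h1 := hP i
    rw [h0, Pi.zero_apply, map_zero] at h1
    exact Subtype.ext h1.symm
  -- hence over the field `K₀(j)`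
  have hK : LinearIndependent K₀⟮j⟯ M :=
    (LinearIndependent.iff_fractionRing (Algebra.adjoin K₀ ({j} : Set E)) K₀⟮j⟯).mp hR
  have hcard : Fintype.card (Fin n) = Module.finrank K₀⟮j⟯ E := by
    have h1 := hK.fintype_card_le_finrank
    rw [Fintype.card_fin] at h1 ⊢
    omega
  have hspan := hK.span_eq_top_of_card_eq_finrank' hcard
  have hx : x ∈ Submodule.span K₀⟮j⟯ (Set.range M) := by rw [hspan]; trivial
  obtain ⟨c, hc⟩ := (Submodule.mem_span_range_iff_exists_fun K₀⟮j⟯).mp hx
  -- common denominator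
  obtain ⟨b, hb⟩ := IsLocalization.exist_integer_multiples_of_finite
    (nonZeroDivisors (Algebra.adjoin K₀ ({j} : Set E))) c
  choose a ha using hb
  obtain ⟨Q, hQ⟩ := hrep (b : Algebra.adjoin K₀ ({j} : Set E))
  choose P hP using fun i => hrep (a i)
  refine ⟨Q, P, ?_, ?_⟩
  · rintro rfl
    rw [map_zero] at hQ
    have hb0 : (b : Algebra.adjoin K₀ ({j} : Set E)) = 0 := Subtype.ext hQ.symm
    exact nonZeroDivisors.coe_ne_zero b hb0
  · rw [hQ, ← hc, Finset.mul_sum]
    refine Finset.sum_congr rfl fun i _ => ?_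
    have h1 := congrArg (fun z : K₀⟮j⟯ => (z : E)) (ha i)
    simp only [algebraAdjoinAdjoin.coe_algebraMap] at h1
    rw [hP i, h1]
    rw [IntermediateField.smul_def, smul_eq_mul, Algebra.smul_def, MulMemClass.coe_mul,
      algebraAdjoinAdjoin.coe_algebraMap, mul_assoc]

/-- **[SPAN]** `ψ(N)` elements of `F` which are independent over `ℚ[j]` span `F` up to a common
denominator in `ℚ[j]`. -/
theorem span_full (N : ℕ) [NeZero N] (m : Fin (ModularCurve.dedekindPsi N) → LaurentSeries ℚ)
    (hm : ∀ i, m i ∈ ModularCurve.modularFunctionFieldFull N)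
    (hind : ∀ P : Fin (ModularCurve.dedekindPsi N) → Polynomial ℚ,
      ∑ i, Polynomial.aeval ModularCurve.jq (P i) * m i = 0 → P = 0)
    (x : LaurentSeries ℚ) (hx : x ∈ ModularCurve.modularFunctionFieldFull N) :
    ∃ (Q : Polynomial ℚ) (P : Fin (ModularCurve.dedekindPsi N) → Polynomial ℚ),
      Q ≠ 0 ∧ Polynomial.aeval ModularCurve.jq Q * x
        = ∑ i, Polynomial.aeval ModularCurve.jq (P i) * m i := by
  have hcoe : ∀ P : ℚ[X], ((aeval (jFull N) P : ↥(modularFunctionFieldFull N)) : LaurentSeries ℚ)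
      = aeval jq P := by
    intro P
    show algebraMap ↥(modularFunctionFieldFull N) (LaurentSeries ℚ) (aeval (jFull N) P) = _
    rw [aeval_def, hom_eval₂, aeval_def]
    congr 1
    exact Subsingleton.elim _ _
  obtain ⟨hfin, hrank⟩ := finrank_full_le N
  have hrank' : Module.finrank ℚ⟮jFull N⟯ ↥(modularFunctionFieldFull N) ≤ dedekindPsi N := by
    rw [← Fermat.Agent.GenusLib.Cosets.card_quot N]
    exact hrank
  obtain ⟨Q, P, hQ, h⟩ := exists_common_denominator (jFull N) (dedekindPsi N) hfin hrank'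
    (fun i => (⟨m i, hm i⟩ : ↥(modularFunctionFieldFull N)))
    (fun P hP => hind P (by
      have h := congrArg (fun z : ↥(modularFunctionFieldFull N) => (z : LaurentSeries ℚ)) hP
      simp only [AddSubmonoidClass.coe_finsetSum, MulMemClass.coe_mul, hcoe,
        ZeroMemClass.coe_zero] at h
      exact h))
    ⟨x, hx⟩
  refine ⟨Q, P, hQ, ?_⟩
  have h' := congrArg (fun z : ↥(modularFunctionFieldFull N) => (z : LaurentSeries ℚ)) h
  simp only [AddSubmonoidClass.coe_finsetSum, MulMemClass.coe_mul, hcoe] at h'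
  exact h'

end Fermat.Agent.IgusaLib
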