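import Mathlib
import Fermat.Agent.IgusaLib.QepBasic
import Fermat.Agent.IgusaLib.Gauss
import Fermat.Agent.IgusaLib.Span
import Fermat.Agent.IgusaLib.FinGen

/-!
# S28 (Igusa), `q`-expansion principle, part 1: finiteness over the Gauss valuation ring

`F = modularFunctionFieldFull N`, `Oint l` the Gauss ring of `Gauss.lean`, `O_v = ℚ(j) ∩ Oint l`.
Given `ψ(N)` elements `m i` of `F` with integer `q`-expansions whose reductions modulo `l` are
independent over `𝔽_l[j̄]`, the ring `F ∩ Oint l` is the `O_v`-module spanned by the `m i`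
(`mem_span`); hence every element of `F ∩ Oint l` is integral over `O_v`
(`integral_over_Ov_of_ind`).
-/

set_option autoImplicit false
set_option linter.unusedSectionVars false

noncomputable section

namespace Fermat.Agent.IgusaLib.Qep

open ModularCurve Polynomial

variable (l : ℕ) [Fact l.Prime]

/-! ### Interface to the Gauss ring -/

theorem rho_eq_of_eq {x : LaurentSeries ℚ} (hx : x ∈ Oint l) (a : LaurentSeries (Zl l))
    (h : x = inclZ l a) : rho l ⟨x, hx⟩ = redZ l a := by
  subst h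
  exact rho_coeffMap l a

/-- constants `ℤ_(l) → Oint` -/
def cO : Zl l →+* Oint l :=
  ((HahnSeries.C : ℚ →+* LaurentSeries ℚ).comp (GaloisRep.ratLocalizedAt l).subtype).codRestrict
    (Oint l) (fun a => C_mem_Oint l a)

theorem rho_comp_cO : (rho l).comp (cO l) = (HahnSeries.C : ZMod l →+* _).comp (redZl l) := by
  ext a : 1
  exact rho_C l a

/-- evaluation of a polynomial over `ℤ_(l)` at an element of `Oint` -/
def evO (t : Oint l) (P : (Zl l)[X]) : Oint l := P.eval₂ (cO l) t

theorem coe_evO (t : Oint l) (P : (Zl l)[X]) :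
    ((evO l t P : Oint l) : LaurentSeries ℚ)
      = aeval (t : LaurentSeries ℚ) (P.map (GaloisRep.ratLocalizedAt l).subtype) := by
  have h := hom_eval₂ P (cO l) (Oint l).subtype t
  rw [aeval_def, eval₂_map, algebraMap_eq_C]
  exact h

theorem rho_evO (t : Oint l) (P : (Zl l)[X]) :
    rho l (evO l t P) = aeval (rho l t) (P.map (redZl l)) := by
  have h := hom_eval₂ P (cO l) (rho l) t
  rw [aeval_def, eval₂_map, algebraMap_eq_C, ← rho_comp_cO]
  exact h

theorem jq_mem_Oint : jq ∈ Oint l := by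
  have h := coeffMap_mem_Oint l (jqModC (Zl l))
  have h2 : inclZ l (jqModC (Zl l)) = jq := map_jqModC _
  rwa [h2] at h

/-- `j` as an element of `Oint` -/
def jO : Oint l := ⟨jq, jq_mem_Oint l⟩

theorem rho_jO : rho l (jO l) = jqModC (ZMod l) := by
  have h2 : jq = inclZ l (jqModC (Zl l)) := (map_jqModC _).symm
  have h3 : redZ l (jqModC (Zl l)) = jqModC (ZMod l) := map_jqModC _
  rw [← h3]
  exact rho_eq_of_eq l _ _ h2

theorem intSeries_mem_Oint (s : LaurentSeries ℤ) : coeffMap (Int.castRingHom ℚ) s ∈ Oint l := by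
  have h := coeffMap_mem_Oint l (coeffMap (Int.castRingHom (Zl l)) s)
  have h2 : inclZ l (coeffMap (Int.castRingHom (Zl l)) s) = coeffMap (Int.castRingHom ℚ) s := by
    rw [inclZ, coeffMap_coeffMap]
    exact coeffMap_congr (RingHom.ext_int _ _) s
  rwa [h2] at h

theorem rho_intSeries (s : LaurentSeries ℤ) :
    rho l ⟨coeffMap (Int.castRingHom ℚ) s, intSeries_mem_Oint l s⟩
      = coeffMap (Int.castRingHom (ZMod l)) s := by
  have h2 : coeffMap (Int.castRingHom ℚ) s = inclZ l (coeffMap (Int.castRingHom (Zl l)) s) := by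
    rw [inclZ, coeffMap_coeffMap]
    exact coeffMap_congr (RingHom.ext_int _ _) s
  rw [rho_eq_of_eq l _ _ h2, redZ, coeffMap_coeffMap]
  exact coeffMap_congr (RingHom.ext_int _ _) s

/-! ### The independent family -/

section Family

variable (N : ℕ) [NeZero N] (m : Fin (dedekindPsi N) → LaurentSeries ℤ)

/-- the `m i` as elements of `Oint` -/
def mO (i : Fin (dedekindPsi N)) : Oint l :=
  ⟨coeffMap (Int.castRingHom ℚ) (m i), intSeries_mem_Oint l (m i)⟩

theorem rho_mO (i : Fin (dedekindPsi N)) :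
    rho l (mO l N m i) = coeffMap (Int.castRingHom (ZMod l)) (m i) :=
  rho_intSeries l (m i)

/-- the combination `∑ P_i(j) m_i` as an element of `Oint` -/
def comb (P' : Fin (dedekindPsi N) → (Zl l)[X]) : Oint l :=
  ∑ i, evO l (jO l) (P' i) * mO l N m i

theorem rho_comb (P' : Fin (dedekindPsi N) → (Zl l)[X]) :
    rho l (comb l N m P') = ∑ i, aeval (jqModC (ZMod l)) ((P' i).map (redZl l))
      * coeffMap (Int.castRingHom (ZMod l)) (m i) := by
  simp only [comb, map_sum, map_mul, rho_evO, rho_jO, rho_mO]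

theorem coe_comb (P' : Fin (dedekindPsi N) → (Zl l)[X]) :
    ((comb l N m P' : Oint l) : LaurentSeries ℚ)
      = ∑ i, aeval jq ((P' i).map (GaloisRep.ratLocalizedAt l).subtype)
          * coeffMap (Int.castRingHom ℚ) (m i) := by
  rw [comb, AddSubmonoidClass.coe_finsetSum]
  refine Finset.sum_congr rfl fun i _ => ?_
  rw [Subring.coe_mul, coe_evO]
  rfl

variable {m}

theorem rho_comb_ne_zero
    (hind : ∀ P : Fin (dedekindPsi N) → Polynomial (ZMod l),
      ∑ i, aeval (jqModC (ZMod l)) (P i) * coeffMap (Int.castRingHom (ZMod l)) (m i) = 0 → P = 0)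
    (P' : Fin (dedekindPsi N) → (Zl l)[X]) (h : ∃ i, (P' i).map (redZl l) ≠ 0) :
    rho l (comb l N m P') ≠ 0 := by
  intro h0
  rw [rho_comb] at h0
  have h1 := hind (fun i => (P' i).map (redZl l)) h0
  obtain ⟨i, hi⟩ := h
  exact hi (congrFun h1 i)

/-- The `m i` are independent over `ℚ[j]`. -/
theorem ind_rat
    (hind : ∀ P : Fin (dedekindPsi N) → Polynomial (ZMod l),
      ∑ i, aeval (jqModC (ZMod l)) (P i) * coeffMap (Int.castRingHom (ZMod l)) (m i) = 0 → P = 0)
    (P : Fin (dedekindPsi N) → ℚ[X])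
    (h : ∑ i, aeval jq (P i) * coeffMap (Int.castRingHom ℚ) (m i) = 0) : P = 0 := by
  by_contra hP
  obtain ⟨n, P', hP', i, k, hu⟩ := exists_scale_poly l P hP
  have h1 : ((comb l N m P' : Oint l) : LaurentSeries ℚ) = 0 := by
    rw [coe_comb]
    simp only [hP', map_mul, aeval_C, mul_assoc]
    rw [← Finset.mul_sum, h, mul_zero]
  have h2 : comb l N m P' = 0 := Subtype.ext h1
  exact rho_comb_ne_zero l N hind P' ⟨i, map_ne_zero_of_isUnit_coeff _ hu⟩ (by rw [h2, map_zero])

theorem aeval_jq_mem_adjoin (G : ℚ[X]) : aeval jq G ∈ IntermediateField.adjoin ℚ {jq} :=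
  IntermediateField.algebra_adjoin_le_adjoin ℚ _ (aeval_mem_adjoin_singleton ℚ jq)

/-- Every element of `F ∩ Oint` is a combination of the `m i` with coefficients in
`O_v = ℚ(j) ∩ Oint`. -/
theorem exists_coeffs
    (hm : ∀ i, coeffMap (Int.castRingHom ℚ) (m i) ∈ modularFunctionFieldFull N)
    (hind : ∀ P : Fin (dedekindPsi N) → Polynomial (ZMod l),
      ∑ i, aeval (jqModC (ZMod l)) (P i) * coeffMap (Int.castRingHom (ZMod l)) (m i) = 0 → P = 0)
    {y : LaurentSeries ℚ} (hy : y ∈ modularFunctionFieldFull N) (hyO : y ∈ Oint l) :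
    ∃ c : Fin (dedekindPsi N) → LaurentSeries ℚ,
      (∀ i, c i ∈ (IntermediateField.adjoin ℚ {jq}).toSubring ⊓ Oint l) ∧
      y = ∑ i, c i * coeffMap (Int.castRingHom ℚ) (m i) := by
  obtain ⟨Q, P, hQ, hrel⟩ := span_full N (fun i => coeffMap (Int.castRingHom ℚ) (m i)) hm
    (ind_rat l N hind) y hy
  -- joint scaling of `(Q, P)`
  obtain ⟨n, PP', hPP', o, k, hu⟩ := exists_scale_poly l
    (fun o : Option (Fin (dedekindPsi N)) => o.elim Q P) (fun h => hQ (congrFun h none))
  set Q' : (Zl l)[X] := PP' none with hQ'def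
  set P' : Fin (dedekindPsi N) → (Zl l)[X] := fun i => PP' (some i) with hP'def
  have hQ' : Q'.map (GaloisRep.ratLocalizedAt l).subtype = C ((l : ℚ) ^ n) * Q := hPP' none
  have hP'' : ∀ i, (P' i).map (GaloisRep.ratLocalizedAt l).subtype = C ((l : ℚ) ^ n) * P i :=
    fun i => hPP' (some i)
  set bO : Oint l := evO l (jO l) Q' with hbO
  have hb : ((bO : Oint l) : LaurentSeries ℚ)
      = algebraMap ℚ (LaurentSeries ℚ) ((l : ℚ) ^ n) * aeval jq Q := by
    rw [hbO, coe_evO, hQ', map_mul, aeval_C]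
    rfl
  have ha : ((comb l N m P' : Oint l) : LaurentSeries ℚ)
      = algebraMap ℚ (LaurentSeries ℚ) ((l : ℚ) ^ n) * (aeval jq Q * y) := by
    rw [coe_comb, hrel]
    simp only [hP'', map_mul, aeval_C, mul_assoc]
    rw [Finset.mul_sum]
  have hmul : bO * (⟨y, hyO⟩ : Oint l) = comb l N m P' :=
    Subtype.ext (by rw [Subring.coe_mul, hb, ha, mul_assoc])
  have hrho : rho l bO * rho l (⟨y, hyO⟩ : Oint l) = rho l (comb l N m P') := by
    rw [← map_mul, hmul]
  -- the denominator is nonzero modulo `l`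
  have hQred : Q'.map (redZl l) ≠ 0 := by
    intro h0
    have hb0 : rho l bO = 0 := by rw [hbO, rho_evO, h0, map_zero]
    rw [hb0, zero_mul] at hrho
    have h1 : ∀ i, (P' i).map (redZl l) = 0 := by
      intro i
      by_contra hne
      exact rho_comb_ne_zero l N hind P' ⟨i, hne⟩ hrho.symm
    cases o with
    | none => exact map_ne_zero_of_isUnit_coeff (redZl l) hu h0
    | some i => exact map_ne_zero_of_isUnit_coeff (redZl l) hu (h1 i)
  have hbne : rho l bO ≠ 0 := by
    rw [hbO, rho_evO, rho_jO]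
    exact aeval_jqModC_ne_zero _ hQred
  have hb0 : (bO : LaurentSeries ℚ) ≠ 0 := fun h0 =>
    hbne (by rw [show bO = 0 from Subtype.ext h0, map_zero])
  refine ⟨fun i => (bO : LaurentSeries ℚ)⁻¹ * (evO l (jO l) (P' i) : LaurentSeries ℚ),
    fun i => ⟨?_, ?_⟩, ?_⟩
  · -- in `ℚ(j)`
    show (bO : LaurentSeries ℚ)⁻¹ * (evO l (jO l) (P' i) : LaurentSeries ℚ)
      ∈ IntermediateField.adjoin ℚ {jq}
    refine mul_mem (inv_mem ?_) ?_
    · rw [hbO, coe_evO]; exact aeval_jq_mem_adjoin _
    · rw [coe_evO]; exact aeval_jq_mem_adjoin _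
  · -- in `Oint`
    refine mem_Oint_of_mul l (evO l (jO l) (P' i)).2 bO.2 hbne ?_
    show (bO : LaurentSeries ℚ)⁻¹ * (evO l (jO l) (P' i) : LaurentSeries ℚ)
      * (bO : LaurentSeries ℚ) = (evO l (jO l) (P' i) : LaurentSeries ℚ)
    rw [mul_comm _ (evO l (jO l) (P' i) : LaurentSeries ℚ), mul_assoc, inv_mul_cancel₀ hb0,
      mul_one]
  · have h2 : (bO : LaurentSeries ℚ) * y
        = ∑ i, (evO l (jO l) (P' i) : LaurentSeries ℚ) * coeffMap (Int.castRingHom ℚ) (m i) := by
      have h3 := congrArg (Subtype.val : Oint l → LaurentSeries ℚ) hmul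
      rw [Subring.coe_mul, comb, AddSubmonoidClass.coe_finsetSum] at h3
      exact h3
    simp only [mul_assoc]
    rw [← Finset.mul_sum, ← h2, ← mul_assoc, inv_mul_cancel₀ hb0, one_mul]

end Family

end Fermat.Agent.IgusaLib.Qep

namespace Fermat.Agent.IgusaLib

open ModularCurve Polynomial

/-- **(Q2) [FIN]**, relative to the independent family: every element of `F ∩ Oint` is integral
over the Gauss valuation ring `O_v = ℚ(j) ∩ Oint` of `ℚ(j)`. -/
theorem integral_over_Ov_of_ind (N : ℕ) [NeZero N] (l : ℕ) [Fact l.Prime]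
    (m : Fin (dedekindPsi N) → LaurentSeries ℤ)
    (hm : ∀ i, coeffMap (Int.castRingHom ℚ) (m i) ∈ modularFunctionFieldFull N)
    (hind : ∀ P : Fin (dedekindPsi N) → Polynomial (ZMod l),
      ∑ i, aeval (jqModC (ZMod l)) (P i) * coeffMap (Int.castRingHom (ZMod l)) (m i) = 0 → P = 0)
    {x : LaurentSeries ℚ} (hx : x ∈ modularFunctionFieldFull N) (hxO : x ∈ Oint l) :
    IsIntegral ↥((IntermediateField.adjoin ℚ {jq}).toSubring ⊓ Oint l) x :=
  isIntegral_of_span ((IntermediateField.adjoin ℚ {jq}).toSubring ⊓ Oint l)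
    (fun i => coeffMap (Int.castRingHom ℚ) (m i))
    ((modularFunctionFieldFull N).toSubring ⊓ Oint l)
    (fun _ hy => Qep.exists_coeffs l N hm hind hy.1 hy.2)
    (fun i => ⟨hm i, Qep.intSeries_mem_Oint l (m i)⟩) x ⟨hx, hxO⟩

end Fermat.Agent.IgusaLib
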