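import Fermat.Agent.IgusaLib.QepInt
import Fermat.Agent.IgusaLib.Val
import Fermat.Agent.IgusaLib.Ker

/-!
# S28 (Igusa), [QEP part 2]: the integrality leaf [INT] and the kernel of the reduction

* `QepB.int_fin`, `QepB.int_inf` : **[INT]**, `O_v ∩ ℚ[j] ⊆ ℤ_(ℓ)[j]` and
  `O_v ∩ ℚ[j⁻¹] ⊆ ℤ_(ℓ)[j⁻¹]`;
* `ker_fin_of_Q2`, `ker_inf_of_Q2` : the kernel of the reduction map on the two charts is
  generated by `ℓ`, relative to the finiteness statement (Q2).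
-/

set_option autoImplicit false

noncomputable section

namespace Fermat.Agent.IgusaLib

open Polynomial ModularCurve ModularCurve.IgusaScheme

namespace QepB

variable (l : ℕ) [Fact l.Prime]

/-- The constants of `ℤ_(ℓ)` lie in the Gauss ring. -/
theorem algebraMap_mem_Oint (a : Zl l) : algebraMap ℚ (LaurentSeries ℚ) (a : ℚ) ∈ Oint l := by
  have h : algebraMap ℚ (LaurentSeries ℚ) (a : ℚ) = HahnSeries.C (a : ℚ) := by
    rw [algebraMap_laurentSeries_eq_single]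
    rfl
  rw [h]
  exact C_mem_Oint l a

/-- The reduction of `j⁻¹`. -/
theorem rho_jq_inv (h : jq⁻¹ ∈ Oint l) : rho l ⟨jq⁻¹, h⟩ = (jqModC (ZMod l))⁻¹ := by
  have hj := jq_mem_Oint l
  have h1 : (⟨jq⁻¹, h⟩ : Oint l) * ⟨jq, hj⟩ = 1 := Subtype.ext (inv_mul_cancel₀ jq_ne_zero)
  have h2 := congrArg (rho l) h1
  rw [map_mul, map_one, rho_jq] at h2
  exact eq_inv_of_mul_eq_one_left h2

/-- **[INT]** at the finite chart: `O_v ∩ ℚ[j] ⊆ ℤ_(ℓ)[j]`. -/
theorem int_fin : Ov l ⊓ (Algebra.adjoin ℚ {jq}).toSubring ≤ AJ l jq := by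
  rintro x ⟨hxO, hxA⟩
  have hxA' : x ∈ Algebra.adjoin ℚ {jq} := hxA
  rw [Algebra.adjoin_singleton_eq_range_aeval] at hxA'
  obtain ⟨G, rfl⟩ := hxA'
  have htr : Transcendental (ZMod l) (rho l ⟨jq, jq_mem_Oint l⟩) := by
    rw [rho_jq]
    exact transcendental_jqModC _
  obtain ⟨G', hG'⟩ := exists_map_eq_of_aeval_mem l (Oint l) (rho l) (algebraMap_mem_Oint l)
    jq (jq_mem_Oint l) htr G (Ov_le_Oint l hxO)
  exact mem_AJ.mpr ⟨G', by rw [hG']; rfl⟩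

/-- **[INT]** at the chart at infinity: `O_v ∩ ℚ[j⁻¹] ⊆ ℤ_(ℓ)[j⁻¹]`. -/
theorem int_inf : Ov l ⊓ (Algebra.adjoin ℚ {jq⁻¹}).toSubring ≤ AJ l jq⁻¹ := by
  rintro x ⟨hxO, hxA⟩
  have hxA' : x ∈ Algebra.adjoin ℚ {jq⁻¹} := hxA
  rw [Algebra.adjoin_singleton_eq_range_aeval] at hxA'
  obtain ⟨G, rfl⟩ := hxA'
  have htr : Transcendental (ZMod l) (rho l ⟨jq⁻¹, jq_inv_mem_Oint l⟩) := by
    rw [rho_jq_inv]
    exact transcendental_inv_of_transcendental _ (transcendental_jqModC _)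
  obtain ⟨G', hG'⟩ := exists_map_eq_of_aeval_mem l (Oint l) (rho l) (algebraMap_mem_Oint l)
    jq⁻¹ (jq_inv_mem_Oint l) htr G (Ov_le_Oint l hxO)
  exact mem_AJ.mpr ⟨G', by rw [hG']; rfl⟩

end QepB

variable (N : ℕ) [NeZero N] (l : ℕ) [Fact l.Prime]

/-- **Kernel of the reduction on the finite chart**, relative to (Q2). -/
theorem ker_fin_of_Q2
    (hQ2 : ∀ x ∈ modularFunctionFieldFull N, x ∈ Oint l → IsIntegral ↥(Ov l) x)
    (x : ↥(modularFunctionFieldFull N)) (hx : x ∈ chartAlgFin N l)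
    (hO : (x : LaurentSeries ℚ) ∈ Oint l) (h0 : rho l ⟨(x : LaurentSeries ℚ), hO⟩ = 0) :
    ∃ y : ↥(modularFunctionFieldFull N), y ∈ chartAlgFin N l ∧
      x = (l : ↥(modularFunctionFieldFull N)) * y :=
  ker_fin_of N l (Ov l) (fun _ hx => hx.1) (fun _ hx h => mem_Ov_of_isIntegral l hx h) hQ2
    (QepB.int_fin l) x hx hO h0

/-- **Kernel of the reduction on the chart at infinity**, relative to (Q2). -/
theorem ker_inf_of_Q2
    (hQ2 : ∀ x ∈ modularFunctionFieldFull N, x ∈ Oint l → IsIntegral ↥(Ov l) x)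
    (x : ↥(modularFunctionFieldFull N)) (hx : x ∈ chartAlgInf N l)
    (hO : (x : LaurentSeries ℚ) ∈ Oint l) (h0 : rho l ⟨(x : LaurentSeries ℚ), hO⟩ = 0) :
    ∃ y : ↥(modularFunctionFieldFull N), y ∈ chartAlgInf N l ∧
      x = (l : ↥(modularFunctionFieldFull N)) * y :=
  ker_inf_of N l (Ov l) (fun _ hx => hx.1) (fun _ hx h => mem_Ov_of_isIntegral l hx h) hQ2
    (QepB.int_inf l) x hx hO h0

end Fermat.Agent.IgusaLib
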