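import Mathlib
import Fermat.Agent.IgusaLib.QepA
import Fermat.Agent.IgusaLib.Val
import Fermat.Agent.IgusaLib.Descent

/-!
# S28 (Igusa), `q`-expansion principle: (Q2) [FIN]

For `l ∤ N`, every element of `F = modularFunctionFieldFull N` with `l`-integral `q`-expansion
(i.e. in the Gauss ring `Oint l`) is integral over the Gauss valuation ring
`O_v = ℚ(j) ∩ Oint l` of `ℚ(j)`.
-/

set_option autoImplicit false

noncomputable section

namespace Fermat.Agent.IgusaLib

open ModularCurve

/-- **(Q2) [FIN]**: for `l ∤ N`, every element of `F ∩ Oint` is integral over `O_v`. -/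
theorem integral_over_Ov (N : ℕ) [NeZero N] (l : ℕ) [Fact l.Prime] (hlN : ¬ l ∣ N)
    {x : LaurentSeries ℚ} (hx : x ∈ modularFunctionFieldFull N) (hxO : x ∈ Oint l) :
    IsIntegral ↥(Ov l) x := by
  obtain ⟨m, hm, hind⟩ := ind_modl N l hlN
  exact integral_over_Ov_of_ind N l m hm hind hx hxO

end Fermat.Agent.IgusaLib
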