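import Fermat.Agent.IgusaLib.Defs
import Fermat.Agent.IgusaLib.Tensor
import Fermat.Prelude.Thm_ModularCurve_coeff_jqModC_neg_one

/-!
# S28 (Igusa), [QEP part 2]: the integrality leaf [INT], generic form

* `QepB.redZl_ker` : the kernel of `ℤ_(ℓ) → 𝔽_ℓ` is `ℓ ℤ_(ℓ)`;
* `QepB.exists_pow_mul_coeff_mem` : every rational polynomial has `ℓ`-integral coefficients after
  multiplication by a power of `ℓ`;
* `QepB.transcendental_jqModC` : over a field, the `j`-series is transcendental;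
* `QepB.coeff_mem_of_aeval_mem` : **[INT]**, generic form: if `O` is a subring of `ℚ((q))`
  containing the constants of `ℤ_(ℓ)`, `ρ : O → 𝔽_ℓ((q))` is a ring homomorphism, `t ∈ O` has
  transcendental reduction and `G ∈ ℚ[X]` satisfies `G(t) ∈ O`, then `G ∈ ℤ_(ℓ)[X]`.
-/

set_option autoImplicit false

noncomputable section

namespace Fermat.Agent.IgusaLib

namespace QepB

open Polynomial ModularCurve

/-- The kernel of the reduction `ℤ_(ℓ) → 𝔽_ℓ` is generated by `ℓ`. -/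
theorem redZl_ker (l : ℕ) [Fact l.Prime] (a : Zl l) (h : redZl l a = 0) :
    ∃ b : Zl l, (a : ℚ) = (l : ℚ) * (b : ℚ) := by
  have h1 : (((a : ℚ).num : ℤ) : ZMod l) = 0 := by
    have h2 : ((a : ℚ) : ZMod l) = 0 := h
    rw [Rat.cast_def] at h2
    rcases div_eq_zero_iff.mp h2 with h3 | h3
    · exact h3
    · exact absurd h3 (Zl_den_ne_zero l a)
  rw [ZMod.intCast_zmod_eq_zero_iff_dvd] at h1
  obtain ⟨k, hk⟩ := h1
  have hden0 : (((a : ℚ).den : ℤ) : ℚ) ≠ 0 := by
    exact_mod_cast (a : ℚ).den_nz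
  have hb : ((k : ℚ) / (((a : ℚ).den : ℤ) : ℚ)) ∈ GaloisRep.ratLocalizedAt l := by
    show ((k : ℚ) / (((a : ℚ).den : ℤ) : ℚ)).den.Coprime l
    have hdvd : (((k : ℚ) / (((a : ℚ).den : ℤ) : ℚ)).den : ℤ) ∣ ((a : ℚ).den : ℤ) := by
      rw [← Rat.divInt_eq_div]
      exact Rat.den_dvd k _
    exact Nat.Coprime.coprime_dvd_left (Int.natCast_dvd_natCast.mp hdvd) a.2
  refine ⟨⟨_, hb⟩, ?_⟩
  show (a : ℚ) = (l : ℚ) * ((k : ℚ) / (((a : ℚ).den : ℤ) : ℚ))
  have h3 : (a : ℚ) = ((a : ℚ).num : ℚ) / (((a : ℚ).den : ℤ) : ℚ) := by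
    have := (Rat.num_div_den (a : ℚ)).symm
    exact_mod_cast this
  refine h3.trans ?_
  rw [hk]
  push_cast
  rw [mul_div_assoc]

/-- A rational number becomes `ℓ`-integral after multiplication by a power of `ℓ`. -/
theorem exists_pow_mul_mem (l : ℕ) [Fact l.Prime] (c : ℚ) :
    ∃ m : ℕ, (l : ℚ) ^ m * c ∈ GaloisRep.ratLocalizedAt l := by
  have hl : l.Prime := Fact.out
  obtain ⟨m, d', hd', hden⟩ := Nat.exists_eq_pow_mul_and_not_dvd c.den_nz l hl.ne_one
  refine ⟨m, ?_⟩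
  have hd0 : d' ≠ 0 := by
    rintro rfl
    exact c.den_nz (by rw [hden, mul_zero])
  have hl0 : (l : ℚ) ≠ 0 := by exact_mod_cast hl.ne_zero
  have hd0' : ((d' : ℤ) : ℚ) ≠ 0 := by exact_mod_cast hd0
  have h1 : (l : ℚ) ^ m * c = (c.num : ℚ) / ((d' : ℤ) : ℚ) := by
    have h2 : c = (c.num : ℚ) / ((l : ℚ) ^ m * ((d' : ℤ) : ℚ)) := by
      have h3 := (Rat.num_div_den c).symm
      rw [hden] at h3
      have h4 : ((l ^ m * d' : ℕ) : ℚ) = (l : ℚ) ^ m * ((d' : ℤ) : ℚ) := by push_cast; ring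
      rw [h4] at h3
      exact h3
    rw [h2]
    have h5 : ((c.num : ℚ) / ((l : ℚ) ^ m * ((d' : ℤ) : ℚ))).num = c.num := by rw [← h2]
    rw [h5]
    field_simp
  show ((l : ℚ) ^ m * c).den.Coprime l
  rw [h1]
  have hdvd : (((c.num : ℚ) / ((d' : ℤ) : ℚ)).den : ℤ) ∣ (d' : ℤ) := by
    rw [← Rat.divInt_eq_div]
    exact Rat.den_dvd _ _
  have hdvd' : ((c.num : ℚ) / ((d' : ℤ) : ℚ)).den ∣ d' := Int.natCast_dvd_natCast.mp hdvd
  rw [Nat.coprime_comm]
  refine (Nat.Prime.coprime_iff_not_dvd hl).mpr fun h => hd' (h.trans hdvd')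

/-- Every rational polynomial has `ℓ`-integral coefficients after multiplication by a power of
`ℓ`. -/
theorem exists_pow_mul_coeff_mem (l : ℕ) [Fact l.Prime] (G : ℚ[X]) :
    ∃ m : ℕ, ∀ i, (l : ℚ) ^ m * G.coeff i ∈ GaloisRep.ratLocalizedAt l := by
  choose e he using exists_pow_mul_mem l
  refine ⟨G.support.sup fun i => e (G.coeff i), fun i => ?_⟩
  by_cases hi : i ∈ G.support
  · have hle : e (G.coeff i) ≤ G.support.sup fun i => e (G.coeff i) :=
      Finset.le_sup (f := fun i => e (G.coeff i)) hi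
    obtain ⟨k, hk⟩ := Nat.exists_eq_add_of_le hle
    rw [hk, pow_add, mul_comm ((l : ℚ) ^ e (G.coeff i)), mul_assoc]
    exact mul_mem (pow_mem (natCast_mem (GaloisRep.ratLocalizedAt l) l) k) (he (G.coeff i))
  · rw [Polynomial.notMem_support_iff.mp hi, mul_zero]
    exact zero_mem _

/-- Over a field, the `j`-series `q⁻¹ + 744 + …` is transcendental over the constants. -/
theorem transcendental_jqModC (k : Type*) [Field k] : Transcendental k (jqModC k) := by
  intro halg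
  have hint : IsIntegral k (jqModC k) := halg.isIntegral
  have hint' : IsIntegral (PowerSeries k) (jqModC k) :=
    hint.map_of_comp_eq (algebraMap k (PowerSeries k)) (RingHom.id (LaurentSeries k))
      (by ext x; rfl)
  obtain ⟨f, hf⟩ := (IsIntegrallyClosed.isIntegral_iff (R := PowerSeries k)
    (K := LaurentSeries k)).mp hint'
  have h1 : (jqModC k).coeff (-1) = 0 := by
    rw [← hf]
    exact ofPowerSeries_coeff_of_neg f (by norm_num)
  rw [coeff_jqModC_neg_one] at h1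
  exact one_ne_zero h1

section Generic

variable (l : ℕ) [Fact l.Prime] (O : Subring (LaurentSeries ℚ))
  (ρ : ↥O →+* LaurentSeries (ZMod l))
  (hC : ∀ a : Zl l, algebraMap ℚ (LaurentSeries ℚ) (a : ℚ) ∈ O)

/-- The constants `ℤ_(ℓ) → O`. -/
def constHom : Zl l →+* ↥O :=
  ((algebraMap ℚ (LaurentSeries ℚ)).comp (GaloisRep.ratLocalizedAt l).subtype).codRestrict O hC

/-- Evaluation `ℤ_(ℓ)[X] → O` at an element `t ∈ O`. -/
def evalHom (t : LaurentSeries ℚ) (ht : t ∈ O) : (Zl l)[X] →+* ↥O :=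
  Polynomial.eval₂RingHom (constHom l O hC) ⟨t, ht⟩

omit [Fact l.Prime] in
theorem coe_evalHom (t : LaurentSeries ℚ) (ht : t ∈ O) (G' : (Zl l)[X]) :
    ((evalHom l O hC t ht G' : ↥O) : LaurentSeries ℚ) =
      aeval t (G'.map (GaloisRep.ratLocalizedAt l).subtype) := by
  have h1 : ((evalHom l O hC t ht G' : ↥O) : LaurentSeries ℚ) =
      O.subtype (Polynomial.eval₂ (constHom l O hC) ⟨t, ht⟩ G') := rfl
  rw [h1, Polynomial.hom_eval₂, Polynomial.aeval_def, Polynomial.eval₂_map]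
  rfl

theorem rho_evalHom (t : LaurentSeries ℚ) (ht : t ∈ O) (G' : (Zl l)[X]) :
    ρ (evalHom l O hC t ht G') = aeval (ρ ⟨t, ht⟩) (G'.map (redZl l)) := by
  have h1 : ρ (evalHom l O hC t ht G') =
      ρ (Polynomial.eval₂ (constHom l O hC) ⟨t, ht⟩ G') := rfl
  rw [h1, Polynomial.hom_eval₂, Polynomial.aeval_def, Polynomial.eval₂_map]
  congr 1
  exact ratLocalizedAt_ringHom_ext l _ _

include hC in
/-- One step of **[INT]**: if `ℓ H ∈ ℤ_(ℓ)[X]` and `H(t) ∈ O`, then `H ∈ ℤ_(ℓ)[X]`. -/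
theorem coeff_mem_step (t : LaurentSeries ℚ) (ht : t ∈ O)
    (htr : Transcendental (ZMod l) (ρ ⟨t, ht⟩)) (H : ℚ[X])
    (hH : ∀ i, (l : ℚ) * H.coeff i ∈ GaloisRep.ratLocalizedAt l) (hHO : aeval t H ∈ O) :
    ∀ i, H.coeff i ∈ GaloisRep.ratLocalizedAt l := by
  have hl0 : (l : ℚ) ≠ 0 := by exact_mod_cast (Fact.out : l.Prime).ne_zero
  have hcoe : (↑(C (l : ℚ) * H).coeffs : Set ℚ) ⊆ GaloisRep.ratLocalizedAt l := by
    intro c hc
    obtain ⟨i, -, rfl⟩ := Polynomial.mem_coeffs_iff.mp hc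
    rw [coeff_C_mul]
    exact hH i
  set G' : (Zl l)[X] := (C (l : ℚ) * H).toSubring (GaloisRep.ratLocalizedAt l) hcoe with hG'
  have hmap : G'.map (GaloisRep.ratLocalizedAt l).subtype = C (l : ℚ) * H :=
    Polynomial.map_toSubring _ _ _
  have h1 : evalHom l O hC t ht G' = (l : ↥O) * ⟨aeval t H, hHO⟩ := by
    apply Subtype.ext
    rw [coe_evalHom, hmap, map_mul, aeval_C, map_natCast]
    rfl
  have h2 : ρ (evalHom l O hC t ht G') = 0 := by
    rw [h1, map_mul, map_natCast]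
    have h0 : ((l : ℕ) : LaurentSeries (ZMod l)) = 0 := by
      rw [← map_natCast (HahnSeries.C : ZMod l →+* LaurentSeries (ZMod l)), ZMod.natCast_self,
        map_zero]
    rw [h0, zero_mul]
  rw [rho_evalHom] at h2
  have h3 : G'.map (redZl l) = 0 := (transcendental_iff.mp htr) _ h2
  intro i
  have h4 : redZl l (G'.coeff i) = 0 := by
    rw [← coeff_map, h3, coeff_zero]
  obtain ⟨b, hb⟩ := redZl_ker l _ h4
  have h5 : ((G'.coeff i : Zl l) : ℚ) = (l : ℚ) * H.coeff i := by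
    rw [hG', Polynomial.coeff_toSubring, coeff_C_mul]
  have h6 : H.coeff i = (b : ℚ) := mul_left_cancel₀ hl0 (h5.symm.trans hb)
  rw [h6]
  exact b.2

include hC in
/-- **[INT]**, generic form: if `t ∈ O` has transcendental reduction and `G(t) ∈ O` for a rational
polynomial `G`, then `G` has `ℓ`-integral coefficients. -/
theorem coeff_mem_of_aeval_mem (t : LaurentSeries ℚ) (ht : t ∈ O)
    (htr : Transcendental (ZMod l) (ρ ⟨t, ht⟩)) (G : ℚ[X]) (hG : aeval t G ∈ O) :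
    ∀ i, G.coeff i ∈ GaloisRep.ratLocalizedAt l := by
  have key : ∀ m : ℕ, ∀ H : ℚ[X], (∀ i, (l : ℚ) ^ m * H.coeff i ∈ GaloisRep.ratLocalizedAt l) →
      aeval t H ∈ O → ∀ i, H.coeff i ∈ GaloisRep.ratLocalizedAt l := by
    intro m
    induction m with
    | zero =>
      intro H hH _ i
      have := hH i
      rwa [pow_zero, one_mul] at this
    | succ m ih =>
      intro H hH hHO
      refine ih H ?_ hHO
      have hstep := coeff_mem_step l O ρ hC t ht htr (C ((l : ℚ) ^ m) * H)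
        (fun i => by
          rw [coeff_C_mul, ← mul_assoc, ← pow_succ']
          exact hH i)
        (by
          rw [map_mul, aeval_C, map_pow, map_natCast]
          exact O.mul_mem (pow_mem (natCast_mem O l) m) hHO)
      intro i
      have := hstep i
      rwa [coeff_C_mul] at this
  obtain ⟨m, hm⟩ := exists_pow_mul_coeff_mem l G
  exact key m G hm hG

include hC in
/-- **[INT]**, generic form, as a lift to `ℤ_(ℓ)[X]`. -/
theorem exists_map_eq_of_aeval_mem (t : LaurentSeries ℚ) (ht : t ∈ O)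
    (htr : Transcendental (ZMod l) (ρ ⟨t, ht⟩)) (G : ℚ[X]) (hG : aeval t G ∈ O) :
    ∃ G' : (Zl l)[X], G'.map (GaloisRep.ratLocalizedAt l).subtype = G := by
  have h := coeff_mem_of_aeval_mem l O ρ hC t ht htr G hG
  have hcoe : (↑G.coeffs : Set ℚ) ⊆ GaloisRep.ratLocalizedAt l := by
    intro c hc
    obtain ⟨i, -, rfl⟩ := Polynomial.mem_coeffs_iff.mp hc
    exact h i
  exact ⟨G.toSubring (GaloisRep.ratLocalizedAt l) hcoe, Polynomial.map_toSubring _ _ _⟩

end Generic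

end QepB

end Fermat.Agent.IgusaLib
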