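import Mathlib
import Fermat.Agent.IgusaLib.FormalOrd

/-!
# [TOWER] (ALGEBRAIC): the generators `j(q^d)`, `d ∣ N`, are algebraic over `k(j)`

Given `PrimeData k p` for all primes `p ∣ N`: `Φ_p(J, V_p J) = 0` (from the factorisation `hΦ`
and injectivity of `V_p`), hence `Φ_p(V_d J, V_{dp} J) = 0`, with `Φ_p` monic in `Y`.  By induction
on `d ∣ N` all `V_d J` are integral over `k(J)`, and `L_N = k(V_d J : d ∣ N)` is finite over `k(J)`.
-/

set_option autoImplicit false

noncomputable section

namespace Fermat.Agent.IgusaLib.TowerAlg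

open ModularCurve Polynomial Fermat.Agent.IgusaLib

variable {k : Type*} [Field k]

/-! ### Naturality of specialised evaluation -/

theorem map_eval_map_ev (φ : LaurentSeries k →+* LaurentSeries k)
    (hφ : ∀ c : k, φ (HahnSeries.C c) = HahnSeries.C c) (Q : k[X][X]) (x a : LaurentSeries k) :
    (Q.map (ev (φ x))).eval (φ a) = φ ((Q.map (ev x)).eval a) := by
  rw [eval_map, eval_map, ← comp_ev_of_fix φ hφ, ← hom_eval₂]

theorem Vd_injective (d : ℕ) (hd : d ≠ 0) : Function.Injective (Vd k d) := by
  have : NeZero d := ⟨hd⟩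
  rw [Vd_eq]
  exact qExpand_injective d

/-! ### The modular polynomial of a `PrimeData` -/

section Prime

variable {p : ℕ}

theorem isLead_Vd_jqModC (d : ℕ) (hd : d ≠ 0) : IsLead (Vd k d (jqModC k)) (-(d : ℤ)) 1 := by
  have h := (isLead_jqModC (k := k)).Vd hd
  rwa [mul_neg_one] at h

theorem ev_Vd_injective (d : ℕ) (hd : d ≠ 0) : Function.Injective (ev (Vd k d (jqModC k))) :=
  aeval_injective_of_isLead (isLead_Vd_jqModC d hd)
    (by exact_mod_cast Nat.pos_of_ne_zero hd)

theorem monic_map_Phi (P : PrimeData k p) : (P.Φ.map (ev (Vd k p (jqModC k)))).Monic := by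
  rw [P.hΦ]
  exact (monic_X_sub_C _).mul (monic_prod_of_monic _ _ fun _ _ => monic_X_sub_C _)

theorem monic_Phi (hp : p ≠ 0) (P : PrimeData k p) : P.Φ.Monic :=
  monic_of_injective (ev_Vd_injective p hp) (monic_map_Phi P)

theorem natDegree_Phi (hp : p ≠ 0) (P : PrimeData k p) : P.Φ.natDegree = p + 1 := by
  rw [← natDegree_map_eq_of_injective (ev_Vd_injective p hp) P.Φ, P.hΦ,
    (monic_X_sub_C _).natDegree_mul (monic_prod_of_monic _ _ fun _ _ => monic_X_sub_C _),
    natDegree_X_sub_C, natDegree_prod_of_monic _ _ fun _ _ => monic_X_sub_C _]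
  simp only [natDegree_X_sub_C, Finset.sum_const, Finset.card_range, smul_eq_mul, mul_one]
  ring

/-- `Φ_p(J, V_p J) = 0`. -/
theorem eval_Phi (hp : p ≠ 0) (P : PrimeData k p) :
    (P.Φ.map (ev (jqModC k))).eval (Vd k p (jqModC k)) = 0 := by
  apply Vd_injective p hp
  rw [map_zero, ← map_eval_map_ev (Vd k p) (Vd_C p), Vd_Vd hp hp, P.hΦ, eval_mul, eval_sub,
    eval_X, eval_C, sub_self, zero_mul]

/-- `Φ_p(V_d J, V_{dp} J) = 0`. -/
theorem eval_Phi_Vd (hp : p ≠ 0) (P : PrimeData k p) (d : ℕ) (hd : d ≠ 0) :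
    (P.Φ.map (ev (Vd k d (jqModC k)))).eval (Vd k (d * p) (jqModC k)) = 0 := by
  have h := congrArg (Vd k d) (eval_Phi hp P)
  rw [map_zero, ← map_eval_map_ev (Vd k d) (Vd_C d), Vd_Vd hd hp] at h
  exact h

end Prime

/-! ### Integrality of a root of a monic bivariate polynomial -/

theorem isIntegral_of_bivariate {L : Type*} [Field L] [Algebra k L] (K0 : IntermediateField k L)
    (Q : k[X][X]) (hQ : Q.Monic) (y x : L) (hy : IsIntegral K0 y)
    (hx : (Q.map (aeval y : k[X] →ₐ[k] L).toRingHom).eval x = 0) : IsIntegral K0 x := by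
  let yI : integralClosure K0 L := ⟨y, hy⟩
  let g : k[X] →+* integralClosure K0 L :=
    Polynomial.eval₂RingHom ((algebraMap K0 (integralClosure K0 L)).comp (algebraMap k K0)) yI
  have hcomp : (algebraMap (integralClosure K0 L) L).comp g =
      (aeval y : k[X] →ₐ[k] L).toRingHom := by
    refine Polynomial.ringHom_ext (fun c => ?_) ?_
    · simp only [RingHom.comp_apply, g, coe_eval₂RingHom, eval₂_C, AlgHom.toRingHom_eq_coe,
        RingHom.coe_coe, aeval_C]
      rfl
    · simp only [RingHom.comp_apply, g, coe_eval₂RingHom, eval₂_X, AlgHom.toRingHom_eq_coe,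
        RingHom.coe_coe, aeval_X]
      rfl
  have hint : IsIntegral (integralClosure K0 L) x := by
    refine ⟨Q.map g, hQ.map g, ?_⟩
    rw [← eval_map, Polynomial.map_map, hcomp]
    exact hx
  exact isIntegral_trans x hint

/-! ### The generators are integral over `k(J)` -/

section Tower

variable (k)

theorem isIntegral_Vd_J (N : ℕ) (hN : N ≠ 0)
    (h : ∀ p : ℕ, p.Prime → p ∣ N → Nonempty (PrimeData k p)) :
    ∀ d : ℕ, d ∣ N →
      IsIntegral ↥(IntermediateField.adjoin k {jqModC k}) (Vd k d (jqModC k)) := by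
  intro d
  induction d using Nat.strong_induction_on with
  | _ d ih =>
    intro hdN
    have hd0 : d ≠ 0 := by
      rintro rfl
      exact hN (Nat.eq_zero_of_zero_dvd hdN)
    rcases eq_or_ne d 1 with rfl | hd1
    · have hJ : jqModC k ∈ IntermediateField.adjoin k {jqModC k} :=
        IntermediateField.mem_adjoin_simple_self k _
      have e : Vd k 1 (jqModC k) = jqModC k := by
        rw [Vd_eq]
        exact qExpand_one_apply _
      rw [e]
      exact isIntegral_algebraMap
        (x := (⟨jqModC k, hJ⟩ : ↥(IntermediateField.adjoin k {jqModC k})))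
    · have hp : d.minFac.Prime := Nat.minFac_prime hd1
      obtain ⟨d', hd'⟩ := Nat.minFac_dvd d
      have hd'0 : d' ≠ 0 := by
        rintro rfl
        rw [mul_zero] at hd'
        exact hd0 hd'
      have hlt : d' < d := by
        have h2 := hp.two_le
        have hpos : 0 < d' := Nat.pos_of_ne_zero hd'0
        calc d' = 1 * d' := (one_mul _).symm
          _ < d.minFac * d' := Nat.mul_lt_mul_of_pos_right (by omega) hpos
          _ = d := hd'.symm
      have hd'N : d' ∣ N := (Dvd.intro_left _ hd'.symm).trans hdN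
      have hpN : d.minFac ∣ N := (Nat.minFac_dvd d).trans hdN
      obtain ⟨P⟩ := h d.minFac hp hpN
      have ih' := ih d' hlt hd'N
      have hroot := eval_Phi_Vd hp.ne_zero P d' hd'0
      have e : d = d' * d.minFac := by rw [mul_comm]; exact hd'
      rw [← e] at hroot
      exact isIntegral_of_bivariate _ P.Φ (monic_Phi hp.ne_zero P) _ _ ih' hroot

/-- **(ALGEBRAIC)**: `j(q^d)` is integral over `k(j)` for `d ∣ N`. -/
theorem isIntegral_qExpand_J (N : ℕ) [NeZero N]
    (h : ∀ p : ℕ, p.Prime → p ∣ N → Nonempty (PrimeData k p)) {d : ℕ} [NeZero d] (hd : d ∣ N) :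
    IsIntegral ↥(IntermediateField.adjoin k {jqModC k}) (qExpand k d (jqModC k)) := by
  have h1 := isIntegral_Vd_J k N (NeZero.ne N) h d hd
  rwa [Vd_eq] at h1

theorem finite_divisorExpansionsC (N : ℕ) [NeZero N] : (divisorExpansionsC k N).Finite := by
  refine Set.Finite.subset ((N.divisors : Set ℕ).toFinite.image fun d => Vd k d (jqModC k)) ?_
  rintro x ⟨d, hne, hdN, rfl⟩
  refine ⟨d, ?_, ?_⟩
  · exact Finset.mem_coe.mpr (Nat.mem_divisors.mpr ⟨hdN, NeZero.ne N⟩)
  · have := hne
    exact congrFun (congrArg DFunLike.coe (Vd_eq k d)) (jqModC k)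

theorem adjoin_le_full (N : ℕ) [NeZero N] :
    IntermediateField.adjoin k {jqModC k} ≤ modularFunctionFieldFullC k N := by
  rw [IntermediateField.adjoin_le_iff]
  rintro x rfl
  exact jqModC_mem_full k N

/-- `L_N` is finite-dimensional over `k(J)`. -/
theorem finiteDimensional_full (N : ℕ) [NeZero N]
    (h : ∀ p : ℕ, p.Prime → p ∣ N → Nonempty (PrimeData k p)) :
    FiniteDimensional ↥(IntermediateField.adjoin k {jqModC k})
      ↥(IntermediateField.extendScalars (adjoin_le_full k N)) := by
  have hS : ∀ x ∈ divisorExpansionsC k N,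
      IsIntegral ↥(IntermediateField.adjoin k {jqModC k}) x := by
    rintro x ⟨d, hne, hdN, rfl⟩
    have := hne
    exact isIntegral_qExpand_J k N h hdN
  have : Finite ↥(divisorExpansionsC k N) := (finite_divisorExpansionsC k N).to_subtype
  have hfd := IntermediateField.finiteDimensional_adjoin
    (K := ↥(IntermediateField.adjoin k {jqModC k})) hS
  have e : IntermediateField.extendScalars (adjoin_le_full k N) =
      IntermediateField.adjoin ↥(IntermediateField.adjoin k {jqModC k})
        (divisorExpansionsC k N) :=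
    IntermediateField.extendScalars_adjoin (adjoin_le_full k N)
  rw [e]
  exact hfd

/-- **Finiteness**: `[L_N : k(J)] ≠ 0`. -/
theorem relfinrank_ne_zero (N : ℕ) [NeZero N]
    (h : ∀ p : ℕ, p.Prime → p ∣ N → Nonempty (PrimeData k p)) :
    IntermediateField.relfinrank (IntermediateField.adjoin k {jqModC k})
      (modularFunctionFieldFullC k N) ≠ 0 := by
  rw [IntermediateField.relfinrank_eq_finrank_of_le (adjoin_le_full k N)]
  have := finiteDimensional_full k N h
  exact (Module.finrank_pos).ne'

end Tower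

end Fermat.Agent.IgusaLib.TowerAlg
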