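import Mathlib
import Fermat.Agent.GenusLib.CosetCount

/-!
# Arithmetic of the Dedekind `ψ`-function along prime factors, and the abstract tower induction

`ψ(pM) = p ψ(M)` if `p ∣ M`, `ψ(pM) = (p + 1) ψ(M)` if `p ∤ M`; hence any function `f` on the
divisors of `N` with `f 1 ≥ 1`, `f (pM) ≥ p f M` (`p ∣ M`) and `f (pM) ≥ (p + 1) f M` (`p ∤ M`)
dominates `ψ`.
-/

set_option autoImplicit false

namespace Fermat.Agent.IgusaLib.TowerPsi

open ModularCurve Fermat.Agent.GenusLib.Cosets

theorem dedekindPsi_prime {p : ℕ} (hp : p.Prime) : dedekindPsi p = p + 1 := by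
  have h := dedekindPsi_prime_pow hp (k := 1) one_pos
  rwa [pow_one, Nat.sub_self, pow_zero] at h

theorem dedekindPsi_prime_mul_of_not_dvd {p M : ℕ} (hp : p.Prime) (h : ¬ p ∣ M) :
    dedekindPsi (p * M) = (p + 1) * dedekindPsi M := by
  have hcop : p.Coprime M := (Nat.Prime.coprime_iff_not_dvd hp).mpr h
  rw [dedekindPsi_mul hcop, dedekindPsi_prime hp]

theorem dedekindPsi_prime_mul_of_dvd {p M : ℕ} (hp : p.Prime) (hM : M ≠ 0) (h : p ∣ M) :
    dedekindPsi (p * M) = p * dedekindPsi M := by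
  obtain ⟨e, m, hm, rfl⟩ := Nat.exists_eq_pow_mul_and_not_dvd hM p hp.ne_one
  have he : e ≠ 0 := by
    rintro rfl
    rw [pow_zero, one_mul] at h
    exact hm h
  obtain ⟨e', rfl⟩ : ∃ e', e = e' + 1 := ⟨e - 1, by omega⟩
  have hpm : p.Coprime m := (Nat.Prime.coprime_iff_not_dvd hp).mpr hm
  have hcop : (p ^ (e' + 1)).Coprime m := Nat.Coprime.pow_left _ hpm
  have hcop' : (p ^ (e' + 2)).Coprime m := Nat.Coprime.pow_left _ hpm
  have hA : dedekindPsi (p ^ (e' + 2)) = p ^ (e' + 2) + p ^ (e' + 1) := by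
    have h0 := dedekindPsi_prime_pow hp (k := e' + 2) (by omega)
    have e1 : e' + 2 - 1 = e' + 1 := by omega
    rwa [e1] at h0
  have hB : dedekindPsi (p ^ (e' + 1)) = p ^ (e' + 1) + p ^ e' := by
    have h0 := dedekindPsi_prime_pow hp (k := e' + 1) (by omega)
    have e1 : e' + 1 - 1 = e' := by omega
    rwa [e1] at h0
  have e0 : p * (p ^ (e' + 1) * m) = p ^ (e' + 2) * m := by ring
  rw [e0, dedekindPsi_mul hcop', dedekindPsi_mul hcop, hA, hB]
  ring

/-- The abstract tower induction. -/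
theorem psi_le_of_steps (N : ℕ) (hN : N ≠ 0) (f : ℕ → ℕ) (h1 : 1 ≤ f 1)
    (hdvd : ∀ p M : ℕ, p.Prime → p * M ∣ N → p ∣ M → p * f M ≤ f (p * M))
    (hndvd : ∀ p M : ℕ, p.Prime → p * M ∣ N → ¬ p ∣ M → (p + 1) * f M ≤ f (p * M)) :
    ∀ M : ℕ, M ∣ N → dedekindPsi M ≤ f M := by
  intro M
  induction M using Nat.strong_induction_on with
  | _ M ih =>
    intro hMN
    have hM0 : M ≠ 0 := by
      rintro rfl
      exact hN (Nat.eq_zero_of_zero_dvd hMN)
    rcases eq_or_ne M 1 with rfl | hM1
    · rw [dedekindPsi_one]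
      exact h1
    · have hp : M.minFac.Prime := Nat.minFac_prime hM1
      obtain ⟨M', hM'⟩ := Nat.minFac_dvd M
      have hM'0 : M' ≠ 0 := by
        rintro rfl
        rw [mul_zero] at hM'
        exact hM0 hM'
      have hlt : M' < M := by
        have h2 := hp.two_le
        have hpos : 0 < M' := Nat.pos_of_ne_zero hM'0
        calc M' = 1 * M' := (one_mul _).symm
          _ < M.minFac * M' := Nat.mul_lt_mul_of_pos_right (by omega) hpos
          _ = M := hM'.symm
      have hM'N : M' ∣ N := (Dvd.intro_left _ hM'.symm).trans hMN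
      have hpMN : M.minFac * M' ∣ N := by rw [← hM']; exact hMN
      have ih' := ih M' hlt hM'N
      by_cases hd : M.minFac ∣ M'
      · have e : dedekindPsi M = M.minFac * dedekindPsi M' := by
          conv_lhs => rw [hM']
          exact dedekindPsi_prime_mul_of_dvd hp hM'0 hd
        have h3 := hdvd M.minFac M' hp hpMN hd
        rw [← hM'] at h3
        calc dedekindPsi M = M.minFac * dedekindPsi M' := e
          _ ≤ M.minFac * f M' := Nat.mul_le_mul_left _ ih'
          _ ≤ f M := h3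
      · have e : dedekindPsi M = (M.minFac + 1) * dedekindPsi M' := by
          conv_lhs => rw [hM']
          exact dedekindPsi_prime_mul_of_not_dvd hp hd
        have h3 := hndvd M.minFac M' hp hpMN hd
        rw [← hM'] at h3
        calc dedekindPsi M = (M.minFac + 1) * dedekindPsi M' := e
          _ ≤ (M.minFac + 1) * f M' := Nat.mul_le_mul_left _ ih'
          _ ≤ f M := h3

end Fermat.Agent.IgusaLib.TowerPsi
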