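import Mathlib
import Fermat.Prelude.Def_ModularCurve_X0ModL
import Fermat.Agent.IgusaLib.Defs

/-!
# S28 (Igusa), tower step (T1)

If `y` has degree `n` over `k(x)` and `x` has degree `n` over `k(y)` (with `n ≠ 0`), then every
intermediate field `L` containing `x` and `y` has the same relative degree over `k(x)` and over
`k(y)`: both are `n * [L : k(x, y)]`.
-/

set_option autoImplicit false

noncomputable section

namespace Fermat.Agent.IgusaLib.TowerT1

open IntermediateField ModularCurve

section generic

variable {k Ω : Type*} [Field k] [Field Ω] [Algebra k Ω]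

/-- `[k(x)(y) : k(x)] = deg (minpoly k(x) y)`, in `relfinrank` form. -/
theorem relfinrank_adjoin_adjoin (x y : Ω) {n : ℕ} (hn : n ≠ 0)
    (hxy : (minpoly ↥(IntermediateField.adjoin k {x}) y).natDegree = n) :
    IntermediateField.relfinrank (IntermediateField.adjoin k {x})
      ((IntermediateField.adjoin ↥(IntermediateField.adjoin k {x}) {y}).restrictScalars k) = n := by
  have hle : IntermediateField.adjoin k {x} ≤
      (IntermediateField.adjoin ↥(IntermediateField.adjoin k {x}) {y}).restrictScalars k := by
    intro z hz
    exact (IntermediateField.adjoin ↥(IntermediateField.adjoin k {x}) {y}).algebraMap_mem ⟨z, hz⟩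
  have hint : IsIntegral ↥(IntermediateField.adjoin k {x}) y := by
    by_contra h
    rw [minpoly.eq_zero h, Polynomial.natDegree_zero] at hxy
    exact hn hxy.symm
  rw [IntermediateField.relfinrank_eq_finrank_of_le hle]
  have hext : IntermediateField.extendScalars hle =
      IntermediateField.adjoin ↥(IntermediateField.adjoin k {x}) {y} :=
    IntermediateField.restrictScalars_injective k (by
      rw [IntermediateField.extendScalars_restrictScalars])
  rw [hext, IntermediateField.adjoin.finrank hint, hxy]

/-- **(T1), generic form.** -/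
theorem relfinrank_adjoin_simple_eq (x y : Ω) {n : ℕ} (hn : n ≠ 0)
    (hxy : (minpoly ↥(IntermediateField.adjoin k {x}) y).natDegree = n)
    (hyx : (minpoly ↥(IntermediateField.adjoin k {y}) x).natDegree = n)
    (L : IntermediateField k Ω) (hx : x ∈ L) (hy : y ∈ L) :
    IntermediateField.relfinrank (IntermediateField.adjoin k {x}) L =
      IntermediateField.relfinrank (IntermediateField.adjoin k {y}) L := by
  have h1 := relfinrank_adjoin_adjoin x y hn hxy
  have h2 := relfinrank_adjoin_adjoin y x hn hyx
  have hE : (IntermediateField.adjoin ↥(IntermediateField.adjoin k {x}) {y}).restrictScalars k =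
      (IntermediateField.adjoin ↥(IntermediateField.adjoin k {y}) {x}).restrictScalars k :=
    IntermediateField.adjoin_simple_comm k x y
  have hEL : (IntermediateField.adjoin ↥(IntermediateField.adjoin k {x}) {y}).restrictScalars k
      ≤ L := by
    rw [IntermediateField.adjoin_simple_adjoin_simple, IntermediateField.adjoin_le_iff]
    rintro z (rfl | rfl)
    · exact hx
    · exact hy
  have hxE : IntermediateField.adjoin k {x} ≤
      (IntermediateField.adjoin ↥(IntermediateField.adjoin k {x}) {y}).restrictScalars k := by
    intro z hz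
    exact (IntermediateField.adjoin ↥(IntermediateField.adjoin k {x}) {y}).algebraMap_mem ⟨z, hz⟩
  have hyE : IntermediateField.adjoin k {y} ≤
      (IntermediateField.adjoin ↥(IntermediateField.adjoin k {y}) {x}).restrictScalars k := by
    intro z hz
    exact (IntermediateField.adjoin ↥(IntermediateField.adjoin k {y}) {x}).algebraMap_mem ⟨z, hz⟩
  rw [← IntermediateField.relfinrank_mul_relfinrank hxE hEL, h1,
    ← IntermediateField.relfinrank_mul_relfinrank hyE (hE ▸ hEL), h2, hE]

end generic

/-- **(T1)**: if `V_p J` has degree `p + 1` over `k(J)` and `J` has degree `p + 1` over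
`k(V_p J)`, then `[L : k(J)] = [L : k(V_p J)]` for every intermediate field `L` containing both. -/
theorem T1 {k : Type*} [Field k] {p : ℕ}
    (hF2 : (minpoly ↥(IntermediateField.adjoin k {jqModC k}) (Vd k p (jqModC k))).natDegree
      = p + 1)
    (hF3 : (minpoly ↥(IntermediateField.adjoin k {Vd k p (jqModC k)}) (jqModC k)).natDegree
      = p + 1)
    (L : IntermediateField k (LaurentSeries k)) (hJ : jqModC k ∈ L)
    (hVJ : Vd k p (jqModC k) ∈ L) :
    IntermediateField.relfinrank (IntermediateField.adjoin k {jqModC k}) L =
      IntermediateField.relfinrank (IntermediateField.adjoin k {Vd k p (jqModC k)}) L :=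
  relfinrank_adjoin_simple_eq (jqModC k) (Vd k p (jqModC k)) (Nat.succ_ne_zero p) hF2 hF3 L hJ hVJ

/-- **(T1)** for `L = L_M = k(V_d J : d ∣ M)` with `p ∣ M`. -/
theorem T1_full {k : Type*} [Field k] {p : ℕ}
    (hF2 : (minpoly ↥(IntermediateField.adjoin k {jqModC k}) (Vd k p (jqModC k))).natDegree
      = p + 1)
    (hF3 : (minpoly ↥(IntermediateField.adjoin k {Vd k p (jqModC k)}) (jqModC k)).natDegree
      = p + 1)
    (M : ℕ) [NeZero M] (hpM : p ∣ M) :
    IntermediateField.relfinrank (IntermediateField.adjoin k {jqModC k})
        (modularFunctionFieldFullC k M) =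
      IntermediateField.relfinrank (IntermediateField.adjoin k {Vd k p (jqModC k)})
        (modularFunctionFieldFullC k M) := by
  have hp0 : p ≠ 0 := by
    rintro rfl
    exact NeZero.ne M (Nat.eq_zero_of_zero_dvd hpM)
  have : NeZero p := ⟨hp0⟩
  refine T1 hF2 hF3 _ (jqModC_mem_full k M) ?_
  rw [Vd_eq]
  exact jqModCd_mem_full k M hpM

end Fermat.Agent.IgusaLib.TowerT1
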