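import Mathlib
import Fermat.Agent.IgusaLib.FormalF1
import Fermat.Prelude.Def_ModularCurve_X0ModL

/-!
# The step (T2) of the tower argument for S28

For a prime `p` with level-`p` data over `k` and `M' ≥ 1`:
`p · [L_{M'} : k(J)] ≤ [L_{pM'} : k(J(q^p))]`, where `L_M = k(J(q^d) : d ∣ M) ⊆ k((q))`.

Generic tools:
* `natDegree_minpoly_ge_of_conj`: distinct conjugates under an endomorphism fixing the base
  field bound the degree of the minimal polynomial from below;
* `natDegree_minpoly_le_relfinrank`: the degree of a minimal polynomial is at most the relative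
  degree.
-/

set_option autoImplicit false

noncomputable section

namespace Fermat.Agent.IgusaLib.TowerT2

open Polynomial ModularCurve IntermediateField Fermat.Agent.IgusaLib

section Generic

variable {k L : Type*} [Field k] [Field L] [Algebra k L]

/-- If `σ` is a ring endomorphism of `L` fixing `E` pointwise and the iterates `σ^[b] y`, `b < p`,
of an element `y` integral over `E` are pairwise distinct, then `[E(y) : E] ≥ p`. -/
theorem natDegree_minpoly_ge_of_conj (E : IntermediateField k L) (σ : L →+* L)
    (hσ : ∀ x ∈ E, σ x = x) (y : L) (hy : IsIntegral E y) (p : ℕ)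
    (hinj : ∀ b < p, ∀ b' < p, σ^[b] y = σ^[b'] y → b = b') :
    p ≤ (minpoly E y).natDegree := by
  classical
  set m : L[X] := (minpoly E y).map (algebraMap E L) with hm
  have hm0 : m ≠ 0 := ((minpoly.monic hy).map _).ne_zero
  have hcomp : σ.comp (algebraMap E L) = algebraMap E L :=
    RingHom.ext fun x => hσ _ x.2
  have hroot : ∀ b : ℕ, m.eval (σ^[b] y) = 0 := by
    intro b
    induction b with
    | zero =>
      rw [Function.iterate_zero, id, hm, Polynomial.eval_map_algebraMap, minpoly.aeval]
    | succ b ih =>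
      rw [Function.iterate_succ_apply', hm, Polynomial.eval_map, ← hcomp,
        ← Polynomial.hom_eval₂, ← Polynomial.eval_map, ← hm, ih, map_zero]
  set s : Finset L := (Finset.range p).image (fun b => σ^[b] y) with hs
  have hcard : s.card = p := by
    rw [hs, Finset.card_image_of_injOn, Finset.card_range]
    intro b hb b' hb' h
    exact hinj b (Finset.mem_range.mp hb) b' (Finset.mem_range.mp hb') h
  have hsub : s.val ⊆ m.roots := by
    intro x hx
    obtain ⟨b, -, rfl⟩ := Finset.mem_image.mp (Finset.mem_val.mp hx)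
    exact (Polynomial.mem_roots hm0).mpr (hroot b)
  have := Polynomial.card_le_degree_of_subset_roots hsub
  rw [hcard, hm, Polynomial.natDegree_map] at this
  exact this

/-- For `A ≤ B` with `B / A` finite and `y ∈ B`: `deg (minpoly A y) ≤ [B : A]`. -/
theorem natDegree_minpoly_le_relfinrank {A B : IntermediateField k L} (hAB : A ≤ B)
    (hfin : relfinrank A B ≠ 0) {y : L} (hy : y ∈ B) :
    (minpoly A y).natDegree ≤ relfinrank A B := by
  rw [relfinrank_eq_finrank_of_le hAB] at hfin ⊢
  have : FiniteDimensional A (extendScalars hAB) :=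
    Module.finite_of_finrank_pos (Nat.pos_of_ne_zero hfin)
  have hfree : Module.Free A (extendScalars hAB) := Module.Free.of_divisionRing A _
  have h := minpoly.natDegree_le (A := A) (⟨y, hy⟩ : extendScalars hAB)
  rwa [IntermediateField.minpoly_eq] at h

/-- For `A ≤ B` with `B / A` finite, every element of `B` is integral over `A`. -/
theorem isIntegral_of_relfinrank_ne_zero {A B : IntermediateField k L} (hAB : A ≤ B)
    (hfin : relfinrank A B ≠ 0) {y : L} (hy : y ∈ B) : IsIntegral A y := by
  rw [relfinrank_eq_finrank_of_le hAB] at hfin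
  have : FiniteDimensional A (extendScalars hAB) :=
    Module.finite_of_finrank_pos (Nat.pos_of_ne_zero hfin)
  have h : IsIntegral A (⟨y, hy⟩ : extendScalars hAB) := IsIntegral.of_finite A _
  exact h.map (extendScalars hAB).val

end Generic

section T2

variable {k : Type*} [Field k]

/-- `V_p` maps `L_{M'}` into `L_{pM'}`. -/
theorem map_full_le (p M' : ℕ) [NeZero p] [NeZero M'] [NeZero (p * M')] :
    (modularFunctionFieldFullC k M').map (VdAlgHom k p) ≤
      modularFunctionFieldFullC k (p * M') := by
  rw [modularFunctionFieldFullC, IntermediateField.adjoin_map, IntermediateField.adjoin_le_iff]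
  rintro x ⟨y, ⟨d, hne, hdvd, rfl⟩, rfl⟩
  have := hne
  have : NeZero (p * d) := ⟨Nat.mul_ne_zero (NeZero.ne p) (NeZero.ne d)⟩
  show VdAlgHom k p (qExpand k d (jqModC k)) ∈ _
  rw [VdAlgHom_apply, Vd_eq, qExpand_qExpand]
  exact jqModCd_mem_full k (p * M') (mul_dvd_mul_left p hdvd)

theorem adjoin_Vd_eq_map (p : ℕ) :
    IntermediateField.adjoin k {Vd k p (jqModC k)} =
      (IntermediateField.adjoin k {jqModC k}).map (VdAlgHom k p) := by
  rw [IntermediateField.adjoin_map, Set.image_singleton, VdAlgHom_apply]

theorem adjoin_J_le_full (M : ℕ) [NeZero M] :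
    IntermediateField.adjoin k {jqModC k} ≤ modularFunctionFieldFullC k M := by
  rw [IntermediateField.adjoin_le_iff]
  rintro x rfl
  exact jqModC_mem_full k M

/-- `tw ζ` fixes the image of `V_p` pointwise when `ζ ^ p = 1`. -/
theorem tw_fix_map {p : ℕ} (hp : p ≠ 0) (ζ : kˣ) (hζ : ζ ^ p = 1)
    (E : IntermediateField k (LaurentSeries k)) :
    ∀ x ∈ E.map (VdAlgHom k p), tw ζ x = x := by
  rintro x ⟨y, -, rfl⟩
  exact tw_Vd_of_pow_eq_one ζ hp hζ y

theorem iterate_tw (u : kˣ) (b : ℕ) (f : LaurentSeries k) : (tw u)^[b] f = tw (u ^ b) f := by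
  induction b with
  | zero => rw [Function.iterate_zero, id, pow_zero, tw_one_apply]
  | succ b ih => rw [Function.iterate_succ_apply', ih, tw_tw, pow_succ']

/-- the twists `J(ζ^b q)`, `b < p`, are pairwise distinct -/
theorem tw_J_inj {p : ℕ} (ζ : kˣ) (hζ : IsPrimitiveRoot ζ p) :
    ∀ b < p, ∀ b' < p, tw (ζ ^ b) (jqModC k) = tw (ζ ^ b') (jqModC k) → b = b' := by
  intro b hb b' hb' h
  have hc := congrArg (fun f => f.coeff (-1 : ℤ)) h
  simp only [tw_coeff, coeff_jqModC_neg_one, mul_one] at hc
  have hu : (ζ ^ b) ^ (-1 : ℤ) = (ζ ^ b') ^ (-1 : ℤ) := Units.ext hc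
  rw [zpow_neg_one, zpow_neg_one, inv_inj] at hu
  exact hζ.pow_inj hb hb' hu

/-- **(T2)** `p · [L_{M'} : k(J)] ≤ [L_{pM'} : k(J(q^p))]`. -/
theorem T2 {p : ℕ} (hp : p.Prime) (P : PrimeData k p) (M' : ℕ) [NeZero M'] [NeZero (p * M')]
    (hfin : relfinrank (IntermediateField.adjoin k {Vd k p (jqModC k)})
      (modularFunctionFieldFullC k (p * M')) ≠ 0) :
    p * relfinrank (IntermediateField.adjoin k {jqModC k}) (modularFunctionFieldFullC k M') ≤
      relfinrank (IntermediateField.adjoin k {Vd k p (jqModC k)})
        (modularFunctionFieldFullC k (p * M')) := by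
  have : NeZero p := ⟨hp.ne_zero⟩
  have hA := adjoin_Vd_eq_map (k := k) p
  have h1 : IntermediateField.adjoin k {Vd k p (jqModC k)} ≤
      (modularFunctionFieldFullC k M').map (VdAlgHom k p) := by
    rw [hA]
    exact IntermediateField.map_mono _ (adjoin_J_le_full M')
  have h2 : (modularFunctionFieldFullC k M').map (VdAlgHom k p) ≤
      modularFunctionFieldFullC k (p * M') := map_full_le p M'
  have hmul := relfinrank_mul_relfinrank h1 h2
  have hlow : relfinrank (IntermediateField.adjoin k {Vd k p (jqModC k)})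
      ((modularFunctionFieldFullC k M').map (VdAlgHom k p)) =
      relfinrank (IntermediateField.adjoin k {jqModC k}) (modularFunctionFieldFullC k M') := by
    rw [hA]
    exact relfinrank_map_map _ _ (VdAlgHom k p)
  have hup0 : relfinrank ((modularFunctionFieldFullC k M').map (VdAlgHom k p))
      (modularFunctionFieldFullC k (p * M')) ≠ 0 := fun h => hfin (by rw [← hmul, h, mul_zero])
  have hJ : jqModC k ∈ modularFunctionFieldFullC k (p * M') := jqModC_mem_full k (p * M')
  have hint := isIntegral_of_relfinrank_ne_zero h2 hup0 hJ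
  have hdeg : p ≤ (minpoly ((modularFunctionFieldFullC k M').map (VdAlgHom k p))
      (jqModC k)).natDegree :=
    natDegree_minpoly_ge_of_conj _ (tw P.ζ) (tw_fix_map hp.ne_zero P.ζ P.hζ.pow_eq_one _)
      (jqModC k) hint p (by
        intro b hb b' hb' h
        rw [iterate_tw, iterate_tw] at h
        exact tw_J_inj P.ζ P.hζ b hb b' hb' h)
  have hup := hdeg.trans (natDegree_minpoly_le_relfinrank h2 hup0 hJ)
  calc p * relfinrank (IntermediateField.adjoin k {jqModC k}) (modularFunctionFieldFullC k M')
      = relfinrank (IntermediateField.adjoin k {Vd k p (jqModC k)})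
          ((modularFunctionFieldFullC k M').map (VdAlgHom k p)) * p := by rw [hlow, mul_comm]
    _ ≤ _ := Nat.mul_le_mul_left _ hup
    _ = _ := hmul

end T2

end Fermat.Agent.IgusaLib.TowerT2
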